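import Mathlib

/-!
# Group rings of finite abelian `p`-groups over a local ring of residue characteristic `p`
-/

set_option autoImplicit false
set_option linter.unusedSectionVars false
set_option linter.style.haveILetI false

open IsLocalRing

namespace Fermat.Agent.RT

variable (𝒪 : Type*) [CommRing 𝒪] (Δ : Type*) [CommGroup Δ]

/-- the augmentation -/
noncomputable def aug : MonoidAlgebra 𝒪 Δ →ₐ[𝒪] 𝒪 := MonoidAlgebra.lift 𝒪 𝒪 Δ 1

/-- the group element -/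
noncomputable def gr (g : Δ) : MonoidAlgebra 𝒪 Δ := MonoidAlgebra.of 𝒪 Δ g

variable {𝒪 Δ}

@[simp] theorem aug_gr (g : Δ) : aug 𝒪 Δ (gr 𝒪 Δ g) = 1 := by simp [aug, gr]

@[simp] theorem gr_one : gr 𝒪 Δ 1 = 1 := map_one _
@[simp] theorem gr_mul (g h : Δ) : gr 𝒪 Δ (g * h) = gr 𝒪 Δ g * gr 𝒪 Δ h := map_mul _ _ _
@[simp] theorem gr_pow (g : Δ) (n : ℕ) : gr 𝒪 Δ (g ^ n) = gr 𝒪 Δ g ^ n := map_pow _ _ _

/-- the augmentation ideal is generated by the `g - 1`. -/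
theorem sub_aug_mem (x : MonoidAlgebra 𝒪 Δ) :
    x - algebraMap 𝒪 _ (aug 𝒪 Δ x) ∈ Ideal.span (Set.range fun g : Δ => gr 𝒪 Δ g - 1) := by
  induction x using MonoidAlgebra.induction_on with
  | of g =>
    change gr 𝒪 Δ g - _ ∈ _
    have : aug 𝒪 Δ (MonoidAlgebra.of 𝒪 Δ g) = 1 := aug_gr g
    rw [this, map_one]
    exact Ideal.subset_span ⟨g, rfl⟩
  | add a b ha hb =>
    rw [map_add, map_add]
    convert Ideal.add_mem _ ha hb using 1
    ring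
  | smul r a ha =>
    rw [map_smul, smul_eq_mul, map_mul, Algebra.smul_def, ← mul_sub]
    exact Ideal.mul_mem_left _ _ ha

/-- it is enough to take generators of the group. -/
theorem gr_sub_one_mem {ι : Type*} (g : ι → Δ) {x : Δ} (hx : x ∈ Subgroup.closure (Set.range g)) :
    gr 𝒪 Δ x - 1 ∈ Ideal.span (Set.range fun i => gr 𝒪 Δ (g i) - 1) := by
  induction hx using Subgroup.closure_induction with
  | mem x hx =>
    obtain ⟨i, rfl⟩ := hx
    exact Ideal.subset_span ⟨i, rfl⟩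
  | one => simp
  | mul x y _ _ hx hy =>
    rw [gr_mul]
    have : gr 𝒪 Δ x * gr 𝒪 Δ y - 1 = gr 𝒪 Δ x * (gr 𝒪 Δ y - 1) + (gr 𝒪 Δ x - 1) := by ring
    rw [this]
    exact Ideal.add_mem _ (Ideal.mul_mem_left _ _ hy) hx
  | inv x _ hx =>
    have : gr 𝒪 Δ x⁻¹ - 1 = - gr 𝒪 Δ x⁻¹ * (gr 𝒪 Δ x - 1) := by
      have h : gr 𝒪 Δ x⁻¹ * gr 𝒪 Δ x = 1 := by rw [← gr_mul]; simp
      linear_combination h
    rw [this]
    exact Ideal.mul_mem_left _ _ hx

theorem ker_aug_eq {ι : Type*} (g : ι → Δ) (hg : Subgroup.closure (Set.range g) = ⊤) :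
    RingHom.ker (aug 𝒪 Δ) = Ideal.span (Set.range fun i => gr 𝒪 Δ (g i) - 1) := by
  apply le_antisymm
  · intro x hx
    have h := sub_aug_mem x
    rw [RingHom.mem_ker] at hx
    rw [hx, map_zero, sub_zero] at h
    refine (Ideal.span_le.2 ?_) h
    rintro _ ⟨y, rfl⟩
    exact gr_sub_one_mem g (hg ▸ trivial)
  · rw [Ideal.span_le]
    rintro _ ⟨i, rfl⟩
    simp [RingHom.mem_ker]

section Local

variable [IsLocalRing 𝒪] {p : ℕ} [hp : Fact p.Prime]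

/-- the residual augmentation -/
noncomputable def resAug (𝒪 : Type*) [CommRing 𝒪] [IsLocalRing 𝒪] (Δ : Type*) [CommGroup Δ] :
    MonoidAlgebra 𝒪 Δ →+* ResidueField 𝒪 :=
  (residue 𝒪).comp (aug 𝒪 Δ : MonoidAlgebra 𝒪 Δ →+* 𝒪)

theorem resAug_surjective : Function.Surjective (resAug 𝒪 Δ) := by
  intro x
  obtain ⟨a, rfl⟩ := residue_surjective x
  exact ⟨algebraMap 𝒪 _ a, by rw [resAug, RingHom.comp_apply]; congr 1; exact (aug 𝒪 Δ).commutes a⟩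

theorem mem_ker_resAug {x : MonoidAlgebra 𝒪 Δ} :
    x ∈ RingHom.ker (resAug 𝒪 Δ) ↔ aug 𝒪 Δ x ∈ maximalIdeal 𝒪 := by
  rw [RingHom.mem_ker, resAug, RingHom.comp_apply, residue_eq_zero_iff]; rfl

instance instFiniteMA [Finite Δ] : Module.Finite 𝒪 (MonoidAlgebra 𝒪 Δ) :=
  Module.Finite.of_basis (MonoidAlgebra.basis Δ 𝒪)

instance instFreeMA : Module.Free 𝒪 (MonoidAlgebra 𝒪 Δ) :=
  Module.Free.of_basis (MonoidAlgebra.basis Δ 𝒪)

include hp in
theorem le_of_isMaximal (hp𝒪 : (p : 𝒪) ∈ maximalIdeal 𝒪) (hΔ : IsPGroup p Δ) [Finite Δ]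
    (I : Ideal (MonoidAlgebra 𝒪 Δ)) (hI : I.IsMaximal) : RingHom.ker (resAug 𝒪 Δ) ≤ I := by
  have hI' : (I.comap (algebraMap 𝒪 (MonoidAlgebra 𝒪 Δ))).IsMaximal :=
    Ideal.isMaximal_comap_of_isIntegral_of_isMaximal I
  have h1 := eq_maximalIdeal hI'
  have hpI : ((p : ℕ) : MonoidAlgebra 𝒪 Δ) ∈ I := by
    have : (p : 𝒪) ∈ I.comap (algebraMap 𝒪 (MonoidAlgebra 𝒪 Δ)) := h1 ▸ hp𝒪
    rwa [Ideal.mem_comap, map_natCast] at this
  have hIp := hI.isPrime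
  have hg : ∀ g : Δ, gr 𝒪 Δ g - 1 ∈ I := by
    intro g
    obtain ⟨k, hk⟩ := hΔ g
    refine hI.isPrime.mem_of_pow_mem (p ^ k) ?_
    obtain ⟨c, hc⟩ := exists_add_pow_prime_pow_eq hp.out (gr 𝒪 Δ g - 1) 1 k
    rw [sub_add_cancel, ← gr_pow, hk, gr_one, one_pow] at hc
    have : (gr 𝒪 Δ g - 1) ^ p ^ k = - (p * ((gr 𝒪 Δ g - 1) * 1 * c)) := by
      linear_combination -hc
    rw [this]
    exact I.neg_mem (I.mul_mem_right _ hpI)
  intro x hx
  rw [mem_ker_resAug] at hx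
  have h2 := sub_aug_mem x
  have h3 : x - algebraMap 𝒪 _ (aug 𝒪 Δ x) ∈ I := by
    refine (Ideal.span_le.2 ?_) h2
    rintro _ ⟨y, rfl⟩
    exact hg y
  have h4 : algebraMap 𝒪 (MonoidAlgebra 𝒪 Δ) (aug 𝒪 Δ x) ∈ I := by
    have : aug 𝒪 Δ x ∈ I.comap (algebraMap 𝒪 (MonoidAlgebra 𝒪 Δ)) := h1 ▸ hx
    exact this
  have := I.add_mem h3 h4
  rwa [sub_add_cancel] at this

theorem ker_resAug_isMaximal : (RingHom.ker (resAug 𝒪 Δ)).IsMaximal :=
  RingHom.ker_isMaximal_of_surjective _ resAug_surjective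

include hp in
theorem eq_of_isMaximal (hp𝒪 : (p : 𝒪) ∈ maximalIdeal 𝒪) (hΔ : IsPGroup p Δ) [Finite Δ]
    (I : Ideal (MonoidAlgebra 𝒪 Δ)) (hI : I.IsMaximal) : I = RingHom.ker (resAug 𝒪 Δ) :=
  ((ker_resAug_isMaximal (𝒪 := 𝒪) (Δ := Δ)).eq_of_le hI.ne_top
    (le_of_isMaximal hp𝒪 hΔ I hI)).symm

include hp in
/-- The group ring of a finite `p`-group is local. -/
theorem isLocalRing_groupRing (hp𝒪 : (p : 𝒪) ∈ maximalIdeal 𝒪) (hΔ : IsPGroup p Δ) [Finite Δ] :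
    IsLocalRing (MonoidAlgebra 𝒪 Δ) :=
  IsLocalRing.of_unique_max_ideal ⟨_, ker_resAug_isMaximal,
    fun I hI => eq_of_isMaximal hp𝒪 hΔ I hI⟩

include hp in
theorem maximalIdeal_groupRing (hp𝒪 : (p : 𝒪) ∈ maximalIdeal 𝒪) (hΔ : IsPGroup p Δ) [Finite Δ]
    [IsLocalRing (MonoidAlgebra 𝒪 Δ)] :
    maximalIdeal (MonoidAlgebra 𝒪 Δ) = RingHom.ker (resAug 𝒪 Δ) :=
  eq_of_isMaximal hp𝒪 hΔ _ (maximalIdeal.isMaximal _)

theorem ker_resAug_eq {ι : Type*} (g : ι → Δ) (hg : Subgroup.closure (Set.range g) = ⊤) :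
    RingHom.ker (resAug 𝒪 Δ) = (maximalIdeal 𝒪).map (algebraMap 𝒪 (MonoidAlgebra 𝒪 Δ)) ⊔
      Ideal.span (Set.range fun i => gr 𝒪 Δ (g i) - 1) := by
  rw [← ker_aug_eq g hg]
  apply le_antisymm
  · intro x hx
    rw [mem_ker_resAug] at hx
    have h : x = algebraMap 𝒪 _ (aug 𝒪 Δ x) + (x - algebraMap 𝒪 _ (aug 𝒪 Δ x)) := by ring
    rw [h]
    refine Submodule.add_mem_sup (Ideal.mem_map_of_mem _ hx) ?_
    rw [RingHom.mem_ker, map_sub, AlgHom.commutes]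
    simp
  · refine sup_le ?_ ?_
    · rw [Ideal.map_le_iff_le_comap]
      intro a ha
      rw [Ideal.mem_comap, mem_ker_resAug, AlgHom.commutes]
      exact ha
    · intro x hx
      rw [mem_ker_resAug, (RingHom.mem_ker).1 hx]
      exact zero_mem _

end Local

section Norm

/-- the norm element of the cyclic group generated by `g`. -/
noncomputable def nrm (𝒪 : Type*) [CommRing 𝒪] {Δ : Type*} [CommGroup Δ] (g : Δ) :
    MonoidAlgebra 𝒪 Δ := ∑ j ∈ Finset.range (orderOf g), gr 𝒪 Δ g ^ j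

theorem sub_one_mul_nrm (g : Δ) : (gr 𝒪 Δ g - 1) * nrm 𝒪 g = 0 := by
  rw [nrm, mul_comm, geom_sum_mul, ← gr_pow, pow_orderOf_eq_one, gr_one, sub_self]

theorem coeff_gr_mul (h : Δ) (b : MonoidAlgebra 𝒪 Δ) (x : Δ) :
    (gr 𝒪 Δ h * b).coeff x = b.coeff (h⁻¹ * x) := by
  rw [gr, MonoidAlgebra.of_apply, MonoidAlgebra.coeff_single_mul_apply, one_mul]

theorem coeff_nrm_mul (g : Δ) (b : MonoidAlgebra 𝒪 Δ) (x : Δ) :
    (nrm 𝒪 g * b).coeff x = ∑ j ∈ Finset.range (orderOf g), b.coeff ((g ^ j)⁻¹ * x) := by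
  rw [nrm, Finset.sum_mul, MonoidAlgebra.coeff_sum, Finset.sum_apply']
  refine Finset.sum_congr rfl fun j _ => ?_
  rw [← gr_pow, coeff_gr_mul]

theorem coeff_nrm_one [Finite Δ] (g : Δ) : (nrm 𝒪 g).coeff 1 = 1 := by
  classical
  have h := coeff_nrm_mul g (1 : MonoidAlgebra 𝒪 Δ) 1
  rw [mul_one] at h
  rw [h, Finset.sum_eq_single_of_mem 0 (Finset.mem_range.2 (orderOf_pos g))]
  · simp
  · intro j hj hj0
    rw [mul_one, MonoidAlgebra.one_def, MonoidAlgebra.coeff_single, Finsupp.single_apply, if_neg]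
    intro hh
    have : g ^ j = 1 := by rw [← inv_inj, inv_one, ← hh]
    exact hj0 (Nat.eq_zero_of_dvd_of_lt (orderOf_dvd_of_pow_eq_one this) (Finset.mem_range.1 hj))

/-- exactness: elements killed by the norm element are multiples of `g - 1`. -/
theorem dvd_of_nrm_mul_eq_zero [Finite Δ] (g : Δ) {b : MonoidAlgebra 𝒪 Δ} (hb : nrm 𝒪 g * b = 0) :
    gr 𝒪 Δ g - 1 ∣ b := by
  classical
  haveI := Fintype.ofFinite Δ
  set H := Subgroup.zpowers g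
  have hz : ∀ z ∈ H, gr 𝒪 Δ g - 1 ∣ gr 𝒪 Δ z - 1 := by
    intro z hz
    have h1 : z ∈ Subgroup.closure (Set.range fun _ : Unit => g) := by
      rwa [Set.range_const, ← Subgroup.zpowers_eq_closure]
    have := gr_sub_one_mem (𝒪 := 𝒪) (fun _ : Unit => g) h1
    rwa [Set.range_const, Ideal.mem_span_singleton] at this
  have hbs : b = ∑ x, b.coeff x • gr 𝒪 Δ x := by
    have := (MonoidAlgebra.basis Δ 𝒪).sum_repr b
    conv_lhs => rw [← this]
    refine Finset.sum_congr rfl fun x _ => ?_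
    rw [MonoidAlgebra.basis_apply]; rfl
  let r : Δ → Δ := fun x => (QuotientGroup.mk x : Δ ⧸ H).out
  have hr : ∀ x, gr 𝒪 Δ g - 1 ∣ gr 𝒪 Δ x - gr 𝒪 Δ (r x) := by
    intro x
    have h1 : (r x)⁻¹ * x ∈ H := by
      rw [← QuotientGroup.eq]; exact Quotient.out_eq' _
    have h2 : gr 𝒪 Δ x - gr 𝒪 Δ (r x) = gr 𝒪 Δ (r x) * (gr 𝒪 Δ ((r x)⁻¹ * x) - 1) := by
      rw [mul_sub, ← gr_mul, mul_inv_cancel_left, mul_one]
    rw [h2]
    exact (hz _ h1).mul_left _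
  have h3 : gr 𝒪 Δ g - 1 ∣ b - ∑ x, b.coeff x • gr 𝒪 Δ (r x) := by
    have h4 : b - ∑ x, b.coeff x • gr 𝒪 Δ (r x) =
        ∑ x, b.coeff x • (gr 𝒪 Δ x - gr 𝒪 Δ (r x)) := by
      conv_lhs => rw [hbs]
      simp only [smul_sub, Finset.sum_sub_distrib, ← hbs]
    rw [h4]
    exact Finset.dvd_sum fun x _ => Dvd.dvd.mul_left (hr x) (algebraMap 𝒪 _ (b.coeff x)) |>.trans
      (by rw [Algebra.smul_def])
  suffices h0 : ∑ x, b.coeff x • gr 𝒪 Δ (r x) = 0 by rwa [h0, sub_zero] at h3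
  rw [← Finset.sum_fiberwise (s := Finset.univ) (g := fun x : Δ => (QuotientGroup.mk x : Δ ⧸ H))]
  refine Finset.sum_eq_zero fun c _ => ?_
  have h5 : ∑ x ∈ Finset.univ.filter (fun x : Δ => (QuotientGroup.mk x : Δ ⧸ H) = c),
      b.coeff x • gr 𝒪 Δ (r x) =
      (∑ x ∈ Finset.univ.filter (fun x : Δ => (QuotientGroup.mk x : Δ ⧸ H) = c), b.coeff x) •
        gr 𝒪 Δ c.out := by
    rw [Finset.sum_smul]
    refine Finset.sum_congr rfl fun x hx => ?_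
    rw [Finset.mem_filter] at hx
    simp only [r, hx.2]
  rw [h5]
  have h6 : Finset.univ.filter (fun x : Δ => (QuotientGroup.mk x : Δ ⧸ H) = c) =
      (Finset.range (orderOf g)).image fun j => (g ^ j)⁻¹ * c.out := by
    ext x
    simp only [Finset.mem_filter, Finset.mem_univ, true_and, Finset.mem_image, Finset.mem_range]
    constructor
    · intro hx
      have h7 : c.out⁻¹ * x ∈ H := by
        rw [← QuotientGroup.eq, hx]; exact Quotient.out_eq' _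
      have h8 : (c.out⁻¹ * x)⁻¹ ∈ H := H.inv_mem h7
      obtain ⟨j, hj, hj'⟩ := Finset.mem_image.1
        ((isOfFinOrder_of_finite g).mem_zpowers_iff_mem_range_orderOf.1 h8)
      refine ⟨j, Finset.mem_range.1 hj, ?_⟩
      rw [hj', inv_inv, mul_comm, mul_inv_cancel_left]
    · rintro ⟨j, _, rfl⟩
      have h7 : c = QuotientGroup.mk c.out := (Quotient.out_eq' _).symm
      conv_rhs => rw [h7]
      rw [QuotientGroup.eq]
      simpa using H.pow_mem (Subgroup.mem_zpowers g) j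
  have h7 : ∑ x ∈ Finset.univ.filter (fun x : Δ => (QuotientGroup.mk x : Δ ⧸ H) = c),
      b.coeff x = 0 := by
    rw [h6, Finset.sum_image, ← coeff_nrm_mul, hb]
    · simp
    · intro i hi j hj hij
      have h9 : g ^ i = g ^ j := by simpa using hij
      exact pow_injOn_Iio_orderOf (by simpa using hi) (by simpa using hj) h9
  rw [h7, zero_smul]

theorem exists_geom_sum_eq (p : ℕ) [hp : Fact p.Prime] (n : ℕ) :
    ∃ c : Polynomial ℤ, ∑ j ∈ Finset.range (p ^ n), (Polynomial.X + 1 : Polynomial ℤ) ^ j -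
      Polynomial.X ^ (p ^ n - 1) = (p : Polynomial ℤ) * c := by
  obtain ⟨r, hr⟩ := exists_add_pow_prime_pow_eq hp.out (Polynomial.X : Polynomial ℤ) 1 n
  have h1 : Polynomial.X * (∑ j ∈ Finset.range (p ^ n), (Polynomial.X + 1 : Polynomial ℤ) ^ j -
      Polynomial.X ^ (p ^ n - 1)) = Polynomial.X * ((p : Polynomial ℤ) * r) := by
    have h2 := geom_sum_mul (Polynomial.X + 1 : Polynomial ℤ) (p ^ n)
    rw [add_sub_cancel_right] at h2
    have h3 : (Polynomial.X : Polynomial ℤ) * Polynomial.X ^ (p ^ n - 1) =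
        Polynomial.X ^ (p ^ n) := by
      rw [← pow_succ', Nat.sub_add_cancel (Nat.one_le_pow _ _ hp.out.pos)]
    rw [mul_sub, mul_comm Polynomial.X (Finset.sum _ _), h2, h3, hr, one_pow]
    ring
  exact ⟨r, mul_left_cancel₀ Polynomial.X_ne_zero h1⟩

/-- `N ≡ (g - 1) ^ (P - 1)` modulo `p`. -/
theorem nrm_sub_pow_mem {p : ℕ} [hp : Fact p.Prime] {g : Δ} {n : ℕ} (hg : orderOf g = p ^ n) :
    nrm 𝒪 g - (gr 𝒪 Δ g - 1) ^ (p ^ n - 1) ∈ Ideal.span {(p : MonoidAlgebra 𝒪 Δ)} := by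
  obtain ⟨c, hc⟩ := exists_geom_sum_eq p n
  have h := congrArg (Polynomial.eval₂ (Int.castRingHom (MonoidAlgebra 𝒪 Δ)) (gr 𝒪 Δ g - 1)) hc
  rw [Polynomial.eval₂_sub, Polynomial.eval₂_finsetSum, Polynomial.eval₂_mul] at h
  simp only [Polynomial.eval₂_pow, Polynomial.eval₂_add, Polynomial.eval₂_X, Polynomial.eval₂_one,
    sub_add_cancel, Polynomial.eval₂_natCast] at h
  rw [nrm, hg, h, Ideal.mem_span_singleton]
  exact Dvd.intro _ rfl

theorem pow_not_mem {p : ℕ} [hp : Fact p.Prime] [Finite Δ] {g : Δ} {n : ℕ}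
    (hg : orderOf g = p ^ n) (hp𝒪 : ¬ IsUnit (p : 𝒪)) :
    (gr 𝒪 Δ g - 1) ^ (p ^ n - 1) ∉ Ideal.span {(p : MonoidAlgebra 𝒪 Δ)} := by
  intro h
  have h1 := Ideal.add_mem _ (nrm_sub_pow_mem (𝒪 := 𝒪) hg) h
  rw [sub_add_cancel, Ideal.mem_span_singleton] at h1
  obtain ⟨c, hc⟩ := h1
  have h2 := congrArg (fun x : MonoidAlgebra 𝒪 Δ => x.coeff 1) hc
  simp only [coeff_nrm_one] at h2
  rw [← nsmul_eq_mul, MonoidAlgebra.coeff_smul, Finsupp.smul_apply, nsmul_eq_mul] at h2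
  exact hp𝒪 (IsUnit.of_mul_eq_one _ h2.symm)

end Norm

end Fermat.Agent.RT
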