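import Mathlib
import Fermat.Prelude.Thm_Algebra_finite_maximalSpectrum_and_bijective_localization_of_module_finite
import Fermat.Prelude.Thm_IsLocalRing_isAdicComplete_of_module_finite

/-!
# Points of finite algebras over complete discrete valuation rings

Every `𝒪`-algebra homomorphism from a finite `𝒪`-algebra to a field factors through a complete
discrete valuation ring which is finite over `𝒪`.
-/

set_option autoImplicit false
set_option linter.style.haveILetI false

open IsLocalRing

namespace Fermat.Agent.RT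

/-- a finite algebra over a complete noetherian local ring which is a domain is local -/
theorem isLocalRing_of_finite {𝒪 : Type} [CommRing 𝒪] [IsLocalRing 𝒪] [IsNoetherianRing 𝒪]
    [IsAdicComplete (maximalIdeal 𝒪) 𝒪] (A : Type) [CommRing A] [IsDomain A] [Algebra 𝒪 A]
    [Module.Finite 𝒪 A] : IsLocalRing A := by
  obtain ⟨h1, h2, -, -⟩ :=
    Algebra.finite_maximalSpectrum_and_bijective_localization_of_module_finite (𝒪 := 𝒪) A
  refine IsLocalRing.of_unique_max_ideal ?_
  obtain ⟨M, hM⟩ := Ideal.exists_maximal A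
  refine ⟨M, hM, fun M' hM' => ?_⟩
  by_contra hne
  classical
  obtain ⟨a, ha⟩ := h2.2 (fun I => if I.asIdeal = M then 1 else 0)
  have e1 := congrFun ha ⟨M, hM⟩
  have e2 := congrFun ha ⟨M', hM'⟩
  simp only [RingHom.pi_apply, if_true, if_neg hne] at e1 e2
  have hinj : ∀ (P : Ideal A) [P.IsPrime], Function.Injective (algebraMap A (Localization.AtPrime P)) :=
    fun P _ => IsLocalization.injective _ P.primeCompl_le_nonZeroDivisors
  have := hM.isPrime
  have := hM'.isPrime
  rw [← map_one (algebraMap A _)] at e1
  rw [← map_zero (algebraMap A _)] at e2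
  have f1 := hinj M e1
  have f2 := hinj M' e2
  exact one_ne_zero (f1.symm.trans f2)

variable {𝒪 : Type} [CommRing 𝒪] [IsDomain 𝒪] [IsDiscreteValuationRing 𝒪]
  [IsAdicComplete (maximalIdeal 𝒪) 𝒪] [Finite (ResidueField 𝒪)] [CharZero 𝒪]

theorem exists_dvr_ext {L : Type} [Field L] [Algebra 𝒪 L] [FaithfulSMul 𝒪 L]
    {A : Type} [CommRing A] [Algebra 𝒪 A] [Module.Finite 𝒪 A] (x : A →ₐ[𝒪] L) :
    ∃ (O' : Type) (_ : CommRing O') (_ : IsDomain O') (_ : IsDiscreteValuationRing O')
      (_ : IsAdicComplete (maximalIdeal O') O') (_ : Finite (ResidueField O')) (_ : CharZero O')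
      (_ : Algebra 𝒪 O') (_ : Module.Finite 𝒪 O') (_ : IsLocalHom (algebraMap 𝒪 O'))
      (y : A →ₐ[𝒪] O') (i : O' →ₐ[𝒪] L), Function.Injective (algebraMap 𝒪 O') ∧
        Function.Injective i ∧ i.comp y = x := by
  let E := FractionRing 𝒪
  have hinj : Function.Injective (algebraMap 𝒪 L) := FaithfulSMul.algebraMap_injective 𝒪 L
  let f : E →+* L := IsFractionRing.lift hinj
  letI : Algebra E L := f.toAlgebra
  haveI : IsScalarTower 𝒪 E L := IsScalarTower.of_algebraMap_eq fun a =>
    (IsFractionRing.lift_algebraMap hinj a).symm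
  haveI : CharZero L := charZero_of_injective_algebraMap hinj
  haveI : CharZero E := charZero_of_injective_algebraMap (IsFractionRing.injective 𝒪 E)
  obtain ⟨s, hs⟩ := Module.Finite.fg_top (R := 𝒪) (M := A)
  have hint : ∀ a : A, IsIntegral E (x a) := fun a =>
    ((Algebra.IsIntegral.isIntegral (R := 𝒪) a).map x).tower_top
  let K : IntermediateField E L := IntermediateField.adjoin E (x '' (s : Set A))
  haveI : FiniteDimensional E K :=
    IntermediateField.finiteDimensional_adjoin (by rintro _ ⟨a, -, rfl⟩; exact hint a)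
  haveI : IsScalarTower 𝒪 E K := inferInstance
  haveI : IsScalarTower 𝒪 K L := IsScalarTower.of_algebraMap_eq fun _ => rfl
  have hK : Function.Injective (algebraMap 𝒪 K) := fun a b hab => hinj (by
    rw [IsScalarTower.algebraMap_apply 𝒪 K L, hab, ← IsScalarTower.algebraMap_apply 𝒪 K L])
  haveI : FaithfulSMul 𝒪 K := (faithfulSMul_iff_algebraMap_injective 𝒪 K).mpr hK
  let O' := integralClosure 𝒪 K
  haveI : Module.Finite 𝒪 O' := IsIntegralClosure.finite 𝒪 E K O'
  haveI : IsDedekindDomain O' := integralClosure.isDedekindDomain 𝒪 E K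
  haveI : IsLocalRing O' := isLocalRing_of_finite (𝒪 := 𝒪) O'
  have hO' : Function.Injective (algebraMap 𝒪 O') := fun a b hab => hK (by
    rw [IsScalarTower.algebraMap_apply 𝒪 O' K, hab, ← IsScalarTower.algebraMap_apply 𝒪 O' K])
  haveI : FaithfulSMul 𝒪 O' := (faithfulSMul_iff_algebraMap_injective 𝒪 O').mpr hO'
  haveI : IsLocalHom (algebraMap 𝒪 O') := inferInstance
  have hnf : ¬ IsField O' := fun h => IsDiscreteValuationRing.not_isField 𝒪
    (isField_of_isIntegral_of_isField hO' h)
  haveI : IsDiscreteValuationRing O' :=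
    (show IsDiscreteValuationRing O' ↔ IsDedekindDomain O' from
      (IsDiscreteValuationRing.TFAE O' hnf).out 0 2).mpr ‹_›
  haveI : IsAdicComplete (maximalIdeal O') O' := IsLocalRing.isAdicComplete_of_module_finite (𝒪 := 𝒪)
  haveI : Finite (ResidueField O') :=
    IsLocalRing.ResidueField.finite_of_finite (‹Finite (ResidueField 𝒪)›)
  haveI : CharZero O' := charZero_of_injective_algebraMap hO'
  have hmem : ∀ a : A, x a ∈ K := by
    intro a
    have ha : a ∈ Submodule.span 𝒪 (s : Set A) := by rw [hs]; trivial
    induction ha using Submodule.span_induction with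
    | mem a ha => exact IntermediateField.subset_adjoin E _ ⟨a, ha, rfl⟩
    | zero => rw [map_zero]; exact zero_mem K
    | add a b _ _ ha hb => rw [map_add]; exact add_mem ha hb
    | smul c a _ ha =>
      rw [map_smul, Algebra.smul_def, IsScalarTower.algebraMap_apply 𝒪 K L]
      exact mul_mem (SetLike.coe_mem _) ha
  let x' : A →ₐ[𝒪] K :=
    { toFun := fun a => ⟨x a, hmem a⟩
      map_one' := Subtype.ext (map_one x)
      map_mul' := fun a b => Subtype.ext (map_mul x a b)
      map_zero' := Subtype.ext (map_zero x)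
      map_add' := fun a b => Subtype.ext (map_add x a b)
      commutes' := fun c => Subtype.ext (x.commutes c) }
  let y : A →ₐ[𝒪] O' := x'.codRestrict O' fun a =>
    (Algebra.IsIntegral.isIntegral (R := 𝒪) a).map x'
  refine ⟨O', inferInstance, inferInstance, inferInstance, inferInstance, inferInstance,
    inferInstance, inferInstance, inferInstance, inferInstance, y,
    (IsScalarTower.toAlgHom 𝒪 K L).comp O'.val, hO', ?_, ?_⟩
  · intro a b hab
    exact Subtype.ext ((algebraMap K L).injective hab)
  · ext a
    rfl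

end Fermat.Agent.RT
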