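import Fermat.Agent.RT.Uniq
import Fermat.Agent.RT.DvrExt
import Fermat.Agent.S29.BaseChange
import Fermat.Prelude.Def_CuspForm_Newforms

/-!
# Inertia at `q` for the Galois representation attached to a newform

From the statements S34 and S36: the representation attached to a newform `g` of level `M` is
unipotent on inertia at `q` if `q² ∤ M`, and it is not if `q² ‖ M`.
-/

set_option autoImplicit false
set_option linter.style.haveILetI false

open Polynomial CuspForm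
open scoped TensorProduct

namespace Fermat.Agent.RT

open Fermat.Agent.HeckeRep Fermat.Agent.S30aux ModularCurve

/-- the absolute Galois group -/
local notation "GQ'" => (AlgebraicClosure ℚ ≃ₐ[ℚ] AlgebraicClosure ℚ)

/-- The statement S36. -/
def Stmt36 : Prop :=
    ∀ (M : ℕ) [NeZero M] (g : CuspForm (CongruenceSubgroup.Gamma0 M) 2) (_hg : g.IsNewform)
    (lam : ℕ) [Fact lam.Prime]
    (S : Finset ℕ)
    (O' : Type) [CommRing O'] [IsDomain O'] [IsDiscreteValuationRing O']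
    [IsAdicComplete (IsLocalRing.maximalIdeal O') O'] [Finite (IsLocalRing.ResidueField O')]
    [CharZero O'] (_hlamO' : (lam : O') ∈ IsLocalRing.maximalIdeal O')
    (_hlam2 : lam ≠ 2)
    (chig : CuspForm.heckeAlgebra M 2 (↑S : Set ℕ) →+* ℂ)
    (_hchig : ∀ (ℓ : ℕ) (hℓ : ℓ.Prime) (hℓM : ¬ ℓ ∣ M) (hℓS : ℓ ∉ (↑S : Set ℕ)),
      chig (CuspForm.heckeAlgebra.T hℓ hℓM hℓS) = ModularFormClass.qCoeff g ℓ)
    (iota : chig.range →+* O')
    (_hlamS : lam ∈ S) (_hMS : ∀ q : ℕ, q.Prime → q ∣ M → q ∈ S)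
    (_hres : ∀ (O'' : Type) [CommRing O''] [IsDomain O''] [IsDiscreteValuationRing O'']
      [IsAdicComplete (IsLocalRing.maximalIdeal O'') O''] [Finite (IsLocalRing.ResidueField O'')] [CharZero O'']
      [Algebra O' O''] [Module.Finite O' O''] [IsLocalHom (algebraMap O' O'')],
      Function.Injective (algebraMap O' O'') → ∀ (ρ : GaloisRepAdic O''),
      (∀ (ℓ : ℕ) (hℓ : ℓ.Prime) (_hℓlam : ℓ ≠ lam) (hℓM : ¬ ℓ ∣ M) (hℓS : ℓ ∉ (↑S : Set ℕ)),
        ∀ A : ValuationSubring (AlgebraicClosure ℚ), A.LiesOverPrime ℓ →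
          ∀ σ : AlgebraicClosure ℚ ≃ₐ[ℚ] AlgebraicClosure ℚ, A.IsFrobeniusAt σ ℓ →
            LinearMap.charpoly (ρ.ρ σ) =
              X ^ 2 - C (algebraMap O' O'' ((iota.comp chig.rangeRestrict) (CuspForm.heckeAlgebra.T hℓ hℓM hℓS))) * X
                + C ((ℓ : O'')))
      → ρ.residual.IsAbsolutelyIrreducible ∧ ρ.residual.IsOdd),
    ∃ (O'' : Type) (_ : CommRing O'') (_ : IsDomain O'') (_ : IsDiscreteValuationRing O'')
      (_ : IsAdicComplete (IsLocalRing.maximalIdeal O'') O'') (_ : Finite (IsLocalRing.ResidueField O''))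
      (_ : CharZero O'') (_ : Algebra O' O'') (_ : Module.Finite O' O'') (_ : IsLocalHom (algebraMap O' O'')),
      Function.Injective (algebraMap O' O'') ∧
      ∃ ρ : GaloisRepAdic O'',
        (∀ (ℓ : ℕ) (hℓ : ℓ.Prime) (hℓM : ¬ ℓ ∣ M) (hℓS : ℓ ∉ (↑S : Set ℕ)),
          ∀ A : ValuationSubring (AlgebraicClosure ℚ), A.LiesOverPrime ℓ →
            ∀ σ : AlgebraicClosure ℚ ≃ₐ[ℚ] AlgebraicClosure ℚ, A.IsFrobeniusAt σ ℓ →
              LinearMap.charpoly (ρ.ρ σ) =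
                X ^ 2 - C (algebraMap O' O'' ((iota.comp chig.rangeRestrict) (CuspForm.heckeAlgebra.T hℓ hℓM hℓS))) * X
                  + C ((ℓ : O''))) ∧
        (∀ q : ℕ, q.Prime → q ≠ lam → M.factorization q = 2 → ¬ ρ.IsUnipotentOnInertiaAt q)

/-- The statement S34. -/
def Stmt34 : Prop :=
    ∀ (𝒪 : Type) [CommRing 𝒪] [IsDomain 𝒪] [IsDiscreteValuationRing 𝒪]
    [IsAdicComplete (IsLocalRing.maximalIdeal 𝒪) 𝒪] [Finite (IsLocalRing.ResidueField 𝒪)] [CharZero 𝒪]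
    (p : ℕ) (_hp : p.Prime) (_hp𝒪 : (p : 𝒪) ∈ IsLocalRing.maximalIdeal 𝒪)
    (N : ℕ) [NeZero N] (S : Finset ℕ) (_hpS : p ∈ S) (_hNS : ∀ q : ℕ, q.Prime → q ∣ N → q ∈ S)
    (θ : CuspForm.heckeAlgebra N 2 (↑S : Set ℕ) →+* IsLocalRing.ResidueField 𝒪)
    (T : Type) [CommRing T] [IsLocalRing T] [IsNoetherianRing T]
    [IsAdicComplete (IsLocalRing.maximalIdeal T) T] [Algebra 𝒪 T] [IsLocalHom (algebraMap 𝒪 T)]
    [Module.Finite 𝒪 T] [Module.Free 𝒪 T]
    (H : CuspForm.HeckeGaloisRepDatum N (↑S : Set ℕ) 𝒪 θ T)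
    (q : ℕ) (_hq : q.Prime) (_hqp : q ≠ p) (_hqN : q ∣ N) (_hq2 : ¬ q ^ 2 ∣ N),
    H.ρ.IsUnipotentOnInertiaAt q

theorem complexConjugation_ne_one : complexConjugation ≠ 1 := by
  intro h
  have h1 := complexEmbedding_complexConjugation
  obtain ⟨i, hi⟩ := IsAlgClosed.exists_pow_nat_eq (-1 : AlgebraicClosure ℚ) (n := 2) two_pos
  have h2 := h1 i
  rw [h, AlgEquiv.one_apply] at h2
  have h3 : complexEmbedding i ^ 2 = -1 := by rw [← map_pow, hi, map_neg, map_one]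
  have h4 : (complexEmbedding i).im = 0 := Complex.conj_eq_iff_im.mp h2.symm
  have h5 : (complexEmbedding i ^ 2).re = -1 := by rw [h3]; simp
  rw [sq, Complex.mul_re, h4] at h5
  nlinarith [mul_self_nonneg (complexEmbedding i).re]

section Res

variable {k : Type} [Field k]

/-- absolute irreducibility of odd representations only depends on the trace -/
theorem isAbsolutelyIrreducible_of_rtr {c : GQ'} (hc : c * c = 1) {κ : k} (hκ : 2 * κ = 1)
    {ρ ρ' : ResidualGaloisRep k} (hdc : LinearMap.det (ρ.ρ c) = -1)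
    (hdc' : LinearMap.det (ρ'.ρ c) = -1) (htr : rtr ρ' = rtr ρ)
    (h : ρ.IsAbsolutelyIrreducible) : ρ'.IsAbsolutelyIrreducible := by
  rw [isAbsolutelyIrreducible_iff hc hκ ρ hdc] at h
  rw [isAbsolutelyIrreducible_iff hc hκ ρ' hdc']
  obtain ⟨r, s, hrs⟩ := exists_xx_of_isIrreducible hc hκ ρ hdc h
  exact isIrreducible_of_xx hc hκ ρ' hdc' (r := r) (s := s) (by rwa [htr])

lemma charpoly_eq_iff {R V V' : Type*} [CommRing R] [Nontrivial R] [AddCommGroup V] [Module R V]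
    [Module.Free R V] [Module.Finite R V] [AddCommGroup V'] [Module R V']
    [Module.Free R V'] [Module.Finite R V'] (hV : Module.finrank R V = 2)
    (hV' : Module.finrank R V' = 2) {f : Module.End R V} {f' : Module.End R V'}
    (h : f.charpoly = f'.charpoly) : LinearMap.trace R V f = LinearMap.trace R V' f' ∧
      LinearMap.det f = LinearMap.det f' := by
  rw [charpoly_eq_trace_det hV'] at h
  exact charpoly_coeff_zero hV _ h

lemma map_residue_comp {A B : Type} [CommRing A] [IsLocalRing A] [CommRing B] [IsLocalRing B]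
    (φ : A →+* B) [IsLocalHom φ] (P : A[X]) :
    (P.map φ).map (IsLocalRing.residue B) =
      (P.map (IsLocalRing.residue A)).map (IsLocalRing.ResidueField.map φ) := by
  rw [Polynomial.map_map, Polynomial.map_map]
  congr 1

end Res

/-- transfer of absolute irreducibility and oddness to another ring -/
theorem residual_absIrr_odd {A B : Type} [CommRing A] [IsLocalRing A] [CommRing B] [IsLocalRing B]
    (φ : A →+* B) [IsLocalHom φ] {κ : A} (hκ : 2 * κ = 1)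
    {ρ : GaloisRepAdic A} {ρ' : GaloisRepAdic B}
    (hch : ∀ g : GQ', (ρ'.ρ g).charpoly = (ρ.ρ g).charpoly.map φ)
    (habs : ρ.residual.IsAbsolutelyIrreducible) (hodd : ρ.residual.IsOdd) :
    ρ'.residual.IsAbsolutelyIrreducible ∧ ρ'.residual.IsOdd := by
  have key : ∀ g : GQ', (ρ'.residual.ρ g).charpoly =
      ((ρ.residual.baseChangeAlong (IsLocalRing.ResidueField.map φ)).ρ g).charpoly := by
    intro g
    rw [S29aux.charpoly_residual, hch, map_residue_comp, charpoly_baseChangeAlong,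
      S29aux.charpoly_residual]
  have hodd1 : (ρ.residual.baseChangeAlong (IsLocalRing.ResidueField.map φ)).IsOdd := by
    intro c hc hc1
    letI : Algebra (IsLocalRing.ResidueField A) (IsLocalRing.ResidueField B) :=
      (IsLocalRing.ResidueField.map φ).toAlgebra
    show LinearMap.det ((ρ.residual.ρ c).baseChange (IsLocalRing.ResidueField B)) = -1
    rw [LinearMap.det_baseChange, hodd c hc hc1, map_neg, map_one]
  have hodd' : ρ'.residual.IsOdd := by
    intro c hc hc1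
    rw [(charpoly_eq_iff ρ'.residual.finrank_eq
      (ρ.residual.baseChangeAlong (IsLocalRing.ResidueField.map φ)).finrank_eq (key c)).2]
    exact hodd1 c hc hc1
  refine ⟨?_, hodd'⟩
  have hc := complexConjugation_mul_self
  have hc1 : complexConjugation ≠ 1 := complexConjugation_ne_one
  have hκA : 2 * IsLocalRing.residue A κ = 1 := by
    rw [← map_ofNat (IsLocalRing.residue A) 2, ← map_mul, hκ, map_one]
  have hκB : 2 * IsLocalRing.residue B (φ κ) = 1 := by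
    rw [← map_ofNat (IsLocalRing.residue B) 2, ← map_ofNat φ 2, ← map_mul, ← map_mul, hκ, map_one,
      map_one]
  refine isAbsolutelyIrreducible_of_rtr hc hκB (hodd1 _ hc hc1) (hodd' _ hc hc1) ?_
    ((isAbsolutelyIrreducible_baseChangeAlong_iff hc hκA ρ.residual (hodd _ hc hc1) _).mpr habs)
  ext g
  exact (charpoly_eq_iff ρ'.residual.finrank_eq
      (ρ.residual.baseChangeAlong (IsLocalRing.ResidueField.map φ)).finrank_eq (key g)).1


section Main

variable {M : ℕ} [NeZero M] {g : CuspForm (CongruenceSubgroup.Gamma0 M) 2}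
  {p : ℕ} [Fact p.Prime] {S : Finset ℕ}
  {O' : Type} [CommRing O'] [IsDomain O'] [IsDiscreteValuationRing O']
  [IsAdicComplete (IsLocalRing.maximalIdeal O') O'] [Finite (IsLocalRing.ResidueField O')]
  [CharZero O']

/-- **q² ‖ M**: not unipotent on inertia -/
theorem not_unipotent_of_factorization_eq_two (h36 : Stmt36) (hg : g.IsNewform)
    (hpO : (p : O') ∈ IsLocalRing.maximalIdeal O') (hp2 : p ≠ 2)
    (chig : CuspForm.heckeAlgebra M 2 (↑S : Set ℕ) →+* ℂ)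
    (hchig : ∀ (ℓ : ℕ) (hℓ : ℓ.Prime) (hℓM : ¬ ℓ ∣ M) (hℓS : ℓ ∉ (↑S : Set ℕ)),
      chig (CuspForm.heckeAlgebra.T hℓ hℓM hℓS) = ModularFormClass.qCoeff g ℓ)
    (iota : chig.range →+* O')
    (hpS : p ∈ S) (hMS : ∀ q : ℕ, q.Prime → q ∣ M → q ∈ S)
    (ρ : GaloisRepAdic O')
    (hρ : ∀ (ℓ : ℕ) (hℓ : ℓ.Prime) (hℓM : ¬ ℓ ∣ M) (hℓS : ℓ ∉ (↑S : Set ℕ)),
      ∀ A : ValuationSubring (AlgebraicClosure ℚ), A.LiesOverPrime ℓ →
        ∀ σ : GQ', A.IsFrobeniusAt σ ℓ → LinearMap.charpoly (ρ.ρ σ) =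
          X ^ 2 - C ((iota.comp chig.rangeRestrict) (CuspForm.heckeAlgebra.T hℓ hℓM hℓS)) * X
            + C ((ℓ : O')))
    (habs : ρ.residual.IsAbsolutelyIrreducible) (hodd : ρ.residual.IsOdd)
    {q : ℕ} (hq : q.Prime) (hqp : q ≠ p) (hqM : M.factorization q = 2) :
    ¬ ρ.IsUnipotentOnInertiaAt q := by
  have hp : p.Prime := Fact.out
  have h2 : IsUnit (2 : O') := by
    by_contra h
    have h3 : (2 : O') ∈ IsLocalRing.maximalIdeal O' := (IsLocalRing.mem_maximalIdeal _).mpr h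
    obtain ⟨k, hk⟩ := hp.odd_of_ne_two hp2
    have h4 : (1 : O') = (p : O') - k * 2 := by rw [hk]; push_cast; ring
    exact (Ideal.ne_top_iff_one _).mp (IsLocalRing.maximalIdeal.isMaximal O').ne_top
      (h4 ▸ Ideal.sub_mem _ hpO (Ideal.mul_mem_left _ _ h3))
  obtain ⟨κ, hκ⟩ := h2.exists_right_inv
  have key : ∀ (O'' : Type) [CommRing O''] [IsDomain O''] [IsDiscreteValuationRing O'']
      [IsAdicComplete (IsLocalRing.maximalIdeal O'') O''] [Algebra O' O'']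
      [IsLocalHom (algebraMap O' O'')] (ρ'' : GaloisRepAdic O''),
      (∀ (ℓ : ℕ) (hℓ : ℓ.Prime) (_hℓlam : ℓ ≠ p) (hℓM : ¬ ℓ ∣ M) (hℓS : ℓ ∉ (↑S : Set ℕ)),
        ∀ A : ValuationSubring (AlgebraicClosure ℚ), A.LiesOverPrime ℓ →
          ∀ σ : AlgebraicClosure ℚ ≃ₐ[ℚ] AlgebraicClosure ℚ, A.IsFrobeniusAt σ ℓ →
            LinearMap.charpoly (ρ''.ρ σ) =
              X ^ 2 - C (algebraMap O' O'' ((iota.comp chig.rangeRestrict)
                (CuspForm.heckeAlgebra.T hℓ hℓM hℓS))) * X + C ((ℓ : O''))) →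
      ∀ g : GQ', (ρ''.ρ g).charpoly = (ρ.ρ g).charpoly.map (algebraMap O' O'') := by
    intro O'' _ _ _ _ _ _ ρ'' h''
    have hκ'' : 2 * algebraMap O' O'' κ = 1 := by
      rw [← map_ofNat (algebraMap O' O'') 2, ← map_mul, hκ, map_one]
    refine charpoly_eq_map_of_frobenius (algebraMap O' O'') ‹_› hκ'' (↑S : Set ℕ) S.finite_toSet ?_
    intro ℓ hℓ hℓS A hA σ hσ
    have hℓM : ¬ ℓ ∣ M := fun h => hℓS (hMS ℓ hℓ h)
    rw [h'' ℓ hℓ (fun h => hℓS (h ▸ hpS)) hℓM hℓS A hA σ hσ, hρ ℓ hℓ hℓM hℓS A hA σ hσ]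
    simp
  obtain ⟨O'', i1, i2, i3, i4, i5, i6, i7, i8, i9, hinj, ρ'', hρ'', hq''⟩ :=
    h36 M g hg p S O' hpO hp2 chig hchig iota hpS hMS (by
      intro O'' _ _ _ _ _ _ _ _ _ _ ρ'' h''
      exact residual_absIrr_odd (algebraMap O' O'') hκ (key O'' ρ'' h'') habs hodd)
  intro hunip
  refine hq'' q hq hqp hqM fun P hP σ hσ => ?_
  rw [key O'' ρ'' (fun ℓ hℓ _ => hρ'' ℓ hℓ), hunip P hP σ hσ]
  simp

omit [Finite (IsLocalRing.ResidueField O')] [CharZero O'] in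
/-- **q² ∤ M**: unipotent on inertia -/
theorem unipotent_of_not_sq_dvd (h34 : Stmt34) [Finite (IsLocalRing.ResidueField O')] [CharZero O']
    [Fact (HasIntegralStructure M 2)]
    {J : Type*} [AddCommGroup J] [Module HeckeAlg J] [DistribMulAction GalRep.GQ J]
    [SMulCommClass GalRep.GQ HeckeAlg J] (hJ : GalRep.ESInput M p (↑S : Set ℕ) J)
    (hpO : (p : O') ∈ IsLocalRing.maximalIdeal O') (hp2 : p ≠ 2)
    (hpS : p ∈ S) (hMS : ∀ q : ℕ, q.Prime → q ∣ M → q ∈ S)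
    (χ : CuspForm.heckeAlgebra M 2 (↑S : Set ℕ) →+* O')
    (ρ : GaloisRepAdic O')
    (hρ : ∀ (ℓ : ℕ) (hℓ : ℓ.Prime) (hℓM : ¬ ℓ ∣ M) (hℓS : ℓ ∉ (↑S : Set ℕ)),
      ∀ A : ValuationSubring (AlgebraicClosure ℚ), A.LiesOverPrime ℓ →
        ∀ σ : GQ', A.IsFrobeniusAt σ ℓ → LinearMap.charpoly (ρ.ρ σ) =
          X ^ 2 - C (χ (CuspForm.heckeAlgebra.T hℓ hℓM hℓS)) * X + C ((ℓ : O')))
    (habs : ρ.residual.IsAbsolutelyIrreducible)
    {q : ℕ} (hq : q.Prime) (hqp : q ≠ p) (hqM : ¬ q ^ 2 ∣ M) :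
    ρ.IsUnipotentOnInertiaAt q := by
  have hp : p.Prime := Fact.out
  have h2 : IsUnit (2 : O') := by
    by_contra h
    have h3 : (2 : O') ∈ IsLocalRing.maximalIdeal O' := (IsLocalRing.mem_maximalIdeal _).mpr h
    obtain ⟨k, hk⟩ := hp.odd_of_ne_two hp2
    have h4 : (1 : O') = (p : O') - k * 2 := by rw [hk]; push_cast; ring
    exact (Ideal.ne_top_iff_one _).mp (IsLocalRing.maximalIdeal.isMaximal O').ne_top
      (h4 ▸ Ideal.sub_mem _ hpO (Ideal.mul_mem_left _ _ h3))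
  obtain ⟨κ, hκ⟩ := h2.exists_right_inv
  let θ : CuspForm.heckeAlgebra M 2 (↑S : Set ℕ) →+* IsLocalRing.ResidueField O' :=
    (IsLocalRing.residue O').comp χ
  have hatt : Attached M (↑S : Set ℕ) θ ρ.residual := by
    refine ⟨∅, Set.finite_empty, ?_⟩
    intro ℓ hℓ hℓM hℓS _ A hA σ hσ
    rw [S29aux.charpoly_residual, hρ ℓ hℓ hℓM hℓS A hA σ hσ]
    simp [θ]
  obtain ⟨H, hπ, hunr, -, -⟩ := exists_datum hJ hpS hMS hp2 hpO θ ρ.residual habs hatt
  obtain ⟨ψ, hψ⟩ := H.exists_point χ (fun _ => rfl)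
  have hsurj : Function.Surjective (ψ : heckeLocal M (↑S : Set ℕ) O' θ →+* O') := fun a =>
    ⟨algebraMap O' _ a, ψ.commutes a⟩
  have hloc : IsLocalHom (ψ : heckeLocal M (↑S : Set ℕ) O' θ →+* O') :=
    IsLocalHom.of_surjective _ hsurj
  have key := charpoly_eq_map_of_frobenius (ψ : heckeLocal M (↑S : Set ℕ) O' θ →+* O') hloc
    hκ (ρ := H.ρ) (ρ' := ρ) (↑S : Set ℕ) S.finite_toSet (by
      intro ℓ hℓ hℓS A hA σ hσ
      have hℓM : ¬ ℓ ∣ M := fun h => hℓS (hMS ℓ hℓ h)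
      rw [hρ ℓ hℓ hℓM hℓS A hA σ hσ, H.charpoly_frob ℓ hℓ hℓM hℓS A hA σ hσ]
      simp [hψ])
  have hH : H.ρ.IsUnipotentOnInertiaAt q := by
    by_cases hqM' : q ∣ M
    · exact h34 O' p hp hpO M S hpS hMS θ _ H q hq hqp hqM' hqM
    · intro P hP σ hσ
      rw [hunr q hq hqM' hqp P hP σ hσ, LinearMap.charpoly_one, H.ρ.finrank_eq]
  intro P hP σ hσ
  rw [key, hH P hP σ hσ]
  simp

end Main

end Fermat.Agent.RT
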