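import Mathlib

/-!
# Equality of norm operators of two commuting automorphisms of finite order

If for every common eigenvector the `θ`-eigenvalue is `1` iff the `d`-eigenvalue is `1`, then
`∑ θ ^ j = ∑ d ^ j`.
-/

set_option autoImplicit false
set_option linter.unusedSectionVars false
set_option linter.style.haveILetI false

open scoped TensorProduct

namespace Fermat.Agent.RT

section Field

variable {L : Type*} [Field L] [IsAlgClosed L] [CharZero L] {V : Type*} [AddCommGroup V]
  [Module L V] [FiniteDimensional L V]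

/-- the norm operator -/
def nOp {R : Type*} [Ring R] (P : ℕ) (t : R) : R := ∑ j ∈ Finset.range P, t ^ j

theorem sub_one_mul_nOp {R : Type*} [Ring R] {P : ℕ} {t : R} (h : t ^ P = 1) :
    (t - 1) * nOp P t = 0 := by
  rw [nOp, mul_geom_sum, h, sub_self]

theorem mul_nOp {R : Type*} [Ring R] {P : ℕ} {t : R} (h : t ^ P = 1) :
    t * nOp P t = nOp P t := by
  have := sub_one_mul_nOp h
  rwa [sub_mul, one_mul, sub_eq_zero] at this

theorem nOp_mul_self {R : Type*} [Ring R] {P : ℕ} {t : R} (h : t ^ P = 1) :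
    nOp P t * nOp P t = P • nOp P t := by
  have h1 : ∀ j : ℕ, t ^ j * nOp P t = nOp P t := by
    intro j
    induction j with
    | zero => simp
    | succ j ih => rw [pow_succ, mul_assoc, mul_nOp h, ih]
  have h2 : nOp P t * nOp P t = ∑ j ∈ Finset.range P, t ^ j * nOp P t := by
    rw [← Finset.sum_mul]; rfl
  rw [h2, Finset.sum_congr rfl fun j _ => h1 j, Finset.sum_const, Finset.card_range]

theorem nOp_commute {R : Type*} [Ring R] {P : ℕ} {s t : R} (h : Commute s t) :
    Commute (nOp P s) (nOp P t) := by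
  unfold nOp
  exact Commute.sum_left _ _ _ fun i _ => Commute.sum_right _ _ _ fun j _ => h.pow_pow i j

theorem mul_nOp_eq_of_eigen {θ d : Module.End L V} (hc : Commute θ d) {P : ℕ} (hP : 0 < P)
    (hθ : θ ^ P = 1) (hd : d ^ P = 1)
    (h : ∀ v : V, v ≠ 0 → ∀ b : L, θ v = v → d v = b • v → b = 1) :
    nOp P θ * nOp P d = P • nOp P θ := by
  by_contra hne
  set D : Module.End L V := nOp P θ * (P - nOp P d) with hD
  have hD0 : D ≠ 0 := by
    intro h0
    apply hne
    rw [hD, mul_sub, sub_eq_zero] at h0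
    rw [← h0, nsmul_eq_mul]
    exact (Nat.cast_commute P (nOp P θ)).eq.symm
  have hcN : Commute d (nOp P θ) := by
    unfold nOp
    exact Commute.sum_right _ _ _ fun j _ => (hc.symm.pow_right j)
  have hcd : Commute d (nOp P d) := by
    unfold nOp
    exact Commute.sum_right _ _ _ fun j _ => ((Commute.refl d).pow_right j)
  have hdD : Commute d D := hcN.mul_right ((Nat.commute_cast d P).sub_right hcd)
  set W := LinearMap.range D with hW
  have hWne : W ≠ ⊥ := by
    rw [hW, Ne, LinearMap.range_eq_bot]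
    exact hD0
  have hstab : ∀ w ∈ W, d w ∈ W := by
    rintro _ ⟨v, rfl⟩
    refine ⟨d v, ?_⟩
    have := congrArg (fun f : Module.End L V => f v) hdD.eq
    exact this.symm
  haveI : Nontrivial W := Submodule.nontrivial_iff_ne_bot.2 hWne
  obtain ⟨b, hb⟩ := Module.End.exists_eigenvalue (d.restrict hstab)
  obtain ⟨w, hw⟩ := hb.exists_hasEigenvector
  have hw0 : (w : V) ≠ 0 := by simpa using hw.2
  have hdw : d (w : V) = b • (w : V) := by
    have := hw.apply_eq_smul
    exact congrArg Subtype.val this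
  obtain ⟨v, hv⟩ := w.2
  have hθw : θ (w : V) = (w : V) := by
    have h1 : θ * D = D := by rw [hD, ← mul_assoc, mul_nOp hθ]
    rw [← hv]
    exact congrArg (fun f : Module.End L V => f v) h1
  have hNw : nOp P d (w : V) = 0 := by
    have h1 : nOp P d * D = 0 := by
      rw [hD, ← mul_assoc, (nOp_commute (P := P) hc).eq.symm, mul_assoc, mul_sub, nOp_mul_self hd,
        (Nat.cast_commute P (nOp P d)).eq.symm, nsmul_eq_mul, sub_self, mul_zero]
    rw [← hv]
    exact congrArg (fun f : Module.End L V => f v) h1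
  have hb1 := h _ hw0 b hθw hdw
  subst hb1
  rw [one_smul] at hdw
  have h2 : ∀ j : ℕ, (d ^ j) (w : V) = w := by
    intro j
    induction j with
    | zero => simp
    | succ j ih => rw [pow_succ, Module.End.mul_apply, hdw, ih]
  have h3 : nOp P d (w : V) = P • (w : V) := by
    rw [nOp, LinearMap.sum_apply]
    simp [h2]
  rw [h3] at hNw
  have h4 : ((P : ℕ) : L) • (w : V) = 0 := by rw [Nat.cast_smul_eq_nsmul]; exact hNw
  rcases smul_eq_zero.1 h4 with h5 | h5
  · exact hP.ne' (by exact_mod_cast h5)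
  · exact hw0 h5

theorem nOp_eq_of_eigen {θ d : Module.End L V} (hc : Commute θ d) {P : ℕ} (hP : 0 < P)
    (hθ : θ ^ P = 1) (hd : d ^ P = 1)
    (h : ∀ v : V, v ≠ 0 → ∀ a b : L, θ v = a • v → d v = b • v → (a = 1 ↔ b = 1)) :
    nOp P θ = nOp P d := by
  have h1 := mul_nOp_eq_of_eigen hc hP hθ hd fun v hv b hθv hdv =>
    (h v hv 1 b (by simpa using hθv) hdv).1 rfl
  have h2 := mul_nOp_eq_of_eigen hc.symm hP hd hθ fun v hv b hθv hdv =>
    (h v hv b 1 hdv (by simpa using hθv)).2 rfl
  rw [(nOp_commute (P := P) hc).eq.symm, h1] at h2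
  have h3 : ((P : ℕ) : L) • nOp P θ = ((P : ℕ) : L) • nOp P d := by
    rw [Nat.cast_smul_eq_nsmul, Nat.cast_smul_eq_nsmul]; exact h2
  exact smul_right_injective _ (by exact_mod_cast hP.ne' : ((P : ℕ) : L) ≠ 0) h3

end Field

section Lattice

variable {𝒪 : Type*} [CommRing 𝒪] {L : Type*} [Field L] [IsAlgClosed L] [CharZero L]
  [Algebra 𝒪 L] [FaithfulSMul 𝒪 L] {M : Type*} [AddCommGroup M] [Module 𝒪 M] [Module.Finite 𝒪 M]
  [Module.Free 𝒪 M]

/-- the version for lattices -/
theorem nOp_eq_of_eigen_baseChange {θ d : Module.End 𝒪 M} (hc : Commute θ d) {P : ℕ} (hP : 0 < P)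
    (hθ : θ ^ P = 1) (hd : d ^ P = 1)
    (h : ∀ v : L ⊗[𝒪] M, v ≠ 0 → ∀ a b : L, θ.baseChange L v = a • v → d.baseChange L v = b • v →
      (a = 1 ↔ b = 1)) :
    nOp P θ = nOp P d := by
  let F : Module.End 𝒪 M →ₐ[𝒪] Module.End L (L ⊗[𝒪] M) := Module.End.baseChangeHom 𝒪 L M
  have hF : ∀ f, F f = f.baseChange L := fun f => rfl
  have hFn : ∀ f, F (nOp P f) = nOp P (F f) := by
    intro f; simp [nOp]
  have hinj : Function.Injective F := by
    intro f f' hff
    ext m
    have h1 : (1 : L) ⊗ₜ[𝒪] f m = (1 : L) ⊗ₜ[𝒪] f' m := by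
      have := congrArg (fun g : Module.End L (L ⊗[𝒪] M) => g (1 ⊗ₜ m)) hff
      simpa [hF] using this
    have h2 : Function.Injective (TensorProduct.mk 𝒪 L M 1) := by
      have := Module.Flat.rTensor_preserves_injective_linearMap (M := M)
        (Algebra.linearMap 𝒪 L) (FaithfulSMul.algebraMap_injective 𝒪 L)
      intro x y hxy
      have h3 : (Algebra.linearMap 𝒪 L).rTensor M (1 ⊗ₜ x) =
          (Algebra.linearMap 𝒪 L).rTensor M (1 ⊗ₜ y) := by simpa using hxy
      have h4 := this h3
      have h5 := congrArg (TensorProduct.lid 𝒪 M) h4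
      simpa using h5
    exact h2 h1
  apply hinj
  rw [hFn, hFn]
  refine nOp_eq_of_eigen (hc.map F) hP ?_ ?_ h
  · rw [← map_pow, hθ, map_one]
  · rw [← map_pow, hd, map_one]

end Lattice

end Fermat.Agent.RT
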