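import Fermat.Agent.RT.ThetaFree
import Fermat.Agent.RT.GroupRing

/-!
# The Taylor-Wiles module is free over the group ring acting through Galois

`M` is a finite free module over `𝒪[Δ]` (diamonds), `Θ : 𝒪[Δ] → End M` a second action commuting
with the first (inertia characters) with `Θ(N_i) = N_i` for the norm elements of cyclic groups
`⟨g i⟩` generating `Δ`. Then `M` is free through `Θ`, with the same bases, and `(g i - 1) M` does not
depend on the action.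
-/

set_option autoImplicit false
set_option linter.unusedSectionVars false
set_option linter.style.haveILetI false

open IsLocalRing

namespace Fermat.Agent.RT

variable {𝒪 : Type*} [CommRing 𝒪] [IsLocalRing 𝒪] {p : ℕ} [hp : Fact p.Prime]
  {Δ : Type*} [CommGroup Δ] [Finite Δ]
  {M : Type*} [AddCommGroup M] [Module 𝒪 M] [Module (MonoidAlgebra 𝒪 Δ) M]
  [IsScalarTower 𝒪 (MonoidAlgebra 𝒪 Δ) M] [Module.Finite (MonoidAlgebra 𝒪 Δ) M]
  [Module.Free (MonoidAlgebra 𝒪 Δ) M]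

/-- elements of a free module killed by the norm element are multiples of `g - 1`. -/
theorem exists_smul_of_nrm_smul_eq_zero (g : Δ) {m : M} (hm : nrm 𝒪 g • m = 0) :
    ∃ m', m = (gr 𝒪 Δ g - 1) • m' := by
  classical
  set b := Module.Free.chooseBasis (MonoidAlgebra 𝒪 Δ) M
  have h : ∀ i, gr 𝒪 Δ g - 1 ∣ b.repr m i := by
    intro i
    refine dvd_of_nrm_mul_eq_zero g ?_
    have := congrArg (fun x => b.repr x i) hm
    simpa using this
  choose c hc using h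
  refine ⟨∑ i, c i • b i, ?_⟩
  conv_lhs => rw [← b.sum_repr m]
  rw [Finset.smul_sum]
  refine Finset.sum_congr rfl fun i _ => ?_
  rw [hc i, mul_smul]

variable (Θ : MonoidAlgebra 𝒪 Δ →ₐ[𝒪] Module.End 𝒪 M)
  (hcomm : ∀ (a b : MonoidAlgebra 𝒪 Δ) (m : M), Θ a (b • m) = b • Θ a m)

/-- `Θ a` as a `𝒪[Δ]`-linear endomorphism -/
noncomputable def thetaLin (hcomm : ∀ (a b : MonoidAlgebra 𝒪 Δ) (m : M), Θ a (b • m) = b • Θ a m)
    (a : MonoidAlgebra 𝒪 Δ) : Module.End (MonoidAlgebra 𝒪 Δ) M where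
  toFun := Θ a
  map_add' := (Θ a).map_add
  map_smul' b m := hcomm a b m

theorem thetaLin_apply (a : MonoidAlgebra 𝒪 Δ) (m : M) : thetaLin Θ hcomm a m = Θ a m := rfl

theorem thetaLin_pow_apply (a : MonoidAlgebra 𝒪 Δ) (k : ℕ) (m : M) :
    (thetaLin Θ hcomm a ^ k) m = Θ (a ^ k) m := by
  induction k generalizing m with
  | zero => simp
  | succ k ih =>
    rw [pow_succ, pow_succ, map_mul]
    change (thetaLin Θ hcomm a ^ k) (Θ a m) = Θ (a ^ k) (Θ a m)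
    exact ih _

include hcomm in
/-- The key step: `θ - 1 = (d - 1) φ` with `φ` bijective. -/
theorem exists_equiv (hp𝒪 : (p : 𝒪) ∈ maximalIdeal 𝒪) (hΔ : IsPGroup p Δ) (g : Δ) (hg : g ≠ 1)
    (hN : ∀ m : M, Θ (nrm 𝒪 g) m = nrm 𝒪 g • m) :
    ∃ φ : M ≃ₗ[MonoidAlgebra 𝒪 Δ] M, ∀ m, Θ (gr 𝒪 Δ g - 1) m = (gr 𝒪 Δ g - 1) • φ m := by
  have hloc := isLocalRing_groupRing (p := p) hp𝒪 hΔ
  obtain ⟨n, hn⟩ := (IsPGroup.iff_orderOf.1 hΔ) g
  have hn0 : n ≠ 0 := by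
    rintro rfl
    exact hg (orderOf_eq_one_iff.1 (by simpa using hn))
  have hk : 0 < p ^ n - 1 := by
    have : 2 ≤ p ^ n := hp.out.two_le.trans (Nat.le_self_pow hn0 p)
    omega
  have hle : ∀ m : M, ∃ m', thetaLin Θ hcomm (gr 𝒪 Δ g - 1) m = (gr 𝒪 Δ g - 1) • m' := by
    intro m
    refine exists_smul_of_nrm_smul_eq_zero g ?_
    rw [thetaLin_apply, ← hN, ← Module.End.mul_apply, ← map_mul, mul_comm, sub_one_mul_nrm,
      map_zero, LinearMap.zero_apply]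
  have hpow : ∀ m : M, (thetaLin Θ hcomm (gr 𝒪 Δ g - 1) ^ (p ^ n - 1)) m -
      (gr 𝒪 Δ g - 1) ^ (p ^ n - 1) • m ∈
        Ideal.span {(p : MonoidAlgebra 𝒪 Δ)} • (⊤ : Submodule (MonoidAlgebra 𝒪 Δ) M) := by
    intro m
    rw [thetaLin_pow_apply]
    have h1 := nrm_sub_pow_mem (𝒪 := 𝒪) hn
    obtain ⟨c, hc⟩ := Ideal.mem_span_singleton.1 h1
    have h2 : (gr 𝒪 Δ g - 1) ^ (p ^ n - 1) = nrm 𝒪 g - p * c := by rw [← hc]; ring
    rw [h2, map_sub, LinearMap.sub_apply, hN, sub_smul]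
    have h3 : nrm 𝒪 g • m - Θ ((p : MonoidAlgebra 𝒪 Δ) * c) m -
        (nrm 𝒪 g • m - ((p : MonoidAlgebra 𝒪 Δ) * c) • m) =
        (p : MonoidAlgebra 𝒪 Δ) • (c • m - Θ c m) := by
      rw [map_mul, map_natCast, Module.End.mul_apply, mul_smul, smul_sub]
      have : ((p : ℕ) : Module.End 𝒪 M) (Θ c m) = (p : MonoidAlgebra 𝒪 Δ) • Θ c m := by
        rw [Module.End.natCast_apply]
        rw [Nat.cast_smul_eq_nsmul]
      rw [this]; abel
    rw [h3]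
    exact Submodule.smul_mem_smul (Ideal.mem_span_singleton_self _) trivial
  obtain ⟨φ, hφ⟩ := exists_equiv_eq_smul (J := Ideal.span {(p : MonoidAlgebra 𝒪 Δ)})
    (y := gr 𝒪 Δ g - 1) hk (pow_not_mem hn (by simpa [mem_maximalIdeal] using hp𝒪)) hle hpow
  exact ⟨φ, hφ⟩

include hcomm in
/-- **Theorem.** `M` is free over `𝒪[Δ]` acting through `Θ`, with the same bases. -/
theorem exists_basis_theta (hp𝒪 : (p : 𝒪) ∈ maximalIdeal 𝒪) (hΔ : IsPGroup p Δ)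
    {ι : Type*} (g : ι → Δ) (hg : Subgroup.closure (Set.range g) = ⊤)
    (hN : ∀ (i : ι) (m : M), Θ (nrm 𝒪 (g i)) m = nrm 𝒪 (g i) • m)
    {κ : Type*} [Fintype κ] (b : Module.Basis κ (MonoidAlgebra 𝒪 Δ) M) :
    ∃ b' : Module.Basis κ (MonoidAlgebra 𝒪 Δ) (TM Θ), ∀ j, b' j = toTM Θ (b j) := by
  have hloc := isLocalRing_groupRing (p := p) hp𝒪 hΔ
  have hmaxe := maximalIdeal_groupRing (p := p) hp𝒪 hΔ
  rw [ker_resAug_eq g hg] at hmaxe
  refine exists_basis_TM Θ (fun i => gr 𝒪 Δ (g i) - 1) (maximalIdeal 𝒪) b hmaxe.le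
    (hmaxe ▸ le_sup_left) (fun i => hmaxe ▸ (Ideal.mem_sup_right (Ideal.subset_span ⟨i, rfl⟩))) ?_ ?_
  · intro c
    refine ⟨aug 𝒪 Δ c, ?_⟩
    rw [maximalIdeal_groupRing (p := p) hp𝒪 hΔ, mem_ker_resAug, map_sub, AlgHom.commutes]
    simp
  · intro i m
    by_cases hi : g i = 1
    · exact ⟨0, by simp [hi]⟩
    · obtain ⟨φ, hφ⟩ := exists_equiv Θ hcomm hp𝒪 hΔ (g i) hi (hN i)
      exact ⟨φ.symm m, by rw [hφ, φ.apply_symm_apply]⟩

include hcomm in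
/-- the augmentation ideals (even each `(g i - 1) M`) have the same action. -/
theorem range_theta_eq (hp𝒪 : (p : 𝒪) ∈ maximalIdeal 𝒪) (hΔ : IsPGroup p Δ) (g : Δ)
    (hN : ∀ m : M, Θ (nrm 𝒪 g) m = nrm 𝒪 g • m) :
    Set.range (fun m : M => Θ (gr 𝒪 Δ g - 1) m) = Set.range (fun m : M => (gr 𝒪 Δ g - 1) • m) := by
  by_cases hg : g = 1
  · subst hg; simp
  · obtain ⟨φ, hφ⟩ := exists_equiv Θ hcomm hp𝒪 hΔ g hg hN
    ext m
    constructor
    · rintro ⟨m', rfl⟩; exact ⟨φ m', (hφ m').symm⟩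
    · rintro ⟨m', rfl⟩; exact ⟨φ.symm m', by simp only [hφ, φ.apply_symm_apply]⟩

end Fermat.Agent.RT
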