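import Fermat.Agent.RT.Types
import Fermat.Agent.GenES.Twist
import Fermat.Agent.Oldforms.Basic

/-!
# Disjointness of types, applied to eigenforms with nebentypus

Let `f` be an eigenform of level `q m` (with `q ∤ m` prime) whose nebentypus `ψ⁻²` is ramified at
`q`. Then no eigenform `g` for `Γ₀(M₁)` with `a_p(g) = ψ(p) a_p(f)` has level `M₁` with
`q² ∤ M₁`.
-/

set_option autoImplicit false

open UpperHalfPlane CongruenceSubgroup ModularForm ModularFormClass
open scoped MatrixGroups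

namespace Fermat.Agent.RT

open Fermat.Agent.GenES

section

variable {m q : ℕ}

theorem HasExp.of_qSer {f : ℍ → ℂ} {a : ℕ → ℂ} (h : QSer f a) : HasExp f a := by
  intro z
  refine hasSum_of_eq (h z) (fun n => ?_) rfl
  rw [smul_eq_mul, ee, Function.Periodic.qParam, ← Complex.exp_nat_mul]
  congr 2
  push_cast
  ring

theorem mem_gamma0_of_en (hm : m.Coprime q) {γ : SL(2, ℤ)} (h1 : γ ∈ Gamma1 m)
    (h2 : en q γ 1 0 = 0) : γ ∈ Gamma0 (q * m) := by
  rw [Gamma1_mem] at h1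
  rw [Gamma0_mem]
  have h3 : (m : ℤ) ∣ γ 1 0 := (ZMod.intCast_zmod_eq_zero_iff_dvd _ _).mp h1.2.2
  have h4 : (q : ℤ) ∣ γ 1 0 := (ZMod.intCast_zmod_eq_zero_iff_dvd _ _).mp h2
  rw [ZMod.intCast_zmod_eq_zero_iff_dvd]
  push_cast
  exact IsCoprime.mul_dvd (Nat.isCoprime_iff_coprime.mpr hm.symm) h4 h3

end

variable {m q : ℕ} [hq : Fact q.Prime]

theorem isUnit_en {γ : SL(2, ℤ)} (h2 : en q γ 1 0 = 0) : IsUnit (en q γ 1 1) := by
  have := en_det (q := q) γ
  rw [h2, mul_zero, sub_zero, mul_comm] at this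
  exact IsUnit.of_mul_eq_one _ this

theorem isUp_gamma0 (hm : m.Coprime q) {M₁ : ℕ} (hM₁ : M₁ ∣ q * m)
    (g : CuspForm (Gamma0 M₁) 2) : IsUp 2 m q 1 g := by
  intro γ h1 h2
  have h3 := mem_gamma0_of_en hm h1 h2
  have h4 : γ ∈ Gamma0 M₁ := by
    rw [Gamma0_mem, ZMod.intCast_zmod_eq_zero_iff_dvd] at h3 ⊢
    exact (Int.natCast_dvd_natCast.mpr hM₁).trans h3
  rw [MulChar.one_apply (isUnit_en h2), one_smul, sl_apply]
  exact SlashInvariantFormClass.slash_action_eq g (Matrix.SpecialLinearGroup.mapGL ℝ γ)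
    (show Matrix.SpecialLinearGroup.mapGL ℝ γ ∈ (Gamma0 M₁ : Subgroup (GL (Fin 2) ℝ)) from
      Subgroup.mem_map_of_mem _ h4)

theorem isUp_neb (hm : m.Coprime q) [NeZero (q * m)] {ψ : DirichletCharacter ℂ (q * m)}
    {lam : ℕ → ℂ} {f : CuspForm (Gamma1 (q * m)) 2} (h : NebEig ψ lam f) :
    IsUp 2 m q ((compQ hm ψ) ^ 2)⁻¹ f := by
  intro γ h1 h2
  have h3 := mem_gamma0_of_en hm h1 h2
  have h4 := h.slash h3
  have h5 := isUnit_en h2
  have h6 : ψ ((γ 1 1 : ℤ) : ZMod (q * m)) = compQ hm ψ (en q γ 1 1) := by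
    rw [comp_mul_int hm, (Gamma1_mem m γ).mp h1 |>.2.1, MulChar.map_one, mul_one]
    rfl
  rw [h6] at h4
  have h7 : compQ hm ψ (en q γ 1 1) ^ 2 ≠ 0 := pow_ne_zero 2 (h5.map (compQ hm ψ)).ne_zero
  rw [sl_apply, MulChar.inv_apply_eq_inv', MulChar.pow_apply' _ two_ne_zero, eq_inv_smul_iff₀ h7]
  exact h4

/-- comparison of the coefficients prime to a bad set -/
theorem coeff_rel {M : ℕ} [NeZero M] {ψ : DirichletCharacter ℂ M} {lam : ℕ → ℂ}
    {f : CuspForm (Gamma1 M) 2} (h : NebEig ψ lam f) {M₁ : ℕ} [NeZero M₁]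
    {g : CuspForm (Gamma0 M₁) 2} (hg : g.IsNormalizedEigenform) (D : ℕ) (hMD : M ∣ D)
    (hM₁D : M₁ ∣ D) (hgf : ∀ p : ℕ, p.Prime → ¬ p ∣ D → qCoeff g p = ψ (p : ZMod M) * lam p)
    (n : ℕ) (hn : n.Coprime D) (hn0 : n ≠ 0) :
    ψ (n : ZMod M) * qCoeff f n = qCoeff f 1 * qCoeff g n := by
  induction n using Nat.strongRecOn with
  | ind n ih =>
    rcases Nat.lt_or_ge n 2 with h2 | h2
    · obtain rfl : n = 1 := by omega
      rw [hg.qCoeff_one]
      simp
    · obtain ⟨p, hp, m, rfl⟩ := Nat.exists_prime_and_dvd (show n ≠ 1 by omega)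
      have hm : 0 < m := Nat.pos_of_ne_zero (by rintro rfl; simp at hn0)
      have hlt : m < p * m := by nlinarith [hp.two_le]
      have hpD : ¬ p ∣ D := fun hd => by
        have h3 := Nat.dvd_gcd (Dvd.intro m rfl) hd
        rw [hn] at h3
        exact hp.one_lt.ne' (Nat.dvd_one.mp h3)
      have : Fact p.Prime := ⟨hp⟩
      have hpM : ¬ p ∣ M := fun hd => hpD (hd.trans hMD)
      have hpM₁ : ¬ p ∣ M₁ := fun hd => hpD (hd.trans hM₁D)
      have h4 := FermatAgent.HeckeEigen.coeff_rec_of_eigen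
        (fun p => FermatAgent.HeckeEigen.heckeOp_eq_of_isNormalizedEigenform hg p) ⟨p, hp⟩ m
      have hψ : ψ (p : ZMod M) ≠ 0 := by
        have hc : p.Coprime M := (Nat.Prime.coprime_iff_not_dvd hp).mpr hpM
        have := NebEig.psi_ne_zero ψ (ZMod.unitOfCoprime p hc)
        rwa [ZMod.coe_unitOfCoprime] at this
      simp only [if_neg hpM₁] at h4
      have ihm := ih m hlt (Nat.Coprime.coprime_mul_left hn) hm.ne'
      rw [h4, h.coeff_mul p hpM, hgf p hp hpD]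
      split_ifs with hpm
      · obtain ⟨m', rfl⟩ := hpm
        have hm' : 0 < m' := Nat.pos_of_ne_zero (by rintro rfl; simp at hm)
        have ihm' := ih m' (lt_trans (by nlinarith [hp.two_le]) hlt)
          (Nat.Coprime.coprime_mul_left (Nat.Coprime.coprime_mul_left hn)) hm'.ne'
        rw [Nat.mul_div_cancel_left _ hp.pos]
        push_cast at ihm ⊢
        rw [map_mul] at ihm
        rw [map_mul, map_mul]
        field_simp
        linear_combination (ψ (p : ZMod M) * lam p) * ihm - p * ihm'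
      · push_cast
        rw [map_mul]
        linear_combination (ψ (p : ZMod M) * lam p) * ihm

/-- **Disjointness of types** for eigenforms: if the nebentypus `ψ⁻²` of `f` (level `q m`, `q ∤ m`)
is ramified at `q`, then there is no eigenform with trivial nebentypus of level `M₁`, `q² ∤ M₁`,
with eigenvalues `ψ(p) a_p(f)`. -/
theorem false_of_neb (hm : m.Coprime q) [NeZero (q * m)] {ψ : DirichletCharacter ℂ (q * m)}
    (hψ : ∃ u : (ZMod (q * m))ˣ, ZMod.unitsMap (Dvd.intro_left q rfl : m ∣ q * m) u = 1 ∧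
      ψ u ^ 2 ≠ 1) {lam : ℕ → ℂ} {f : CuspForm (Gamma1 (q * m)) 2} (hf : NebEig ψ lam f)
    (hf0 : qCoeff f 1 ≠ 0) {M₁ : ℕ} [NeZero M₁] {g : CuspForm (Gamma0 M₁) 2}
    (hg : g.IsNormalizedEigenform) (D : ℕ) (hD0 : D ≠ 0)
    (hgf : ∀ p : ℕ, p.Prime → ¬ p ∣ D → qCoeff g p = ψ (p : ZMod (q * m)) * lam p) :
    q ^ 2 ∣ M₁ := by
  by_contra hcon
  -- the prime to `q` part of everything
  have hE0 : q * m * M₁ * D ≠ 0 := mul_ne_zero (mul_ne_zero (NeZero.ne _) (NeZero.ne _)) hD0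
  obtain ⟨e, r, hqr, hEr⟩ := Nat.exists_eq_pow_mul_and_not_dvd hE0 q hq.out.ne_one
  have hr0 : NeZero r := ⟨by rintro rfl; simp at hqr⟩
  have hrq : r.Coprime q := ((Nat.Prime.coprime_iff_not_dvd hq.out).mpr hqr).symm
  have hmr : m ∣ r := by
    have h1 : m ∣ q ^ e * r := by
      rw [← hEr]; exact ⟨q * M₁ * D, by ring⟩
    exact (Nat.Coprime.dvd_mul_left (Nat.Coprime.pow_right e hm)).mp h1
  have hM₁r : M₁ ∣ q * r := by
    obtain ⟨j, M₂, hqM₂, hM₂⟩ := Nat.exists_eq_pow_mul_and_not_dvd (NeZero.ne M₁) q hq.out.ne_one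
    have hj : j ≤ 1 := by
      by_contra hj
      apply hcon
      rw [hM₂]
      exact (pow_dvd_pow q (by omega)).mul_right M₂
    have h1 : M₂ ∣ q ^ e * r := by
      rw [← hEr]
      exact (Dvd.intro_left (q ^ j) hM₂.symm).trans ⟨q * m * D, by ring⟩
    have h2 : M₂ ∣ r := (Nat.Coprime.dvd_mul_left (Nat.Coprime.pow_right e
      ((Nat.Prime.coprime_iff_not_dvd hq.out).mpr hqM₂).symm)).mp h1
    rw [hM₂]
    have h3 : q ^ j ∣ q := by
      calc q ^ j ∣ q ^ 1 := pow_dvd_pow q hj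
        _ = q := pow_one q
    exact mul_dvd_mul h3 h2
  -- the characters
  have hψ2 : (compQ hm ψ) ^ 2 ≠ 1 := by
    obtain ⟨u, hu1, hu2⟩ := hψ
    intro h1
    apply hu2
    rw [← comp_mul hm ψ u, hu1, Units.val_one, MulChar.map_one, mul_one]
    have h2 := congrArg (fun χ : MulChar (ZMod q) ℂ =>
      χ (ZMod.unitsMap (Dvd.intro m rfl : q ∣ q * m) u : (ZMod q)ˣ)) h1
    simp only [MulChar.pow_apply' _ two_ne_zero, MulChar.one_apply_coe] at h2
    exact h2
  have hψi : ((compQ hm ψ) ^ 2)⁻¹ ≠ 1 := by rwa [Ne, inv_eq_one]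
  have hχi : (compQ hm ψ)⁻¹ ≠ 1 := by
    rw [Ne, inv_eq_one]
    intro h1
    exact hψ2 (by rw [h1, one_pow])
  have hup : IsUp 2 r q ((compQ hm ψ) ^ 2)⁻¹ f := (isUp_neb hm hf).of_dvd hmr
  have hupg : IsUp 2 r q 1 g := isUp_gamma0 hrq hM₁r g
  have hex : HasExp f (qCoeff f) := HasExp.of_qSer (NebEig.qser f)
  have hexg : HasExp (qCoeff f 1 • (g : ℍ → ℂ)) (fun n => qCoeff f 1 * qCoeff g n) := by
    intro z
    have h1 := (HasExp.of_qSer (QSer.of_form (one_mem_strictPeriods_Gamma0 _) g) z).mul_left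
      (qCoeff f 1)
    exact hasSum_of_eq h1 (fun n => by ring) rfl
  have hupg' : IsUp 2 r q 1 (qCoeff f 1 • (g : ℍ → ℂ)) := by
    intro γ h1 h2
    rw [map_smul, hupg γ h1 h2, smul_comm]
  let φ₁ : DirichletCharacter ℂ r := 1
  let φ₂ : DirichletCharacter ℂ r := DirichletCharacter.changeLevel hmr (compM hm ψ)⁻¹
  have key := coeff_eq_zero (q := q) (r := r) hrq hrq hψi hχi hup hupg' hex hexg φ₁ φ₂ ?_ 1
  · simp only [Nat.cast_one, MulChar.map_one, one_mul] at key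
    exact hf0 key
  · intro n hqn
    by_cases hn : n.Coprime r
    · have hnE : n.Coprime (q * m * M₁ * D) := by
        rw [hEr]
        exact Nat.Coprime.mul_right (Nat.Coprime.pow_right e
          ((Nat.Prime.coprime_iff_not_dvd hq.out).mpr hqn).symm) hn
      have hn0 : n ≠ 0 := by rintro rfl; simp at hqn
      have h1 := coeff_rel hf hg (q * m * M₁ * D) ⟨M₁ * D, by ring⟩ ⟨q * m * D, by ring⟩
        (fun p hp hpD => hgf p hp fun hd => hpD (hd.mul_left _)) n hnE hn0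
      have h2 : φ₁ (n : ZMod r) = 1 := MulChar.one_apply ((ZMod.isUnit_iff_coprime n r).mpr hn)
      have h3 : φ₂ (n : ZMod r) = (compM hm ψ (n : ZMod m))⁻¹ := by
        have h4 := DirichletCharacter.changeLevel_eq_cast_of_dvd' (χ := (compM hm ψ)⁻¹) hmr
          (a := (n : ℤ)) (Nat.isCoprime_iff_coprime.mpr hn)
        rw [Int.cast_natCast, Int.cast_natCast] at h4
        rw [← MulChar.inv_apply_eq_inv']
        exact h4
      have h5 := comp_mul_int hm ψ (n : ℤ)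
      rw [Int.cast_natCast, Int.cast_natCast, Int.cast_natCast] at h5
      have h6 : ψ (n : ZMod (q * m)) ≠ 0 := by
        have hc : n.Coprime (q * m) := by
          have := Nat.Coprime.coprime_mul_right_right (Nat.Coprime.coprime_mul_right_right hnE)
          exact this
        have := NebEig.psi_ne_zero ψ (ZMod.unitOfCoprime n hc)
        rwa [ZMod.coe_unitOfCoprime] at this
      rw [h5] at h6 h1
      have h7 := left_ne_zero_of_mul h6
      have h8 := right_ne_zero_of_mul h6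
      rw [h2, h3, MulChar.inv_apply_eq_inv', ← h1]
      field_simp
    · have h1 : φ₁ (n : ZMod r) = 0 :=
        MulChar.map_nonunit _ (by rwa [ZMod.isUnit_iff_coprime])
      have h2 : φ₂ (n : ZMod r) = 0 :=
        MulChar.map_nonunit _ (by rwa [ZMod.isUnit_iff_coprime])
      rw [h1, h2]
      ring

theorem exists_qCoeff_ne_zero {M : ℕ} [NeZero M] {f : CuspForm (Gamma1 M) 2} (hf : f ≠ 0) :
    ∃ n : ℕ, 0 < n ∧ qCoeff f n ≠ 0 := by
  by_contra hcon
  push Not at hcon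
  apply hf
  ext τ
  have h1 := HasExp.of_qSer (NebEig.qser f) τ
  have h2 : ∀ m : ℕ, qCoeff f m * ee (m * (τ : ℂ)) = 0 := by
    intro m
    rcases Nat.eq_zero_or_pos m with rfl | hm
    · have h0 : qCoeff f 0 = 0 :=
        CuspFormClass.qExpansion_coeff_zero f one_pos (one_mem_strictPeriods_Gamma1 M)
      rw [h0, zero_mul]
    · rw [hcon m hm, zero_mul]
  simp only [h2] at h1
  exact h1.unique hasSum_zero

/-- The newform attached to (the twist of) an eigenform with nebentypus `ψ⁻²` ramified at `q`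
has level exactly divisible by `q²`. -/
theorem exists_newform_of_neb {M : ℕ} [NeZero M] {ψ : DirichletCharacter ℂ M} {lam : ℕ → ℂ}
    {f : CuspForm (Gamma1 M) 2} (hf : NebEig ψ lam f) (hf0 : f ≠ 0) :
    ∃ (M₁ : ℕ) (_ : NeZero M₁) (g : CuspForm (Gamma0 M₁) 2), M₁ ∣ M ^ 2 ∧ g.IsNewform ∧
      (∀ p : ℕ, p.Prime → ¬ p ∣ M → qCoeff g p = ψ (p : ZMod M) * lam p) ∧
      ∀ (q m : ℕ) (_ : q.Prime) (_ : m.Coprime q) (hM : M = q * m),
        (∃ u : (ZMod M)ˣ, ZMod.unitsMap (Dvd.intro_left q hM.symm : m ∣ M) u = 1 ∧ ψ u ^ 2 ≠ 1) →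
          M₁.factorization q = 2 := by
  obtain ⟨F, hF, hFp, -⟩ := hf.exists_twist hf0
  obtain ⟨M₁, hM₁, hM₁0, g, hg, hgF⟩ := Oldforms.exists_newform
    (Nat.pos_of_ne_zero (pow_ne_zero 2 (NeZero.ne M))) F hF
  have hgp : ∀ p : ℕ, p.Prime → ¬ p ∣ M → qCoeff g p = ψ (p : ZMod M) * lam p := by
    intro p hp hpM
    rw [hgF p hp (fun h => hpM (hp.dvd_of_dvd_pow h)), hFp p hp hpM]
  have hne : NeZero M₁ := ⟨hM₁0.ne'⟩
  refine ⟨M₁, hne, g, hM₁, hg, hgp, ?_⟩
  intro q m hq hm hM hψ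
  subst hM
  have hqf : Fact q.Prime := ⟨hq⟩
  obtain ⟨n, hn, hne⟩ := exists_qCoeff_ne_zero hf0
  obtain ⟨f', hf', hf'1⟩ := NebEig.exists_coeff_one_ne_zero n f hf hn hne
  have h1 : q ^ 2 ∣ M₁ := false_of_neb hm hψ hf' hf'1 hg.isNormalizedEigenform (q * m)
    (NeZero.ne _) hgp
  have h2 : 2 ≤ M₁.factorization q := (hq.pow_dvd_iff_le_factorization hM₁0.ne').mp h1
  have h3 : M₁.factorization q ≤ ((q * m) ^ 2).factorization q :=
    (Nat.factorization_le_iff_dvd hM₁0.ne' (pow_ne_zero 2 (NeZero.ne _))).mpr hM₁ q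
  have hqm : ¬ q ∣ m := (Nat.Prime.coprime_iff_not_dvd hq).mp hm.symm
  have h4 : ((q * m) ^ 2).factorization q = 2 := by
    rw [Nat.factorization_pow, Nat.factorization_mul hq.ne_zero (by rintro rfl; simp at hqm)]
    simp [hq.factorization, Nat.factorization_eq_zero_of_not_dvd hqm]
  omega

end Fermat.Agent.RT
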