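import Fermat.Agent.RT.Ramified
import Fermat.Agent.RT.NormEq
import Fermat.Agent.RT.TypesNeb
import Fermat.Agent.S29.Character
import Fermat.Agent.HeckeEigen.Joint

/-!
# The norm elements of the two actions of `Δ_q` agree

`θ` = the Galois theoretic generator (inertia at `q`), `d` = the diamond operator. At every
eigenform `x` we have `x θ = 1 ↔ x d = 1`, so `∑ θ ^ j = ∑ d ^ j`.
-/

set_option autoImplicit false
set_option linter.style.haveILetI false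

open Polynomial CuspForm CongruenceSubgroup ModularFormClass
open scoped TensorProduct

namespace Fermat.Agent.RT

open Fermat.Agent.HeckeRep Fermat.Agent.S30aux ModularCurve

/-- the absolute Galois group -/
local notation "GQ'" => (AlgebraicClosure ℚ ≃ₐ[ℚ] AlgebraicClosure ℚ)

section Point

variable {𝒪 L : Type*} [CommRing 𝒪] [Field L] [IsAlgClosed L] [Algebra 𝒪 L]
  {T : Type*} [CommRing T] [Algebra 𝒪 T] {M : Type*} [AddCommGroup M] [Module 𝒪 M]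
  [Module.Finite 𝒪 M]

/-- a joint eigenvector of some elements of a commutative ring of operators can be replaced by
a joint eigenvector of the whole ring -/
theorem exists_point_of_eigen (act : T →ₐ[𝒪] Module.End 𝒪 M) {v : L ⊗[𝒪] M} (hv : v ≠ 0)
    {ι : Type*} (t : ι → T) (a : ι → L) (h : ∀ i, (act (t i)).baseChange L v = a i • v) :
    ∃ x : T →ₐ[𝒪] L, (∀ i, x (t i) = a i) ∧
      ∃ v' : L ⊗[𝒪] M, v' ≠ 0 ∧ ∀ s, (act s).baseChange L v' = x s • v' := by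
  let F : T →+* Module.End L (L ⊗[𝒪] M) :=
    ((Module.End.baseChangeHom 𝒪 L M : Module.End 𝒪 M →ₐ[𝒪] Module.End L (L ⊗[𝒪] M)) :
      Module.End 𝒪 M →+* Module.End L (L ⊗[𝒪] M)).comp (act : T →+* Module.End 𝒪 M)
  have hF : ∀ s, F s = (act s).baseChange L := fun s => rfl
  have hcomm : ∀ s s' : T, Commute (F s) (F s') := fun s s' => (Commute.all s s').map F
  let W : Submodule L (L ⊗[𝒪] M) := ⨅ i, (F (t i)).eigenspace (a i)
  have hvW : v ∈ W := by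
    rw [Submodule.mem_iInf]
    intro i
    rw [Module.End.mem_eigenspace_iff, hF]
    exact h i
  have : Nontrivial W := ⟨⟨v, hvW⟩, 0, fun h0 => hv (congrArg Subtype.val h0)⟩
  have hmap : ∀ s, ∀ y ∈ W, F s y ∈ W := by
    intro s y hy
    rw [Submodule.mem_iInf] at hy ⊢
    intro i
    have h1 := hy i
    rw [Module.End.mem_eigenspace_iff] at h1 ⊢
    have h2 : F (t i) (F s y) = F s (F (t i) y) := by
      have := congrArg (fun A : Module.End L (L ⊗[𝒪] M) => A y) (hcomm (t i) s).eq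
      simpa using this
    rw [h2, h1, map_smul]
  obtain ⟨χ, w, hw, hχ⟩ := FermatAgent.HeckeEigen.exists_joint_eigenvector (K := L) (V := W)
    (fun s : T => ((F s).restrict (hmap s) : Module.End L W)) (fun s s' => by
      apply LinearMap.ext
      intro y
      apply Subtype.ext
      have := congrArg (fun A : Module.End L (L ⊗[𝒪] M) => A y) (hcomm s s').eq
      simpa using this)
  have hw0 : (w : L ⊗[𝒪] M) ≠ 0 := fun h0 => hw (Subtype.ext h0)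
  have hχ' : ∀ s, F s w = χ s • (w : L ⊗[𝒪] M) := fun s => by
    have := congrArg Subtype.val (hχ s)
    simpa using this
  have hinj : ∀ {c c' : L}, c • (w : L ⊗[𝒪] M) = c' • (w : L ⊗[𝒪] M) → c = c' := fun {c c'} hc =>
    smul_left_injective L hw0 hc
  refine ⟨{ toFun := χ
            map_one' := hinj (by rw [← hχ', map_one, one_smul]; rfl)
            map_mul' := fun s s' => hinj (by
              rw [← hχ', map_mul, Module.End.mul_apply, hχ', map_smul, hχ', smul_smul, mul_comm])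
            map_zero' := hinj (by rw [← hχ', map_zero, zero_smul]; rfl)
            map_add' := fun s s' => hinj (by
              rw [← hχ', map_add, LinearMap.add_apply, hχ', hχ', add_smul])
            commutes' := fun c => hinj (by
              rw [← hχ', hF, AlgHom.commutes, Algebra.algebraMap_eq_smul_one,
                LinearMap.baseChange_smul, LinearMap.baseChange_one, LinearMap.smul_apply,
                Module.End.one_apply, algebraMap_smul]) }, ?_, w, hw0, hχ'⟩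
  intro i
  have h1 := w.2
  have h2 := (Submodule.mem_iInf _).mp h1 i
  rw [Module.End.mem_eigenspace_iff, hχ'] at h2
  exact hinj h2

end Point

section Factor

/-- characters of the Hecke algebra with values in a subring -/
theorem heckeAlgebra_mem_range {N : ℕ} [NeZero N] {S : Set ℕ}
    (hS : ∀ r : ℕ, r.Prime → r ∣ N → r ∈ S) (χ : CuspForm.heckeAlgebra N 2 S →+* ℂ)
    (A : Subring ℂ)
    (h : ∀ (ℓ : ℕ) (hℓ : ℓ.Prime) (hℓN : ¬ ℓ ∣ N) (hℓS : ℓ ∉ S),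
      χ (CuspForm.heckeAlgebra.T hℓ hℓN hℓS) ∈ A) (t : CuspForm.heckeAlgebra N 2 S) :
    χ t ∈ A := by
  obtain ⟨t, ht⟩ := t
  refine Algebra.adjoin_induction
    (p := fun t ht => χ (⟨t, ht⟩ : CuspForm.heckeAlgebra N 2 S) ∈ A) ?_ ?_ ?_ ?_ ht
  · rintro t (⟨ℓ, hℓ, hℓN, hℓS, rfl⟩ | ⟨q, hqN, hq, hqS, rfl⟩)
    · exact h ℓ hℓ hℓN hℓS
    · exact absurd (hS q hq hqN) hqS
  · intro r
    have h1 : (⟨algebraMap ℤ _ r, Subalgebra.algebraMap_mem _ r⟩ : CuspForm.heckeAlgebra N 2 S) =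
        algebraMap ℤ _ r := rfl
    rw [h1, eq_intCast, map_intCast]
    exact intCast_mem A r
  · intro a b ha hb h1 h2
    have h3 : (⟨a + b, add_mem ha hb⟩ : CuspForm.heckeAlgebra N 2 S) = ⟨a, ha⟩ + ⟨b, hb⟩ := rfl
    rw [h3, map_add]
    exact add_mem h1 h2
  · intro a b ha hb h1 h2
    have h3 : (⟨a * b, mul_mem ha hb⟩ : CuspForm.heckeAlgebra N 2 S) = ⟨a, ha⟩ * ⟨b, hb⟩ := rfl
    rw [h3, map_mul]
    exact mul_mem h1 h2

/-- the inverse of an injective homomorphism on a subring contained in the range -/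
theorem exists_section {B : Type*} [CommRing B] (i : B →+* ℂ) (hi : Function.Injective i)
    (A : Subring ℂ) (hA : ∀ a ∈ A, a ∈ i.range) :
    ∃ s : A →+* B, ∀ a, i (s a) = a := by
  let e : B ≃+* i.range := RingEquiv.ofBijective i.rangeRestrict
    ⟨fun a b h => hi (congrArg Subtype.val h), i.rangeRestrict_surjective⟩
  refine ⟨(e.symm : i.range →+* B).comp (Subring.inclusion hA), fun a => ?_⟩
  exact congrArg Subtype.val (e.apply_symm_apply (Subring.inclusion hA a))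

end Factor

/-- the eigenvalue system `a` occurs on a newform of level `M₁` with `q² ‖ M₁` -/
def OccursSq (S : Finset ℕ) (q : ℕ) (a : ℕ → ℂ) : Prop :=
  ∃ (M₁ : ℕ) (_ : NeZero M₁) (g : CuspForm (Gamma0 M₁) 2), g.IsNewform ∧
    M₁.factorization q = 2 ∧ (∀ r : ℕ, r.Prime → r ∣ M₁ → r ∈ S) ∧
    ∀ ℓ : ℕ, ℓ.Prime → ℓ ∉ S → qCoeff g ℓ = a ℓ

/-- the eigenvalue system `a` occurs in the Hecke algebra of a level `N₁` with `q² ∤ N₁` -/
def OccursLow (S : Finset ℕ) (q : ℕ) (a : ℕ → ℂ) : Prop :=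
  ∃ (N₁ : ℕ) (_ : NeZero N₁), ¬ q ^ 2 ∣ N₁ ∧ (∀ r : ℕ, r.Prime → r ∣ N₁ → r ∈ S) ∧
    ∃ χ : CuspForm.heckeAlgebra N₁ 2 (↑S : Set ℕ) →+* ℂ,
      ∀ (ℓ : ℕ) (hℓ : ℓ.Prime) (hℓN : ¬ ℓ ∣ N₁) (hℓS : ℓ ∉ (↑S : Set ℕ)),
        χ (CuspForm.heckeAlgebra.T hℓ hℓN hℓS) = a ℓ

/-- Unipotence at `q` for representations of level `N₁`, `q² ∤ N₁`. -/
def UnipLow (p : ℕ) (S : Finset ℕ) : Prop :=
  ∀ (N₁ : ℕ) [NeZero N₁] (_ : ∀ r : ℕ, r.Prime → r ∣ N₁ → r ∈ S)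
    (O' : Type) [CommRing O'] [IsDomain O'] [IsDiscreteValuationRing O']
    [IsAdicComplete (IsLocalRing.maximalIdeal O') O'] [Finite (IsLocalRing.ResidueField O')]
    [CharZero O'] (_ : (p : O') ∈ IsLocalRing.maximalIdeal O')
    (χ : CuspForm.heckeAlgebra N₁ 2 (↑S : Set ℕ) →+* O') (ρ : GaloisRepAdic O')
    (_ : ∀ (ℓ : ℕ) (hℓ : ℓ.Prime) (hℓM : ¬ ℓ ∣ N₁) (hℓS : ℓ ∉ (↑S : Set ℕ)),
      ∀ A : ValuationSubring (AlgebraicClosure ℚ), A.LiesOverPrime ℓ →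
        ∀ σ : GQ', A.IsFrobeniusAt σ ℓ → LinearMap.charpoly (ρ.ρ σ) =
          X ^ 2 - C (χ (CuspForm.heckeAlgebra.T hℓ hℓM hℓS)) * X + C ((ℓ : O')))
    (_ : ρ.residual.IsAbsolutelyIrreducible) (q : ℕ) (_ : q.Prime) (_ : q ≠ p)
    (_ : ¬ q ^ 2 ∣ N₁), ρ.IsUnipotentOnInertiaAt q

theorem isLocalHom_of_isIntegral {A B : Type*} [CommRing A] [IsLocalRing A] [CommRing B]
    [Nontrivial B] (f : A →+* B) (hf : f.IsIntegral) : IsLocalHom f := by
  have h1 : IsLocalHom f.rangeRestrict := IsLocalHom.of_surjective _ f.rangeRestrict_surjective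
  have h2 : IsLocalHom f.range.subtype := by
    refine RingHom.IsIntegral.isLocalHom ?_ Subtype.val_injective
    refine RingHom.IsIntegral.tower_top f.rangeRestrict f.range.subtype ?_
    exact hf
  exact RingHom.isLocalHom_comp f.range.subtype f.rangeRestrict

section Main

variable {𝒪 : Type} [CommRing 𝒪] [IsDomain 𝒪] [IsDiscreteValuationRing 𝒪]
  [IsAdicComplete (IsLocalRing.maximalIdeal 𝒪) 𝒪] [Finite (IsLocalRing.ResidueField 𝒪)]
  [CharZero 𝒪] [Algebra 𝒪 ℂ] [FaithfulSMul 𝒪 ℂ] {p : ℕ} [Fact p.Prime] {S : Finset ℕ}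

theorem theta_eq_one_iff (h36 : Stmt36) (hlow : UnipLow p S) (hp𝒪 : (p : 𝒪) ∈ IsLocalRing.maximalIdeal 𝒪)
    (hp2 : p ≠ 2) (hpS : p ∈ S) {q : ℕ} (hq : q.Prime) (hqp : q ≠ p)
    {R : Type} [CommRing R] [IsLocalRing R] (ρ : GaloisRepAdic R) {κ : R} (hκ : 2 * κ = 1)
    (habs : ρ.residual.IsAbsolutelyIrreducible) (hodd : ρ.residual.IsOdd) (τ : ℕ → R)
    (hτ : ∀ ℓ : ℕ, ℓ.Prime → ℓ ∉ (↑S : Set ℕ) → ∀ A : ValuationSubring (AlgebraicClosure ℚ),
      A.LiesOverPrime ℓ → ∀ σ : GQ', A.IsFrobeniusAt σ ℓ →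
        LinearMap.charpoly (ρ.ρ σ) = X ^ 2 - C (τ ℓ) * X + C (ℓ : R))
    (θ : R) (hθ : ∀ (O' : Type) [CommRing O'] [IsDomain O'] [IsDiscreteValuationRing O']
      [IsAdicComplete (IsLocalRing.maximalIdeal O') O'] [Finite (IsLocalRing.ResidueField O')]
      [CharZero O'] (y : R →+* O') (hy : IsLocalHom y),
      (ρ.baseChangeAlong y hy).IsUnipotentOnInertiaAt q ↔ y θ = 1)
    {T : Type} [CommRing T] [IsLocalRing T] [Algebra 𝒪 T] [Module.Finite 𝒪 T] (φ : R →+* T)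
    [IsLocalHom φ] (d : T) (x : T →ₐ[𝒪] ℂ)
    (H1 : x d = 1 → OccursLow S q (fun ℓ => x (φ (τ ℓ))))
    (H2 : x d ≠ 1 → OccursSq S q (fun ℓ => x (φ (τ ℓ)))) :
    x (φ θ) = 1 ↔ x d = 1 := by
  obtain ⟨O', _, _, _, _, _, _, _, _, _, y, i, hinj, hi, hiy⟩ := exists_dvr_ext x
  have hiy' : ∀ t, i (y t) = x t := fun t => by rw [← hiy]; rfl
  have hloc : IsLocalHom (y : T →+* O') := by
    refine isLocalHom_of_isIntegral _ ?_
    have h1 : (algebraMap 𝒪 O').IsIntegral := algebraMap_isIntegral_iff.mpr inferInstance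
    rw [← AlgHom.comp_algebraMap y] at h1
    exact RingHom.IsIntegral.tower_top _ _ h1
  have hloc' : IsLocalHom ((y : T →+* O').comp φ) := RingHom.isLocalHom_comp _ _
  set ρx : GaloisRepAdic O' := ρ.baseChangeAlong ((y : T →+* O').comp φ) hloc' with hρx
  have hpO' : (p : O') ∈ IsLocalRing.maximalIdeal O' := by
    have h := map_nonunit (algebraMap 𝒪 O') (p : 𝒪) hp𝒪
    rwa [map_natCast] at h
  have hch : ∀ g : GQ', (ρx.ρ g).charpoly = (ρ.ρ g).charpoly.map ((y : T →+* O').comp φ) :=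
    charpoly_baseChangeAlong_adic _ hloc' ρ
  have hfrob : ∀ ℓ : ℕ, ℓ.Prime → ℓ ∉ (↑S : Set ℕ) → ∀ A : ValuationSubring (AlgebraicClosure ℚ),
      A.LiesOverPrime ℓ → ∀ σ : GQ', A.IsFrobeniusAt σ ℓ →
        LinearMap.charpoly (ρx.ρ σ) = X ^ 2 - C (y (φ (τ ℓ))) * X + C (ℓ : O') := by
    intro ℓ hℓ hℓS A hA σ hσ
    rw [hch, hτ ℓ hℓ hℓS A hA σ hσ]
    simp
  obtain ⟨habs', hodd'⟩ := residual_absIrr_odd ((y : T →+* O').comp φ) hκ hch habs hodd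
  have hθx := hθ O' ((y : T →+* O').comp φ) hloc'
  have hx1 : x (φ θ) = 1 ↔ y (φ θ) = 1 := by
    rw [← hiy', ← map_one i]
    exact hi.eq_iff
  rw [hx1]
  constructor
  · intro h1
    by_contra hd
    obtain ⟨M₁, _, g, hg, hM₁, hM₁S, hga⟩ := H2 hd
    set chig := S29aux.eigenChar hg.isNormalizedEigenform (↑S : Set ℕ) with hchigdef
    have hchig : ∀ (ℓ : ℕ) (hℓ : ℓ.Prime) (hℓM : ¬ ℓ ∣ M₁) (hℓS : ℓ ∉ (↑S : Set ℕ)),
        chig (CuspForm.heckeAlgebra.T hℓ hℓM hℓS) = qCoeff g ℓ := fun ℓ hℓ hℓM hℓS =>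
      S29aux.eigenChar_T hg.isNormalizedEigenform (↑S : Set ℕ) hℓ hℓM hℓS
    have hrange : ∀ a ∈ chig.range, a ∈ (i : O' →+* ℂ).range := by
      rintro _ ⟨t, rfl⟩
      refine heckeAlgebra_mem_range hM₁S chig _ (fun ℓ hℓ hℓN hℓS => ?_) t
      exact ⟨y (φ (τ ℓ)), by
        rw [hchig ℓ hℓ hℓN hℓS, hga ℓ hℓ hℓS]; exact hiy' _⟩
    obtain ⟨iota, hiota⟩ := exists_section (i : O' →+* ℂ) hi chig.range hrange
    refine not_unipotent_of_factorization_eq_two h36 hg hpO' hp2 chig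
      hchig iota hpS hM₁S ρx ?_ habs' hodd' hq hqp hM₁
      (hθx.mpr h1)
    intro ℓ hℓ hℓM hℓS A hA σ hσ
    rw [hfrob ℓ hℓ hℓS A hA σ hσ]
    congr 4
    apply hi
    rw [hiy']
    have h2 := hiota (chig.rangeRestrict (CuspForm.heckeAlgebra.T hℓ hℓM hℓS))
    refine Eq.trans ?_ h2.symm
    rw [RingHom.coe_rangeRestrict, hchig ℓ hℓ hℓM hℓS, hga ℓ hℓ hℓS]
  · intro hd
    obtain ⟨N₁, _, hqN, hNS, χ, hχ⟩ := H1 hd
    have hrange : ∀ a ∈ χ.range, a ∈ (i : O' →+* ℂ).range := by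
      rintro _ ⟨t, rfl⟩
      refine heckeAlgebra_mem_range hNS χ _ (fun ℓ hℓ hℓN hℓS => ?_) t
      exact ⟨y (φ (τ ℓ)), by rw [hχ ℓ hℓ hℓN hℓS]; exact hiy' _⟩
    obtain ⟨iota, hiota⟩ := exists_section (i : O' →+* ℂ) hi χ.range hrange
    refine hθx.mp (hlow N₁ hNS O' hpO' (iota.comp χ.rangeRestrict) ρx ?_ habs' q hq hqp hqN)
    intro ℓ hℓ hℓM hℓS A hA σ hσ
    rw [hfrob ℓ hℓ hℓS A hA σ hσ]
    congr 4
    apply hi
    rw [hiy']
    have h2 := hiota (χ.rangeRestrict (CuspForm.heckeAlgebra.T hℓ hℓM hℓS))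
    refine Eq.trans ?_ h2.symm
    rw [RingHom.coe_rangeRestrict, hχ ℓ hℓ hℓM hℓS]

/-- **`N_θ = N_d`**. -/
theorem nOp_theta_eq (h36 : Stmt36) (hlow : UnipLow p S)
    (hp𝒪 : (p : 𝒪) ∈ IsLocalRing.maximalIdeal 𝒪)
    (hp2 : p ≠ 2) (hpS : p ∈ S) {q : ℕ} (hq : q.Prime) (hqp : q ≠ p)
    {R : Type} [CommRing R] [IsLocalRing R] (ρ : GaloisRepAdic R) {κ : R} (hκ : 2 * κ = 1)
    (habs : ρ.residual.IsAbsolutelyIrreducible) (hodd : ρ.residual.IsOdd) (τ : ℕ → R)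
    (hτ : ∀ ℓ : ℕ, ℓ.Prime → ℓ ∉ (↑S : Set ℕ) → ∀ A : ValuationSubring (AlgebraicClosure ℚ),
      A.LiesOverPrime ℓ → ∀ σ : GQ', A.IsFrobeniusAt σ ℓ →
        LinearMap.charpoly (ρ.ρ σ) = X ^ 2 - C (τ ℓ) * X + C (ℓ : R))
    (θ : R) (hθ : ∀ (O' : Type) [CommRing O'] [IsDomain O'] [IsDiscreteValuationRing O']
      [IsAdicComplete (IsLocalRing.maximalIdeal O') O'] [Finite (IsLocalRing.ResidueField O')]
      [CharZero O'] (y : R →+* O') (hy : IsLocalHom y),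
      (ρ.baseChangeAlong y hy).IsUnipotentOnInertiaAt q ↔ y θ = 1)
    {T : Type} [CommRing T] [IsLocalRing T] [Algebra 𝒪 T] [Module.Finite 𝒪 T] (φ : R →+* T)
    [IsLocalHom φ] (d : T) {M : Type*} [AddCommGroup M] [Module 𝒪 M] [Module.Finite 𝒪 M]
    [Module.Free 𝒪 M] (act : T →ₐ[𝒪] Module.End 𝒪 M) {P : ℕ} (hP : 0 < P)
    (hθP : act (φ θ) ^ P = 1) (hdP : act d ^ P = 1)
    (H : ∀ x : T →ₐ[𝒪] ℂ,
      (∃ v : ℂ ⊗[𝒪] M, v ≠ 0 ∧ ∀ t, (act t).baseChange ℂ v = x t • v) →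
      (x d = 1 → OccursLow S q (fun ℓ => x (φ (τ ℓ)))) ∧
      (x d ≠ 1 → OccursSq S q (fun ℓ => x (φ (τ ℓ))))) :
    nOp P (act (φ θ)) = nOp P (act d) := by
  refine nOp_eq_of_eigen_baseChange (L := ℂ) ((Commute.all (φ θ) d).map act) hP hθP hdP ?_
  intro v hv a b hva hvb
  obtain ⟨x, hx, hx'⟩ := exists_point_of_eigen act hv ![φ θ, d] ![a, b] (by
    intro i
    fin_cases i
    · exact hva
    · exact hvb)
  have hxθ : x (φ θ) = a := hx 0
  have hxd : x d = b := hx 1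
  obtain ⟨H1, H2⟩ := H x hx'
  rw [← hxθ, ← hxd]
  exact theta_eq_one_iff h36 hlow hp𝒪 hp2 hpS hq hqp ρ hκ habs hodd τ hτ θ hθ φ d x H1 H2

end Main

/-- the input `OccursSq` from an eigenform with nebentypus `ψ⁻²` ramified at `q` -/
theorem occursSq_of_neb {M : ℕ} [NeZero M] {ψ : DirichletCharacter ℂ M} {lam : ℕ → ℂ}
    {f : CuspForm (Gamma1 M) 2} (hf : GenES.NebEig ψ lam f) (hf0 : f ≠ 0) {S : Finset ℕ}
    (hMS : ∀ r : ℕ, r.Prime → r ∣ M → r ∈ S) {q m : ℕ} (hq : q.Prime) (hm : m.Coprime q)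
    (hM : M = q * m)
    (hψ : ∃ u : (ZMod M)ˣ, ZMod.unitsMap (Dvd.intro_left q hM.symm : m ∣ M) u = 1 ∧ ψ u ^ 2 ≠ 1)
    (a : ℕ → ℂ) (ha : ∀ ℓ : ℕ, ℓ.Prime → ℓ ∉ S → ψ (ℓ : ZMod M) * lam ℓ = a ℓ) :
    OccursSq S q a := by
  obtain ⟨M₁, hne, g, hM₁, hg, hgp, hfac⟩ := exists_newform_of_neb hf hf0
  refine ⟨M₁, hne, g, hg, hfac q m hq hm hM hψ, fun r hr hrM => ?_, fun ℓ hℓ hℓS => ?_⟩
  · exact hMS r hr (hr.dvd_of_dvd_pow (hrM.trans hM₁))
  · rw [hgp ℓ hℓ (fun h => hℓS (hMS ℓ hℓ h)), ha ℓ hℓ hℓS]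

end Fermat.Agent.RT
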