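import Mathlib

/-!
# Complete discrete valuation rings of mixed characteristic embed into `ℂ`
-/

set_option autoImplicit false

open IsLocalRing Cardinal

namespace Fermat.Agent.RT

/-- a complete local ring with finite quotients has cardinality at most the continuum -/
theorem mk_le_continuum {𝒪 : Type} [CommRing 𝒪] [IsLocalRing 𝒪] [IsNoetherianRing 𝒪]
    [IsHausdorff (maximalIdeal 𝒪) 𝒪] [Finite (ResidueField 𝒪)] : #𝒪 ≤ 𝔠 := by
  have hfin : ∀ n, Finite (𝒪 ⧸ maximalIdeal 𝒪 ^ n) := fun n => by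
    have : Finite (𝒪 ⧸ maximalIdeal 𝒪) := ‹Finite (ResidueField 𝒪)›
    exact Ideal.finite_quotient_pow (IsNoetherian.noetherian _) n
  have hinj : ∀ n, ∃ e : (𝒪 ⧸ maximalIdeal 𝒪 ^ n) → ℕ, Function.Injective e := fun n => by
    have := hfin n
    exact (Finite.to_countable (α := 𝒪 ⧸ maximalIdeal 𝒪 ^ n)).exists_injective_nat
  choose e he using hinj
  have h1 : Function.Injective (fun (x : 𝒪) (n : ℕ) => e n (Ideal.Quotient.mk _ x)) := by
    intro x y hxy
    rw [← sub_eq_zero]
    refine IsHausdorff.haus ‹_› _ fun n => ?_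
    rw [SModEq.zero, smul_eq_mul, Ideal.mul_top, ← Ideal.Quotient.eq]
    exact he n (congrFun hxy n)
  calc #𝒪 ≤ #(ℕ → ℕ) := mk_le_of_injective h1
    _ = 𝔠 := by simp

theorem exists_embedding_field (K : Type) [Field K] [CharZero K] (hK : #K ≤ 𝔠) :
    ∃ j : K →+* ℂ, Function.Injective j := by
  let F := FractionRing (MvPolynomial ℝ K)
  let L := AlgebraicClosure F
  have hF : #F = 𝔠 := by
    rw [mk_fractionRing, MvPolynomial.cardinalMk_eq_max, mk_real, sup_eq_right.mpr hK,
      sup_eq_left.mpr aleph0_le_continuum]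
  have hL : #L = 𝔠 := by
    refine le_antisymm ?_ ?_
    · refine (Algebra.IsAlgebraic.cardinalMk_le_max F L).trans ?_
      rw [hF]
      exact max_le le_rfl aleph0_le_continuum
    · rw [← hF]
      exact mk_le_of_injective (algebraMap F L).injective
  have : CharZero F := charZero_of_injective_algebraMap (R := K)
    ((IsFractionRing.injective (MvPolynomial ℝ K) F).comp (MvPolynomial.C_injective ℝ K))
  have : CharZero L := charZero_of_injective_algebraMap (algebraMap F L).injective
  obtain ⟨e⟩ := IsAlgClosed.ringEquiv_of_equiv_of_charZero (K := L) (L := ℂ)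
    (by rw [hL]; exact aleph0_lt_continuum) (by
      rw [← Cardinal.eq, hL, mk_complex])
  exact ⟨(e : L →+* ℂ).comp ((algebraMap F L).comp ((algebraMap (MvPolynomial ℝ K) F).comp
    MvPolynomial.C)), RingHom.injective _⟩

theorem exists_embedding (𝒪 : Type) [CommRing 𝒪] [IsDomain 𝒪] [IsLocalRing 𝒪] [IsNoetherianRing 𝒪]
    [IsHausdorff (maximalIdeal 𝒪) 𝒪] [Finite (ResidueField 𝒪)] [CharZero 𝒪] :
    ∃ j : 𝒪 →+* ℂ, Function.Injective j := by
  have : CharZero (FractionRing 𝒪) :=
    charZero_of_injective_algebraMap (IsFractionRing.injective 𝒪 (FractionRing 𝒪))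
  obtain ⟨j, hj⟩ := exists_embedding_field (FractionRing 𝒪) (by
    rw [mk_fractionRing]; exact mk_le_continuum)
  exact ⟨j.comp (algebraMap 𝒪 (FractionRing 𝒪)),
    hj.comp (IsFractionRing.injective 𝒪 (FractionRing 𝒪))⟩

end Fermat.Agent.RT
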