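import Fermat.Agent.HeckeRep.Transport
import Fermat.Agent.TwHecke.Par

/-!
# Eigenvectors over `ℂ` of the cohomology with coefficients in `𝒪[Δ]`
-/

set_option autoImplicit false
set_option linter.style.haveILetI false

noncomputable section

open CongruenceSubgroup
open scoped MatrixGroups TensorProduct

namespace Fermat.Agent.RT

open Fermat.Agent.TwHecke Fermat.Agent.TwExact Fermat.Agent.HeckeRep

variable {M : ℕ} [NeZero M] {𝒪 : Type*} [CommRing 𝒪] [IsDomain 𝒪] [Algebra 𝒪 ℂ]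
  {Δ : Type*} [CommGroup Δ] [Fintype Δ] (τ : (ZMod M)ˣ →* Δ)

/-- push-forward along a character of `Δ` as an `𝒪`-linear map -/
def pushL (χ : Δ →* ℂˣ) : HM M ((taut 𝒪 τ) ^ 2) (MonoidAlgebra 𝒪 Δ) →ₗ[𝒪]
    HM M ((χ.comp τ) ^ 2) ℂ where
  toFun := pushH (chiO (algebraMap 𝒪 ℂ) χ) (push_taut_sq (algebraMap 𝒪 ℂ) χ τ)
  map_add' := map_add _
  map_smul' a x := by
    rw [RingHom.id_apply, ← algebraMap_smul (MonoidAlgebra 𝒪 Δ) a x, pushH_smul,
      ← algebraMap_smul ℂ a (pushH _ _ x)]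
    congr 1
    rw [MonoidAlgebra.coe_algebraMap, Function.comp_apply]
    simp

theorem pushL_apply (χ : Δ →* ℂˣ) (x : HM M ((taut 𝒪 τ) ^ 2) (MonoidAlgebra 𝒪 Δ)) :
    pushL τ χ x = pushH (chiO (algebraMap 𝒪 ℂ) χ) (push_taut_sq (algebraMap 𝒪 ℂ) χ τ) x := rfl

section Expand

variable {K : Type*} [Field K] [Algebra 𝒪 K] [IsFractionRing 𝒪 K] [Algebra K ℂ]
  [IsScalarTower 𝒪 K ℂ] {J : Type*} (e : Module.Basis J K ℂ)
  {H : Type*} [AddCommGroup H] [Module 𝒪 H]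

include e in
theorem exists_expand (v : ℂ ⊗[𝒪] H) : ∃ (n : 𝒪) (h : J →₀ H), n ≠ 0 ∧
    n • v = h.sum fun j x => e j ⊗ₜ[𝒪] x := by
  classical
  induction v using TensorProduct.induction_on with
  | zero => exact ⟨1, 0, one_ne_zero, by simp⟩
  | tmul z x =>
    obtain ⟨n, hn⟩ := IsLocalization.exist_integer_multiples (nonZeroDivisors 𝒪)
      (e.repr z).support (fun j => e.repr z j)
    choose! a ha using hn
    refine ⟨n, ∑ j ∈ (e.repr z).support, Finsupp.single j (a j • x),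
      nonZeroDivisors.coe_ne_zero n, ?_⟩
    have h1 : (n : 𝒪) • z = ∑ j ∈ (e.repr z).support, a j • e j := by
      conv_lhs => rw [← e.linearCombination_repr z]
      rw [Finsupp.linearCombination_apply, Finsupp.sum, Finset.smul_sum]
      refine Finset.sum_congr rfl fun j hj => ?_
      have h2 := ha j hj
      rw [← smul_assoc, ← h2, algebraMap_smul]
    rw [TensorProduct.smul_tmul', h1, TensorProduct.sum_tmul]
    rw [← Finsupp.sum_finsetSum_index (by intro j; simp) (by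
      intro j x y; rw [TensorProduct.tmul_add])]
    refine Finset.sum_congr rfl fun j _ => ?_
    rw [Finsupp.sum_single_index (by simp), TensorProduct.smul_tmul]
  | add v w hv hw =>
    obtain ⟨n, h, hn, hh⟩ := hv
    obtain ⟨m, k, hm, hk⟩ := hw
    refine ⟨n * m, m • h + n • k, mul_ne_zero hn hm, ?_⟩
    have h1 : ∀ (c : 𝒪) (h : J →₀ H), ((c • h).sum fun j x => e j ⊗ₜ[𝒪] x) =
        c • h.sum fun j x => e j ⊗ₜ[𝒪] x := by
      intro c h
      rw [Finsupp.sum_smul_index' (by intro j; simp), Finsupp.smul_sum]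
      refine Finsupp.sum_congr fun j _ => ?_
      rw [TensorProduct.tmul_smul]
    rw [smul_add, Finsupp.sum_add_index (by intro j _; simp) (by
      intro j _ x y; rw [TensorProduct.tmul_add]), h1, h1, ← hh, ← hk]
    rw [smul_smul, smul_smul, mul_comm n m]

include e in
theorem exists_expand' (v : ℂ ⊗[𝒪] H) : ∃ (n : 𝒪) (h : J →₀ H), n ≠ 0 ∧
    algebraMap 𝒪 ℂ n • v = h.sum fun j x => e j ⊗ₜ[𝒪] x := by
  obtain ⟨n, h, hn, hh⟩ := exists_expand (H := H) e v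
  exact ⟨n, h, hn, by rw [← hh, algebraMap_smul]⟩

end Expand

section Sep

variable {K : Type*} [Field K] [Algebra 𝒪 K] [IsFractionRing 𝒪 K] [Algebra K ℂ]
  [IsScalarTower 𝒪 K ℂ] {J : Type*} (e : Module.Basis J K ℂ)

/-- the coordinate of an element of `ℂ[Δ]` -/
def coordΔ (j : J) : MonoidAlgebra ℂ Δ → MonoidAlgebra K Δ :=
  MonoidAlgebra.map (e.coord j).toAddMonoidHom

omit [Fintype Δ] in
theorem coordΔ_add (j : J) (x y : MonoidAlgebra ℂ Δ) :
    coordΔ e j (x + y) = coordΔ e j x + coordΔ e j y := MonoidAlgebra.map_add _ _ _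

omit [Fintype Δ] in
theorem coordΔ_sum (j : J) {ι : Type*} (s : Finset ι) (x : ι → MonoidAlgebra ℂ Δ) :
    coordΔ e j (∑ i ∈ s, x i) = ∑ i ∈ s, coordΔ e j (x i) := by
  classical
  induction s using Finset.induction_on with
  | empty => 
    rw [Finset.sum_empty, Finset.sum_empty]
    exact MonoidAlgebra.map_zero _
  | insert a s ha ih => rw [Finset.sum_insert ha, Finset.sum_insert ha, coordΔ_add, ih]

omit [Fintype Δ] in
theorem coordΔ_smul [DecidableEq J] (j i : J) (x : MonoidAlgebra K Δ) :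
    coordΔ e j (e i • MonoidAlgebra.mapRingHom Δ (algebraMap K ℂ) x) = if i = j then x else 0 := by
  induction x using MonoidAlgebra.induction_linear with
  | zero =>
    rw [map_zero, smul_zero, ite_self]
    exact MonoidAlgebra.map_zero _
  | add x y hx hy => rw [map_add, smul_add, coordΔ_add, hx, hy]; split_ifs <;> simp
  | single δ a =>
    rw [MonoidAlgebra.mapRingHom_single, MonoidAlgebra.smul_single, coordΔ, MonoidAlgebra.map_single]
    have h1 : (e.coord j).toAddMonoidHom (e i • algebraMap K ℂ a) = if i = j then a else 0 := by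
      change e.coord j (e i • algebraMap K ℂ a) = _
      rw [smul_eq_mul, mul_comm, ← Algebra.smul_def, map_smul, Module.Basis.coord_apply,
        Module.Basis.repr_self, Finsupp.single_apply]
      split_ifs <;> simp
    rw [h1]
    split_ifs <;> simp

/-- **Separation.** If a `K`-independent combination of classes dies under all characters of `Δ`
then the classes are torsion. -/
theorem exists_smul_eq_zero_of_forall (h : J →₀ HM M ((taut 𝒪 τ) ^ 2) (MonoidAlgebra 𝒪 Δ))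
    (hh : ∀ χ : Δ →* ℂˣ, (h.sum fun j x => e j • pushL τ χ x) = 0) (j : J) :
    ∃ n : 𝒪, n ≠ 0 ∧ n • h j = 0 := by
  classical
  choose c hc using fun j => H1.mk_surjective (h j)
  have hcoe : ∀ a : 𝒪, algebraMap K ℂ (algebraMap 𝒪 K a) = algebraMap 𝒪 ℂ a := fun a =>
    (IsScalarTower.algebraMap_apply 𝒪 K ℂ a).symm
  have hcomp : (algebraMap K ℂ).comp (algebraMap 𝒪 K) = algebraMap 𝒪 ℂ := RingHom.ext hcoe
  set jK := MonoidAlgebra.mapRingHom Δ (algebraMap 𝒪 K) with hjK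
  set jC := MonoidAlgebra.mapRingHom Δ (algebraMap K ℂ) with hjC
  have hj : ∀ x, jC (jK x) = MonoidAlgebra.mapRingHom Δ (algebraMap 𝒪 ℂ) x := by
    intro x
    rw [← RingHom.comp_apply, hjK, hjC, ← MonoidAlgebra.mapRingHom_comp, hcomp]
  let ε : Gamma0 M → MonoidAlgebra 𝒪 Δ := fun g =>
    ((((taut 𝒪 τ) ^ 2) (aMap M g) : (MonoidAlgebra 𝒪 Δ)ˣ) : MonoidAlgebra 𝒪 Δ)
  obtain ⟨b, hb⟩ := exists_of_forall_chi
    (fun g : Gamma0 M => ∑ i ∈ h.support, e i • jC (jK (c i g))) (fun g => jC (jK (ε g))) (by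
      intro χ
      have h1 := hh χ
      rw [Finsupp.sum] at h1
      have h2 : ∑ i ∈ h.support, e i • pushL τ χ (h i) = H1.mk (∑ i ∈ h.support,
          e i • pushZ (chiO (algebraMap 𝒪 ℂ) χ) (push_taut_sq (algebraMap 𝒪 ℂ) χ τ) (c i)) := by
        rw [← H1.mkQ_apply, map_sum]
        refine Finset.sum_congr rfl fun i _ => ?_
        rw [map_smul, H1.mkQ_apply, pushL_apply, ← hc i, pushH_mk]
      rw [h2, H1.mk_eq_zero] at h1
      obtain ⟨b, hb⟩ := h1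
      refine ⟨b, fun g => ?_⟩
      have h3 := congrArg (fun z : ZM M ((χ.comp τ) ^ 2) ℂ => z g) hb
      have h4 : ∀ s : Finset J, (∑ i ∈ s, e i • pushZ (chiO (algebraMap 𝒪 ℂ) χ)
          (push_taut_sq (algebraMap 𝒪 ℂ) χ τ) (c i) : ZM M ((χ.comp τ) ^ 2) ℂ) g =
          ∑ i ∈ s, e i • chiO (algebraMap 𝒪 ℂ) χ (c i g) := by
        intro s
        induction s using Finset.induction_on with
        | empty => rfl
        | insert a s ha ih =>
          rw [Finset.sum_insert ha, Finset.sum_insert ha, Z1.add_apply, ih]; rfl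
      simp only [cobd_apply, h4] at h3
      rw [map_sum]
      have h5 : ∀ x, chi χ (jC (jK x)) = chiO (algebraMap 𝒪 ℂ) χ x := by
        intro x; rw [hj]; rfl
      simp only [map_smul, h5]
      rw [← h3, ← push_taut_sq (algebraMap 𝒪 ℂ) χ τ, smul_eq_mul, sub_mul, one_mul]; rfl)
  by_cases hj0 : j ∈ h.support
  swap
  · exact ⟨1, one_ne_zero, by rw [one_smul]; exact Finsupp.notMem_support_iff.mp hj0⟩
  have h3 : ∀ g, jK (c j g) = (jK (ε g) - 1) * coordΔ e j b := by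
    intro g
    have h1 := congrArg (coordΔ e j) (hb g)
    rw [coordΔ_sum] at h1
    simp only [hjC, coordΔ_smul] at h1
    rw [Finset.sum_ite_eq' h.support j, if_pos hj0] at h1
    rw [h1, ← map_one (MonoidAlgebra.mapRingHom Δ (algebraMap K ℂ)), ← map_sub]
    exact map_mul_of_linear (e.coord j) _ b
  obtain ⟨n, y, hn, hy⟩ := exists_smul_eq_mapRingHom (𝒪 := 𝒪) K (coordΔ e j b)
  refine ⟨n, hn, ?_⟩
  have hinj : Function.Injective jK :=
    MonoidAlgebra.map_injective _ (IsFractionRing.injective 𝒪 K)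
  have h4 : ∀ x, jK (n • x) = algebraMap 𝒪 K n • jK x := by
    intro x
    ext δ
    rw [hjK, MonoidAlgebra.coeff_mapRingHom, MonoidAlgebra.coeff_smul, MonoidAlgebra.coeff_smul,
      Finsupp.smul_apply, Finsupp.smul_apply, MonoidAlgebra.coeff_mapRingHom, smul_eq_mul, map_mul,
      smul_eq_mul]
  have h5 : ∀ g, n • c j g = (ε g - 1) * y := by
    intro g
    apply hinj
    rw [h4, h3, map_mul, map_sub, map_one, ← mul_smul_comm, hy]
  rw [← hc j, ← algebraMap_smul (MonoidAlgebra 𝒪 Δ) n, ← H1.mk_smul, H1.mk_eq_zero]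
  refine ⟨y, ?_⟩
  ext1 g
  rw [cobd_apply, Z1.smul_apply, smul_eq_mul, smul_eq_mul (algebraMap 𝒪 (MonoidAlgebra 𝒪 Δ) n),
    ← Algebra.smul_def, h5, sub_mul, one_mul]
  rfl

end Sep

section Lift

variable {𝒪' : Type*} [CommRing 𝒪'] [Algebra 𝒪' ℂ] {H W : Type*} [AddCommGroup H] [Module 𝒪' H]
  [AddCommGroup W] [Module 𝒪' W] [Module ℂ W] [IsScalarTower 𝒪' ℂ W]

theorem liftBaseChange_baseChange (f : H →ₗ[𝒪'] W) (φ : Module.End 𝒪' H) (G : Module.End ℂ W)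
    (h : ∀ y : H, f (φ y) = G (f y)) (v : ℂ ⊗[𝒪'] H) :
    f.liftBaseChange ℂ (φ.baseChange ℂ v) = G (f.liftBaseChange ℂ v) := by
  induction v using TensorProduct.induction_on with
  | zero => rw [map_zero, map_zero, map_zero]
  | tmul z y =>
    rw [LinearMap.baseChange_tmul, LinearMap.liftBaseChange_tmul, LinearMap.liftBaseChange_tmul, h,
      map_smul]
  | add a b ha hb => rw [map_add, map_add, ha, hb, map_add, map_add]

theorem eigen_of_liftBaseChange (f : H →ₗ[𝒪'] W) (φ : Module.End 𝒪' H) (G : Module.End ℂ W)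
    (h : ∀ y : H, f (φ y) = G (f y)) {v : ℂ ⊗[𝒪'] H} {a : ℂ} (hv : φ.baseChange ℂ v = a • v) :
    G (f.liftBaseChange ℂ v) = a • f.liftBaseChange ℂ v := by
  rw [← liftBaseChange_baseChange f φ G h, hv, map_smul]

theorem smul_eigen_of_liftBaseChange (f : H →ₗ[𝒪'] W) (φ : Module.End 𝒪' H) {b : ℂ}
    (h : ∀ y : H, f (φ y) = b • f y) {v : ℂ ⊗[𝒪'] H} {a : ℂ} (hv : φ.baseChange ℂ v = a • v) :
    b • f.liftBaseChange ℂ v = a • f.liftBaseChange ℂ v :=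
  eigen_of_liftBaseChange f φ (algebraMap ℂ (Module.End ℂ W) b)
    (fun y => by rw [h, Module.algebraMap_end_apply]) hv

theorem liftBaseChange_sum (f : H →ₗ[𝒪'] W) {J : Type*} (e : J → ℂ) (h : J →₀ H) :
    f.liftBaseChange ℂ (h.sum fun j x => e j ⊗ₜ[𝒪'] x) = h.sum fun j x => e j • f x := by
  rw [Finsupp.sum, Finsupp.sum, map_sum]
  exact Finset.sum_congr rfl fun j _ => by rw [LinearMap.liftBaseChange_tmul]

end Lift

section Eigen

variable [FaithfulSMul 𝒪 ℂ]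
  (H : Submodule (MonoidAlgebra 𝒪 Δ) (HM M ((taut 𝒪 τ) ^ 2) (MonoidAlgebra 𝒪 Δ)))

/-- the push-forward on `H`. -/
def pushJ (χ : Δ →* ℂˣ) : H →ₗ[𝒪] HM M ((χ.comp τ) ^ 2) ℂ :=
  (pushL τ χ).comp (H.subtype.restrictScalars 𝒪)

omit [FaithfulSMul 𝒪 ℂ] in
theorem pushJ_apply (χ : Δ →* ℂˣ) (x : H) :
    pushJ τ H χ x = pushL τ χ (x : HM M ((taut 𝒪 τ) ^ 2) (MonoidAlgebra 𝒪 Δ)) := rfl

omit [FaithfulSMul 𝒪 ℂ] in
theorem exists_eq_zero_of_pushJ {K : Type*} [Field K] [Algebra 𝒪 K] [IsFractionRing 𝒪 K]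
    [Algebra K ℂ] [IsScalarTower 𝒪 K ℂ] {J : Type*} (e : Module.Basis J K ℂ)
    [Module.IsTorsionFree 𝒪 H] (h : J →₀ H)
    (hh : ∀ χ : Δ →* ℂˣ, (h.sum fun j x => e j • pushJ τ H χ x) = 0) (j : J) : h j = 0 := by
  let h' : J →₀ HM M ((taut 𝒪 τ) ^ 2) (MonoidAlgebra 𝒪 Δ) :=
    h.mapRange (fun y : H => (y : HM M ((taut 𝒪 τ) ^ 2) (MonoidAlgebra 𝒪 Δ))) rfl
  have hh' : ∀ χ : Δ →* ℂˣ, (h'.sum fun j x => e j • pushL τ χ x) = 0 := by
    intro χ
    rw [← hh χ]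
    exact Finsupp.sum_mapRange_index (h := fun j x => e j • pushL τ χ x)
        (fun j => by rw [map_zero, smul_zero])
  obtain ⟨m, hm, hmj⟩ := exists_smul_eq_zero_of_forall τ e h' hh' j
  have h3 : m • h j = 0 := Subtype.ext hmj
  exact (smul_eq_zero.mp h3).resolve_left hm

/-- the push-forwards to the characters of `Δ` are jointly injective -/
theorem exists_pushC_ne_zero [Module.IsTorsionFree 𝒪 H] {v : ℂ ⊗[𝒪] H} (hv : v ≠ 0) :
    ∃ χ : Δ →* ℂˣ, (pushJ τ H χ).liftBaseChange ℂ v ≠ 0 := by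
  by_contra hcon
  push Not at hcon
  let _ : Algebra (FractionRing 𝒪) ℂ :=
    (IsFractionRing.lift (FaithfulSMul.algebraMap_injective 𝒪 ℂ)).toAlgebra
  have : IsScalarTower 𝒪 (FractionRing 𝒪) ℂ := IsScalarTower.of_algebraMap_eq fun a =>
    (IsFractionRing.lift_algebraMap (FaithfulSMul.algebraMap_injective 𝒪 ℂ) a).symm
  have key : ∀ {J : Type} (e : Module.Basis J (FractionRing 𝒪) ℂ), False := by
    intro J e
    obtain ⟨n, h, hn, hh⟩ := exists_expand' (H := H) e v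
    have h1 : ∀ j, h j = 0 := exists_eq_zero_of_pushJ τ H e h (by
      intro χ
      rw [← liftBaseChange_sum (pushJ τ H χ) e h, ← hh, map_smul, hcon, smul_zero])
    have h2 : h = 0 := Finsupp.ext h1
    rw [h2, Finsupp.sum_zero_index] at hh
    rcases smul_eq_zero.mp hh with h3 | h3
    · exact absurd (FaithfulSMul.algebraMap_injective 𝒪 ℂ (by rw [h3, map_zero])) hn
    · exact hv h3
  exact key (Module.Basis.ofVectorSpace (FractionRing 𝒪) ℂ)

omit [FaithfulSMul 𝒪 ℂ] in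
theorem pushJ_single (χ : Δ →* ℂˣ) (δ : Δ) (y : H) :
    pushJ τ H χ ((MonoidAlgebra.single δ (1 : 𝒪)) • y) = ((χ δ : ℂˣ) : ℂ) • pushJ τ H χ y := by
  rw [pushJ_apply, pushJ_apply, Submodule.coe_smul, pushL_apply, pushL_apply, pushH_smul,
    chiO_single, map_one, one_mul]

omit [FaithfulSMul 𝒪 ℂ] in
theorem pushL_nop (χ : Δ →* ℂˣ) {S : Set ℕ} (ℓ : {ℓ : Nat.Primes // (ℓ : ℕ) ∉ S})
    (y : HM M ((taut 𝒪 τ) ^ 2) (MonoidAlgebra 𝒪 Δ)) :
    pushL τ χ (nop (taut 𝒪 τ) S ℓ y) = nop (χ.comp τ) S ℓ (pushL τ χ y) := by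
  rw [pushL_apply, pushL_apply, nop, nop, LinearMap.smul_apply,
    LinearMap.smul_apply, pushH_smul, pushH_heckeP, ← push_taut]

/-- **Eigenvectors over `ℂ`** -/
theorem exists_eigen [Module.IsTorsionFree 𝒪 H] {S : Set ℕ} {T : Type*} [CommRing T] [Algebra 𝒪 T]
    (act : T →ₐ[𝒪] Module.End 𝒪 H) (δT : Δ → T)
    (hδ : ∀ δ (y : H), act (δT δ) y = (MonoidAlgebra.single δ (1 : 𝒪)) • y)
    (tT : {ℓ : Nat.Primes // (ℓ : ℕ) ∉ S} → T)
    (ht : ∀ ℓ (y : H), ((act (tT ℓ) y : H) : HM M ((taut 𝒪 τ) ^ 2) (MonoidAlgebra 𝒪 Δ)) =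
      nop (taut 𝒪 τ) S ℓ (y : HM M ((taut 𝒪 τ) ^ 2) (MonoidAlgebra 𝒪 Δ)))
    (x : T →ₐ[𝒪] ℂ) {v : ℂ ⊗[𝒪] H} (hv : v ≠ 0)
    (hx : ∀ t, (act t).baseChange ℂ v = x t • v) :
    ∃ χ : Δ →* ℂˣ, (∀ δ, ((χ δ : ℂˣ) : ℂ) = x (δT δ)) ∧
      ∃ y : HM M ((χ.comp τ) ^ 2) ℂ, y ≠ 0 ∧ ∀ ℓ, nop (χ.comp τ) S ℓ y = x (tT ℓ) • y := by
  obtain ⟨χ, hχ⟩ := exists_pushC_ne_zero τ H hv
  refine ⟨χ, fun δ => ?_, (pushJ τ H χ).liftBaseChange ℂ v, hχ, fun ℓ => ?_⟩
  · exact smul_left_injective ℂ hχ (smul_eigen_of_liftBaseChange (pushJ τ H χ) (act (δT δ))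
      (fun y => (congrArg (pushJ τ H χ) (hδ δ y)).trans (pushJ_single τ H χ δ y)) (hx (δT δ)))
  · refine eigen_of_liftBaseChange (pushJ τ H χ) (act (tT ℓ)) _ (fun y => ?_) (hx (tT ℓ))
    rw [pushJ_apply, pushJ_apply, ht, pushL_nop]

omit [NeZero M] in
/-- the eigenvector is parabolic if it is not Eisenstein at some `ℓ ≡ 1` modulo `M` -/
theorem mem_par_of_eigen {S : Set ℕ} {η : (ZMod M)ˣ →* ℂˣ} {y : HM M (η ^ 2) ℂ}
    {a : {ℓ : Nat.Primes // (ℓ : ℕ) ∉ S} → ℂ}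
    (hy : ∀ ℓ, nop η S ℓ y = a ℓ • y) (ℓ : {ℓ : Nat.Primes // (ℓ : ℕ) ∉ S})
    (hℓM : ((ℓ.1 : ℕ) : ZMod M) = 1)
    (hodd : Odd (ℓ.1 : ℕ)) (hne : a ℓ ≠ ((ℓ.1 : ℕ) : ℂ) + 1) : y ∈ HM.par M (η ^ 2) ℂ := by
  have : Fact (ℓ.1 : ℕ).Prime := ⟨ℓ.1.2⟩
  have h1 := heckeH_sub_mem_par (ε := η ^ 2) (A := ℂ) hℓM hodd
    (isUnit_iff_ne_zero.mpr (by exact_mod_cast this.out.ne_zero : (((ℓ.1 : ℕ) : ℂ)) ≠ 0)) y
  have h2 : unitOf M (ℓ.1 : ℕ) = 1 := by
    have h3 : IsUnit (((ℓ.1 : ℕ) : ℤ) : ZMod M) := by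
      rw [Int.cast_natCast, hℓM]; exact isUnit_one
    exact Units.ext (by rw [val_unitOf h3, Int.cast_natCast, hℓM, Units.val_one])
  have h3 := hy ℓ
  rw [nop, h2, map_one, Units.val_one, one_smul] at h3
  have h4 : heckeH M (ℓ.1 : ℕ) (η ^ 2) ℂ y = a ℓ • y := h3
  rw [h4, ← sub_smul] at h1
  have h5 : a ℓ - (((ℓ.1 : ℕ) : ℂ) + 1) ≠ 0 := sub_ne_zero.mpr hne
  have h6 := Submodule.smul_mem _ (a ℓ - (((ℓ.1 : ℕ) : ℂ) + 1))⁻¹ h1
  rwa [smul_smul, inv_mul_cancel₀ h5, one_smul] at h6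

end Eigen

end Fermat.Agent.RT
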