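import Fermat.Agent.RT.Ram
import Fermat.Agent.HeckeRep.Act

/-!
# The `𝔪`-part of the `𝒪[Δ]`-cohomology over `𝒪`
-/

set_option autoImplicit false
set_option linter.style.haveILetI false

noncomputable section

open CongruenceSubgroup
open scoped MatrixGroups TensorProduct

namespace Fermat.Agent.RT

open IsLocalRing Fermat.Agent.TwHecke Fermat.Agent.TwExact Fermat.Agent.HeckeRep

section Trans

variable {𝒪 : Type} [CommRing 𝒪] [IsLocalRing 𝒪] [IsNoetherianRing 𝒪]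
  [IsAdicComplete (maximalIdeal 𝒪) 𝒪] {Δ : Type} [CommGroup Δ] [Finite Δ]
  [IsLocalRing (MonoidAlgebra 𝒪 Δ)]
  {M : ℕ} [NeZero M] {ε : (ZMod M)ˣ →* (MonoidAlgebra 𝒪 Δ)ˣ} {S : Set ℕ}
  {θ : PIdx S → ResidueField (MonoidAlgebra 𝒪 Δ)}

/-- finiteness over `𝒪` -/
theorem finite_HmΔ : Module.Finite 𝒪 (Hm M ε (MonoidAlgebra 𝒪 Δ) S θ) := by
  have hnoeth := isNoetherianRing_groupRing (𝒪 := 𝒪) (Δ := Δ)
  have hcomp := isAdicComplete_groupRing (𝒪 := 𝒪) (Δ := Δ)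
  have h1 : Module.Finite (MonoidAlgebra 𝒪 Δ) (Hm M ε (MonoidAlgebra 𝒪 Δ) S θ) := finite_Hm _ _ _
  exact Module.Finite.trans (MonoidAlgebra 𝒪 Δ) _

/-- freeness over `𝒪[Δ]` -/
theorem freeΛ_HmΔ (h : Good M ε S θ) :
    Module.Free (MonoidAlgebra 𝒪 Δ) (Hm M ε (MonoidAlgebra 𝒪 Δ) S θ) := by
  have hnoeth := isNoetherianRing_groupRing (𝒪 := 𝒪) (Δ := Δ)
  have hcomp := isAdicComplete_groupRing (𝒪 := 𝒪) (Δ := Δ)
  exact h.free

/-- freeness over `𝒪` -/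
theorem free_HmΔ (h : Good M ε S θ) :
    Module.Free 𝒪 (Hm M ε (MonoidAlgebra 𝒪 Δ) S θ) := by
  have h1 := freeΛ_HmΔ h
  exact Module.Free.trans (R := 𝒪) (S := MonoidAlgebra 𝒪 Δ)

end Trans

section Inj

variable {R : Type} [CommRing R] [IsLocalRing R] [IsNoetherianRing R]
  [IsAdicComplete (maximalIdeal R) R] {M : ℕ} [NeZero M] {η : (ZMod M)ˣ →* Rˣ} {S : Set ℕ}
  {θ : PIdx S → ResidueField R}

/-- `T'_ℓ - (ℓ + 1)` is injective on the `𝔪`-part if `θ ℓ ≠ ℓ + 1`. -/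
theorem eq_zero_of_nop (hη : ∀ u, residue R (η u : R) = 1) {ℓ0 : PIdx S}
    (hθ : θ ℓ0 ≠ (((ℓ0.1 : ℕ) : ℕ) : ResidueField R) + 1) {y : HM M (η ^ 2) R}
    (hy : y ∈ Hm M (η ^ 2) R S θ)
    (h : nop η S ℓ0 y = (((ℓ0.1 : ℕ) : R) + 1) • y) : y = 0 := by
  obtain ⟨e, he⟩ := exists_isIdem_Hm R (η ^ 2) θ
  refine he.eq_zero hy (s := MvPolynomial.C ((η (unitOf M ℓ0.1) : Rˣ) : R) * MvPolynomial.X ℓ0 -
    MvPolynomial.C (((ℓ0.1 : ℕ) : R) + 1)) ?_ ?_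
  · rw [map_sub, map_mul, evk_X, evk_C, evk_C, hη, one_mul, map_add, map_one, map_natCast]
    exact sub_ne_zero.mpr hθ
  · rw [map_sub, map_mul, cev_X, cev_C, cev_C, LinearMap.sub_apply, Module.End.mul_apply,
      Module.algebraMap_end_apply, Module.algebraMap_end_apply, ← h, sub_eq_zero]
    rfl

end Inj

theorem natCast_add_one_smul {R N : Type*} [Ring R] [AddCommGroup N] [Module R N] (n : ℕ) (y : N) :
    ((n : R) + 1) • y = n • y + y := by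
  rw [add_smul, one_smul, Nat.cast_smul_eq_nsmul]

theorem act_sub_apply {𝒪 T N : Type*} [CommRing 𝒪] [CommRing T] [Algebra 𝒪 T] [AddCommGroup N]
    [Module 𝒪 N] (act : T →ₐ[𝒪] Module.End 𝒪 N) (t : T) (n : ℕ) (y : N) :
    act (t - ((n : T) + 1)) y = act t y - (n • y + y) := by
  rw [map_sub, map_add, map_natCast, map_one, LinearMap.sub_apply, LinearMap.add_apply,
    Module.End.natCast_apply, Module.End.one_apply]

section Inj2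

variable {𝒪 : Type*} [CommRing 𝒪] {Δ : Type*} [CommGroup Δ]
  {M : ℕ} {τ : (ZMod M)ˣ →* Δ} {S : Set ℕ}
  {H : Submodule (MonoidAlgebra 𝒪 Δ) (HM M ((taut 𝒪 τ) ^ 2) (MonoidAlgebra 𝒪 Δ))}

/-- the same for an action of a ring on the `𝔪`-part, over `𝒪`. -/
theorem act_sub_injective {ℓ0 : PIdx S}
    (hloc : ∀ y ∈ H, nop (taut 𝒪 τ) S ℓ0 y = (((ℓ0.1 : ℕ) : MonoidAlgebra 𝒪 Δ) + 1) • y → y = 0)
    {T : Type*} [CommRing T] [Algebra 𝒪 T] (act : T →ₐ[𝒪] Module.End 𝒪 H) (t : T)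
    (ht : ∀ y : H, ((act t y : H) : HM M ((taut 𝒪 τ) ^ 2) (MonoidAlgebra 𝒪 Δ)) =
      nop (taut 𝒪 τ) S ℓ0 (y : HM M ((taut 𝒪 τ) ^ 2) (MonoidAlgebra 𝒪 Δ))) :
    Function.Injective (act (t - ((ℓ0.1 : ℕ) + 1))) := by
  rw [← LinearMap.ker_eq_bot, LinearMap.ker_eq_bot']
  intro y hy
  refine Subtype.ext (hloc y y.2 ?_)
  rw [act_sub_apply, sub_eq_zero] at hy
  rw [← ht, hy]
  exact (natCast_add_one_smul (ℓ0.1 : ℕ) (y : HM M ((taut 𝒪 τ) ^ 2) (MonoidAlgebra 𝒪 Δ))).symm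

end Inj2

end Fermat.Agent.RT
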