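import Fermat.Agent.HeckeRep.Fourier

/-!
# The kernels of the characters of a group ring `𝒪[Δ]`
-/

set_option autoImplicit false

namespace Fermat.Agent.RT

open Fermat.Agent.HeckeRep

variable {𝒪 : Type*} [CommRing 𝒪] [IsDomain 𝒪] {Δ : Type*} [CommGroup Δ] [Fintype Δ]
  {ι : 𝒪 →+* ℂ} (hι : Function.Injective ι)

omit [IsDomain 𝒪] in
include hι in
theorem eq_zero_of_chiO {x : MonoidAlgebra 𝒪 Δ} (h : ∀ χ : Δ →* ℂˣ, chiO ι χ x = 0) : x = 0 := by
  have h1 : MonoidAlgebra.mapRingHom Δ ι x = 0 := by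
    rw [← sum_chi_smul_eidem (MonoidAlgebra.mapRingHom Δ ι x)]
    exact Finset.sum_eq_zero fun χ _ => by
      have h2 := h χ
      rw [chiO, RingHom.comp_apply] at h2
      have h3 : chi χ (MonoidAlgebra.mapRingHom Δ ι x) = 0 := h2
      rw [h3, zero_smul]
  rw [← map_zero (MonoidAlgebra.mapRingHom Δ ι)] at h1
  exact MonoidAlgebra.map_injective _ hι h1

theorem chiO_algebraMap (χ : Δ →* ℂˣ) (a : 𝒪) :
    chiO ι χ (algebraMap 𝒪 (MonoidAlgebra 𝒪 Δ) a) = ι a := by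
  rw [MonoidAlgebra.coe_algebraMap, Function.comp_apply, chiO_single, map_one, Units.val_one,
    mul_one]
  rfl

omit [IsDomain 𝒪] in
/-- the group algebra is integral over the base. -/
theorem isIntegral_groupRing (x : MonoidAlgebra 𝒪 Δ) : IsIntegral 𝒪 x := by
  have : Module.Finite 𝒪 (MonoidAlgebra 𝒪 Δ) :=
    inferInstance
  exact Algebra.IsIntegral.isIntegral x

include hι in
/-- the kernels of characters are incomparable. -/
theorem ker_chiO_eq_of_le {χ ψ : Δ →* ℂˣ} (h : RingHom.ker (chiO ι χ) ≤ RingHom.ker (chiO ι ψ)) :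
    RingHom.ker (chiO ι χ) = RingHom.ker (chiO ι ψ) := by
  refine le_antisymm h fun x hx => ?_
  by_contra hcon
  have hprime : (RingHom.ker (chiO ι χ)).IsPrime := RingHom.ker_isPrime _
  have h1 := Ideal.comap_lt_comap_of_integral_mem_sdiff (R := 𝒪) h (x := x) ⟨hx, hcon⟩
    (isIntegral_groupRing x)
  have h2 : ∀ φ : Δ →* ℂˣ, (RingHom.ker (chiO ι φ)).comap (algebraMap 𝒪 (MonoidAlgebra 𝒪 Δ)) = ⊥ := by
    intro φ
    rw [eq_bot_iff]
    intro a ha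
    rw [Ideal.mem_comap, RingHom.mem_ker, chiO_algebraMap] at ha
    exact (map_eq_zero_iff ι hι).mp ha
  rw [h2, h2] at h1
  exact lt_irrefl _ h1

include hι in
/-- an element generating the annihilator of the kernel of a character, up to torsion. -/
theorem exists_killer (ψ : Δ →* ℂˣ) : ∃ e : MonoidAlgebra 𝒪 Δ, chiO ι ψ e ≠ 0 ∧
    ∀ i, chiO ι ψ i = 0 → e * i = 0 := by
  classical
  have h1 : ∀ χ : Δ →* ℂˣ, ∃ e : MonoidAlgebra 𝒪 Δ, chiO ι ψ e ≠ 0 ∧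
      (RingHom.ker (chiO ι χ) ≠ RingHom.ker (chiO ι ψ) → chiO ι χ e = 0) := by
    intro χ
    by_cases h : RingHom.ker (chiO ι χ) = RingHom.ker (chiO ι ψ)
    · exact ⟨1, by rw [map_one]; exact one_ne_zero, fun h' => absurd h h'⟩
    · have h2 : ¬ RingHom.ker (chiO ι χ) ≤ RingHom.ker (chiO ι ψ) := fun h3 =>
        h (ker_chiO_eq_of_le hι h3)
      obtain ⟨e, he1, he2⟩ := Set.not_subset.mp h2
      exact ⟨e, he2, fun _ => he1⟩
  choose e he1 he2 using h1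
  refine ⟨∏ χ : Δ →* ℂˣ, e χ, ?_, fun i hi => ?_⟩
  · rw [map_prod]
    exact Finset.prod_ne_zero_iff.mpr fun χ _ => he1 χ
  · refine eq_zero_of_chiO hι fun χ => ?_
    rw [map_mul]
    by_cases h : RingHom.ker (chiO ι χ) = RingHom.ker (chiO ι ψ)
    · have h3 : i ∈ RingHom.ker (chiO ι χ) := by rw [h]; exact hi
      rw [RingHom.mem_ker.mp h3, mul_zero]
    · rw [map_prod, Finset.prod_eq_zero (Finset.mem_univ χ) (he2 χ h), zero_mul]

omit [Fintype Δ] [IsDomain 𝒪] in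
/-- the torsion criterion on a free module. -/
theorem mem_ker_smul_top {N : Type*} [AddCommGroup N] [Module (MonoidAlgebra 𝒪 Δ) N]
    [Module.Free (MonoidAlgebra 𝒪 Δ) N] {ψ : Δ →* ℂˣ} {e : MonoidAlgebra 𝒪 Δ}
    (he : chiO ι ψ e ≠ 0) {x : N} (h : e • x = 0) :
    x ∈ RingHom.ker (chiO ι ψ) • (⊤ : Submodule (MonoidAlgebra 𝒪 Δ) N) := by
  have b := Module.Free.chooseBasis (MonoidAlgebra 𝒪 Δ) N
  have h1 : ∀ i, chiO ι ψ (b.repr x i) = 0 := by
    intro i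
    have h2 : e * b.repr x i = 0 := by
      have h3 := congrArg (fun z => b.repr z i) h
      simpa using h3
    have h4 := congrArg (chiO ι ψ) h2
    rw [map_mul, map_zero] at h4
    exact (mul_eq_zero.mp h4).resolve_left he
  rw [← b.linearCombination_repr x, Finsupp.linearCombination_apply, Finsupp.sum]
  exact Submodule.sum_mem _ fun i _ =>
    Submodule.smul_mem_smul (RingHom.mem_ker.mpr (h1 i)) Submodule.mem_top

/-- the sum over the group. -/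
noncomputable def sumΔ (𝒪 : Type*) [CommRing 𝒪] (Δ : Type*) [CommGroup Δ] [Fintype Δ] :
    MonoidAlgebra 𝒪 Δ := ∑ δ : Δ, MonoidAlgebra.single δ (1 : 𝒪)

theorem chiO_sumΔ_of_ne_one {ψ : Δ →* ℂˣ} (hψ : ψ ≠ 1) : chiO ι ψ (sumΔ 𝒪 Δ) = 0 := by
  obtain ⟨δ0, hδ0⟩ : ∃ δ, ψ δ ≠ 1 := by
    by_contra h
    push Not at h
    exact hψ (MonoidHom.ext h)
  have h1 : chiO ι ψ (sumΔ 𝒪 Δ) = ∑ δ : Δ, ((ψ δ : ℂˣ) : ℂ) := by
    rw [sumΔ, map_sum]
    exact Finset.sum_congr rfl fun δ _ => by rw [chiO_single, map_one, one_mul]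
  have h2 : ∑ δ : Δ, ((ψ δ : ℂˣ) : ℂ) = ((ψ δ0 : ℂˣ) : ℂ) * ∑ δ : Δ, ((ψ δ : ℂˣ) : ℂ) := by
    rw [Finset.mul_sum]
    refine (Fintype.sum_equiv (Equiv.mulLeft δ0) _ _ fun δ => ?_).symm
    rw [Equiv.coe_mulLeft, map_mul, Units.val_mul]
  have h3 : (((ψ δ0 : ℂˣ) : ℂ) - 1) * ∑ δ : Δ, ((ψ δ : ℂˣ) : ℂ) = 0 := by
    rw [sub_mul, one_mul, ← h2, sub_self]
  rw [h1]
  refine (mul_eq_zero.mp h3).resolve_left (sub_ne_zero.mpr fun h => hδ0 (Units.ext ?_))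
  rw [h, Units.val_one]

end Fermat.Agent.RT
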