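import Fermat.Agent.RT.NTheta
import Fermat.Agent.Cofaith.ES
import Fermat.Agent.S23

/-!
# Unipotence at `q` for level `N₁`, `q² ∤ N₁`, from S34 and S37
-/

set_option autoImplicit false

open Polynomial CuspForm CongruenceSubgroup ModularFormClass
open scoped TensorProduct

namespace Fermat.Agent.RT

open Fermat.Agent.HeckeRep Fermat.Agent.S30aux ModularCurve Fermat.Agent.Cofaith

theorem unipLow_of {p : ℕ} [Fact p.Prime] {S : Finset ℕ} (h34 : Stmt34)
    (h37 : ∀ (N : ℕ) [NeZero N], letI := heckeModuleBar N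
      haveI := smulCommClass_JZero N
      SpecializationExists (K := ℚ) (L := AlgebraicClosure ℚ) N p (JZero N))
    (hp2 : p ≠ 2) (hpS : p ∈ S) : UnipLow p S := by
  intro N₁ _ hN₁S O' _ _ _ _ _ _ hpO' χ ρ hρ habs q hq hqp hqN
  let _ := heckeModuleBar N₁
  have := smulCommClass_JZero N₁
  have : Fact (HasIntegralStructure N₁ 2) := ⟨S23.result N₁⟩
  have hJ := esInput_JZero N₁ (Fact.out : p.Prime) (↑S : Set ℕ) hN₁S (h37 N₁)
  exact unipotent_of_not_sq_dvd h34 hJ hpO' hp2 hpS hN₁S χ ρ hρ habs hq hqp hqN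

end Fermat.Agent.RT
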