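import Fermat.Agent.RT.HmDelta

/-!
# The norm elements of inertia and of the diamond operators agree
-/

set_option autoImplicit false
set_option linter.style.haveILetI false

noncomputable section

open CongruenceSubgroup Polynomial CuspForm
open scoped MatrixGroups TensorProduct

namespace Fermat.Agent.RT

open IsLocalRing Fermat.Agent.TwHecke Fermat.Agent.TwExact Fermat.Agent.HeckeRep

theorem map_nOp {R R' : Type*} [Ring R] [Ring R'] (f : R →+* R') (P : ℕ) (t : R) :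
    f (nOp P t) = nOp P (f t) := by
  rw [nOp, nOp, map_sum]
  exact Finset.sum_congr rfl fun j _ => map_pow f t j

theorem algMap_nOp {𝒪 A B : Type*} [CommRing 𝒪] [Ring A] [Ring B] [Algebra 𝒪 A] [Algebra 𝒪 B]
    (f : A →ₐ[𝒪] B) (P : ℕ) (t : A) : f (nOp P t) = nOp P (f t) := by
  rw [nOp, nOp, map_sum]
  exact Finset.sum_congr rfl fun j _ => map_pow f t j

section Lift

variable {𝒪 : Type} [CommRing 𝒪] {Δ : Type} [CommGroup Δ] {H : Type*} [AddCommGroup H]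
  [Module (MonoidAlgebra 𝒪 Δ) H] [Module 𝒪 H] [IsScalarTower 𝒪 (MonoidAlgebra 𝒪 Δ) H]
  {R' : Type} [CommRing R'] [Algebra 𝒪 R']

/-- the action of the group as a homomorphism -/
def dHom (𝒪 : Type) [CommRing 𝒪] (Δ : Type) [CommGroup Δ] (H : Type*) [AddCommGroup H]
    [Module (MonoidAlgebra 𝒪 Δ) H] [Module 𝒪 H] [IsScalarTower 𝒪 (MonoidAlgebra 𝒪 Δ) H] :
    Δ →* Module.End 𝒪 H where
  toFun δ := dEnd 𝒪 H (gr 𝒪 Δ δ)
  map_one' := LinearMap.ext fun y => by rw [dEnd_apply, gr_one, one_smul, Module.End.one_apply]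
  map_mul' a b := LinearMap.ext fun y => by
    rw [dEnd_apply, gr_mul, Module.End.mul_apply, dEnd_apply, dEnd_apply, mul_smul]

/-- the joint action of a ring of `𝒪[Δ]`-linear endomorphisms and of `Δ`. -/
theorem exists_joint_act (f : R' →+* Module.End (MonoidAlgebra 𝒪 Δ) H)
    (hf : ∀ c x, f (algebraMap 𝒪 R' c) x = algebraMap 𝒪 (MonoidAlgebra 𝒪 Δ) c • x) :
    ∃ act : MonoidAlgebra R' Δ →ₐ[𝒪] Module.End 𝒪 H,
      (∀ r x, act (MonoidAlgebra.singleOneRingHom r) x = f r x) ∧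
      ∀ δ x, act (MonoidAlgebra.of R' Δ δ) x = gr 𝒪 Δ δ • x := by
  let F : R' →ₐ[𝒪] Module.End 𝒪 H :=
    { toFun := fun r => (f r).restrictScalars 𝒪
      map_one' := by rw [map_one]; rfl
      map_mul' := fun a b => by rw [map_mul]; rfl
      map_zero' := by rw [map_zero]; rfl
      map_add' := fun a b => by rw [map_add]; rfl
      commutes' := fun c => LinearMap.ext fun x => by
        show f (algebraMap 𝒪 R' c) x = _
        rw [hf, Module.algebraMap_end_apply, algebraMap_smul] }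
  have hc : ∀ x y, Commute (F x) (dHom 𝒪 Δ H y) := fun r δ =>
    LinearMap.ext fun x => (f r).map_smul (gr 𝒪 Δ δ) x
  refine ⟨MonoidAlgebra.liftNCAlgHom F (dHom 𝒪 Δ H) hc, fun r x => ?_, fun δ x => ?_⟩
  · rw [MonoidAlgebra.coe_liftNCAlgHom]
    have h1 : (MonoidAlgebra.singleOneRingHom r : MonoidAlgebra R' Δ) =
        MonoidAlgebra.single 1 r := rfl
    rw [h1]
    have h2 := MonoidAlgebra.liftNC_single (F : R' →+ Module.End 𝒪 H)
      (dHom 𝒪 Δ H : Δ → Module.End 𝒪 H) 1 r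
    refine (congrArg (fun g : Module.End 𝒪 H => g x) h2).trans ?_
    rw [Module.End.mul_apply, map_one, Module.End.one_apply]; rfl
  · rw [MonoidAlgebra.coe_liftNCAlgHom]
    have h2 := MonoidAlgebra.liftNC_single (F : R' →+ Module.End 𝒪 H)
      (dHom 𝒪 Δ H : Δ → Module.End 𝒪 H) δ 1
    refine (congrArg (fun g : Module.End 𝒪 H => g x) h2).trans ?_
    rw [Module.End.mul_apply]
    have h3 : (F : R' →+ Module.End 𝒪 H) 1 = 1 := map_one F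
    rw [h3]; rfl

end Lift

theorem exists_half {B : Type*} [CommRing B] [IsLocalRing B] {p : ℕ} (hp : p.Prime)
    (hp2 : p ≠ 2) (hpB : (p : B) ∈ maximalIdeal B) : ∃ κ : B, 2 * κ = 1 := by
  have h2 : IsUnit (2 : B) := by
    by_contra h
    have h3 : (2 : B) ∈ maximalIdeal B := (mem_maximalIdeal _).mpr h
    obtain ⟨k, hk⟩ := hp.odd_of_ne_two hp2
    have h4 : (1 : B) = (p : B) - k * 2 := by rw [hk]; push_cast; ring
    exact (Ideal.ne_top_iff_one _).mp (maximalIdeal.isMaximal B).ne_top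
      (h4 ▸ Ideal.sub_mem _ hpB (Ideal.mul_mem_left _ _ h3))
  exact h2.exists_right_inv

section Fin

variable {𝒪 : Type} [CommRing 𝒪] [IsDomain 𝒪] [IsDiscreteValuationRing 𝒪]
  [IsAdicComplete (IsLocalRing.maximalIdeal 𝒪) 𝒪] [Finite (IsLocalRing.ResidueField 𝒪)]
  [CharZero 𝒪] {p : ℕ} [Fact p.Prime]
  {M m q : ℕ} [NeZero M] (hM : M = q * m) (hq : q.Prime) (hqm : ¬ q ∣ m)
  {S : Finset ℕ} (hS : ∀ ℓ : ℕ, ℓ.Prime → ℓ ∣ M → ℓ ∈ S)
  {Δ : Type} [CommGroup Δ] [Finite Δ] (hΔ : IsPGroup p Δ) {τ : (ZMod M)ˣ →* Δ}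
  {H : Submodule (MonoidAlgebra 𝒪 Δ) (HM M ((taut 𝒪 τ) ^ 2) (MonoidAlgebra 𝒪 Δ))}
  [Module.Finite 𝒪 H] [Module.Free 𝒪 H]
  {ℓ0 : PIdx (↑S : Set ℕ)} (hℓ0 : ((ℓ0.1 : ℕ) : ZMod M) = 1)
  (hloc : ∀ y ∈ H, nop (taut 𝒪 τ) (↑S : Set ℕ) ℓ0 y =
    (((ℓ0.1 : ℕ) : MonoidAlgebra 𝒪 Δ) + 1) • y → y = 0)
  {R : Type} [CommRing R] [IsLocalRing R] [Algebra 𝒪 R] [Module.Finite 𝒪 R]
  (f : R →+* Module.End (MonoidAlgebra 𝒪 Δ) H)
  (hC : ∀ c x, f (algebraMap 𝒪 R c) x = algebraMap 𝒪 (MonoidAlgebra 𝒪 Δ) c • x)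
  (ρ : GaloisRepAdic R) (tR : ℕ → R)
  (htR : ∀ ℓ : ℕ, ℓ.Prime → ℓ ∉ (↑S : Set ℕ) → ∀ A : ValuationSubring (AlgebraicClosure ℚ),
      A.LiesOverPrime ℓ → ∀ σ : AlgebraicClosure ℚ ≃ₐ[ℚ] AlgebraicClosure ℚ,
      A.IsFrobeniusAt σ ℓ →
        LinearMap.charpoly (ρ.ρ σ) = X ^ 2 - C (tR ℓ) * X + C (ℓ : R))
  (hF : ∀ ℓ : PIdx (↑S : Set ℕ), ∀ y : H,
      ((f (tR ℓ.1) y : H) : HM M ((taut 𝒪 τ) ^ 2) (MonoidAlgebra 𝒪 Δ)) =
        nop (taut 𝒪 τ) (↑S : Set ℕ) ℓ (y : HM M ((taut 𝒪 τ) ^ 2) (MonoidAlgebra 𝒪 Δ)))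

set_option maxHeartbeats 1600000 in
include hM hq hqm hS hΔ hℓ0 hloc hC hF htR in
/-- **The norm elements agree**, for a finite local ring acting on the cohomology. -/
theorem norm_of_act_finite (h36 : Stmt36) (hlow : UnipLow p S)
    (hp𝒪 : (p : 𝒪) ∈ IsLocalRing.maximalIdeal 𝒪)
    (hp2 : p ≠ 2) (hpS : p ∈ S) (hqp : q ≠ p) (hpR : (p : R) ∈ maximalIdeal R)
    (habs : ρ.residual.IsAbsolutelyIrreducible) (hodd : ρ.residual.IsOdd)
    (θ : R) (hθ : ∀ (O' : Type) [CommRing O'] [IsDomain O'] [IsDiscreteValuationRing O']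
      [IsAdicComplete (IsLocalRing.maximalIdeal O') O'] [Finite (IsLocalRing.ResidueField O')]
      [CharZero O'] (y : R →+* O') (hy : IsLocalHom y),
      (ρ.baseChangeAlong y hy).IsUnipotentOnInertiaAt q ↔ y θ = 1)
    {δ : Δ} (hmM : m ∣ M) (hδ1 : ∀ u, ZMod.unitsMap hmM u = 1 → τ u ∈ Subgroup.zpowers δ)
    (hδ2 : ∃ u, ZMod.unitsMap hmM u = 1 ∧ τ u = δ)
    {P : ℕ} (hP : Odd P) (hθP : θ ^ P = 1) (hδP : δ ^ P = 1) (x : H) :
    f (nOp P θ) x = nOp P (gr 𝒪 Δ δ) • x := by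
  classical
  have := Fintype.ofFinite Δ
  obtain ⟨ι, hι⟩ := exists_embedding 𝒪
  letI : Algebra 𝒪 ℂ := ι.toAlgebra
  have hf : FaithfulSMul 𝒪 ℂ := (faithfulSMul_iff_algebraMap_injective 𝒪 ℂ).mpr hι
  obtain ⟨act', ha1, ha2⟩ := exists_joint_act f hC
  have hlocT : IsLocalRing (MonoidAlgebra R Δ) := isLocalRing_groupRing (p := p) hpR hΔ
  have hfinT : Module.Finite 𝒪 (MonoidAlgebra R Δ) := Module.Finite.trans R _
  obtain ⟨κ, hκ⟩ := exists_half Fact.out hp2 hpR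
  have hrep : ∀ (ℓ : PIdx (↑S : Set ℕ)) (y : H),
      ((act' (MonoidAlgebra.singleOneRingHom (tR ℓ.1)) y : H) :
      HM M ((taut 𝒪 τ) ^ 2) (MonoidAlgebra 𝒪 Δ)) =
      nop (taut 𝒪 τ) (↑S : Set ℕ) ℓ (y : HM M ((taut 𝒪 τ) ^ 2) (MonoidAlgebra 𝒪 Δ)) := by
    intro ℓ y
    rw [ha1, hF]
  have hinj := act_sub_injective hloc act' _ (hrep ℓ0)
  have key := nOp_theta_eq_H (𝒪 := 𝒪) (p := p) hM hq hqm hS τ act' (MonoidAlgebra.of R Δ)
    (fun δ y => ha2 δ y) (fun ℓ => MonoidAlgebra.singleOneRingHom (tR ℓ.1)) hrep ℓ0 hℓ0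
    hinj h36 hlow hp𝒪 hp2 hpS hqp ρ hκ habs hodd tR htR
    θ hθ (MonoidAlgebra.singleOneRingHom (M := Δ)) (fun ℓ => rfl) hmM hδ1 hδ2 hP (by
      rw [← map_pow, ← map_pow, hθP, map_one, map_one]) hδP
  have h2 : nOp P (act' (MonoidAlgebra.singleOneRingHom θ)) =
      act' (MonoidAlgebra.singleOneRingHom (nOp P θ)) := by
    rw [map_nOp (MonoidAlgebra.singleOneRingHom (M := Δ))]
    exact (algMap_nOp (A := MonoidAlgebra R Δ) (B := Module.End 𝒪 H) act' P _).symm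
  have h3 : nOp P (act' (MonoidAlgebra.of R Δ δ)) = dEnd 𝒪 H (nOp P (gr 𝒪 Δ δ)) := by
    have h4 : act' (MonoidAlgebra.of R Δ δ) = dHom 𝒪 Δ H δ := LinearMap.ext fun y => ha2 δ y
    rw [h4, nOp]
    refine LinearMap.ext fun y => ?_
    rw [LinearMap.sum_apply, dEnd_apply, nOp, Finset.sum_smul]
    refine Finset.sum_congr rfl fun j _ => ?_
    rw [← map_pow, ← gr_pow]
    rfl
  have h5 := congrArg (fun G : Module.End 𝒪 H => G x) key
  rw [h2, h3] at h5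
  rw [← ha1]
  exact h5

end Fin

end Fermat.Agent.RT
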