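import Fermat.Agent.RT.NormAct

/-!
# The norm elements of inertia and of the diamond operators agree: deformation rings
-/

set_option autoImplicit false
set_option linter.style.haveILetI false

noncomputable section

open CongruenceSubgroup Polynomial CuspForm
open scoped MatrixGroups TensorProduct

namespace Fermat.Agent.RT

open IsLocalRing Fermat.Agent.TwHecke Fermat.Agent.TwExact Fermat.Agent.HeckeRep

section Quot

variable {𝒪 : Type} [CommRing 𝒪] [IsLocalRing 𝒪] [IsNoetherianRing 𝒪]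
  [IsAdicComplete (maximalIdeal 𝒪) 𝒪] {Λ : Type} [CommRing Λ] [Algebra 𝒪 Λ]
  {H : Type} [AddCommGroup H] [Module Λ H] [Module 𝒪 H] [IsScalarTower 𝒪 Λ H]
  [Module.Finite 𝒪 H] {R : Type} [CommRing R] [Algebra 𝒪 R] (act : R →+* Module.End Λ H)
  (hC : ∀ c x, act (algebraMap 𝒪 R c) x = algebraMap 𝒪 Λ c • x)

include hC in
/-- the quotient acting faithfully is finite -/
theorem finite_quot_ker : Module.Finite 𝒪 (R ⧸ RingHom.ker act) := by
  have h1 : Module.Finite 𝒪 (H →ₗ[𝒪] H) := finite_end 𝒪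
  have h2 : IsNoetherian 𝒪 (H →ₗ[𝒪] H) := isNoetherian_of_isNoetherianRing_of_finite 𝒪 (H →ₗ[𝒪] H)
  let F : (R ⧸ RingHom.ker act) →ₗ[𝒪] (H →ₗ[𝒪] H) :=
    { toFun := fun r => (RingHom.kerLift act r).restrictScalars 𝒪
      map_add' := fun a b => by rw [map_add]; rfl
      map_smul' := fun c r => LinearMap.ext fun x => by
        rw [RingHom.id_apply, Algebra.smul_def, map_mul]
        show RingHom.kerLift act (algebraMap 𝒪 _ c) (RingHom.kerLift act r x) =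
          c • RingHom.kerLift act r x
        have h3 : algebraMap 𝒪 (R ⧸ RingHom.ker act) c =
          Ideal.Quotient.mk _ (algebraMap 𝒪 R c) := rfl
        rw [h3, RingHom.kerLift_mk, hC, algebraMap_smul] }
  refine Module.Finite.of_injective F fun a b hab => RingHom.kerLift_injective act ?_
  refine LinearMap.ext fun x => ?_
  exact congrArg (fun G : H →ₗ[𝒪] H => G x) hab

end Quot

section Base

/-- iterated base change and unipotence on inertia -/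
theorem isUnipotent_baseChange_comp {A B C : Type} [CommRing A] [IsLocalRing A] [CommRing B]
    [IsLocalRing B] [CommRing C] [IsLocalRing C] (f : A →+* B) (hf : IsLocalHom f) (g : B →+* C)
    (hg : IsLocalHom g) (hgf : IsLocalHom (g.comp f)) (ρ : GaloisRepAdic A) (q : ℕ) :
    ((ρ.baseChangeAlong f hf).baseChangeAlong g hg).IsUnipotentOnInertiaAt q ↔
      (ρ.baseChangeAlong (g.comp f) hgf).IsUnipotentOnInertiaAt q := by
  have h : ∀ σ, LinearMap.charpoly (((ρ.baseChangeAlong f hf).baseChangeAlong g hg).ρ σ) =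
      LinearMap.charpoly ((ρ.baseChangeAlong (g.comp f) hgf).ρ σ) := by
    intro σ
    rw [charpoly_baseChangeAlong_adic g hg, charpoly_baseChangeAlong_adic f hf,
      charpoly_baseChangeAlong_adic (g.comp f) hgf, Polynomial.map_map]
  constructor
  · intro h1 P hP σ hσ
    rw [← h, h1 P hP σ hσ]
  · intro h1 P hP σ hσ
    rw [h, h1 P hP σ hσ]

/-- the characteristic polynomial at a Frobenius element -/
theorem charpoly_frob_of_det {B : Type} [CommRing B] [IsLocalRing B] {p ℓ : ℕ} [Fact p.Prime]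
    {ρ : GaloisRepAdic B} (hd : ρ.DetIsCyclotomic p) (hℓ : ℓ.Prime) (hℓp : ℓ ≠ p)
    {𝒪 : Type} [CommRing 𝒪] [IsDomain 𝒪] [IsDiscreteValuationRing 𝒪]
    [IsAdicComplete (maximalIdeal 𝒪) 𝒪] (hp𝒪 : (p : 𝒪) ∈ maximalIdeal 𝒪) [Algebra 𝒪 B]
    [IsLocalHom (algebraMap 𝒪 B)] [IsNoetherianRing B]
    {A : ValuationSubring (AlgebraicClosure ℚ)} (hA : A.LiesOverPrime ℓ)
    {σ : AlgebraicClosure ℚ ≃ₐ[ℚ] AlgebraicClosure ℚ} (hσ : A.IsFrobeniusAt σ ℓ) :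
    LinearMap.charpoly (ρ.ρ σ) = X ^ 2 - C (ρ.trace σ) * X + C (ℓ : B) := by
  obtain ⟨r, hr⟩ := RTD.exists_hom_hasMat ρ
  have hdet := (RTD.det_of_cyclotomic (𝒪 := 𝒪) hp𝒪 hd hr hℓ hℓp hA).2 σ hσ
  rw [S30aux.charpoly_eq_trace_det ρ.finrank_eq, RTD.hasMat_det hr, hdet]
  rfl

end Base

section Main

variable {𝒪 : Type} [CommRing 𝒪] [IsDomain 𝒪] [IsDiscreteValuationRing 𝒪]
  [IsAdicComplete (IsLocalRing.maximalIdeal 𝒪) 𝒪] [Finite (IsLocalRing.ResidueField 𝒪)]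
  [CharZero 𝒪] {p : ℕ} [Fact p.Prime]
  {M m q : ℕ} [NeZero M] (hM : M = q * m) (hq : q.Prime) (hqm : ¬ q ∣ m)
  {S : Finset ℕ} (hS : ∀ ℓ : ℕ, ℓ.Prime → ℓ ∣ M → ℓ ∈ S)
  {Δ : Type} [CommGroup Δ] [Finite Δ] (hΔ : IsPGroup p Δ) {τ : (ZMod M)ˣ →* Δ}
  {H : Submodule (MonoidAlgebra 𝒪 Δ) (HM M ((taut 𝒪 τ) ^ 2) (MonoidAlgebra 𝒪 Δ))}
  [Module.Finite 𝒪 H] [Module.Free 𝒪 H]
  {ℓ0 : PIdx (↑S : Set ℕ)} (hℓ0 : ((ℓ0.1 : ℕ) : ZMod M) = 1)
  (hloc : ∀ y ∈ H, nop (taut 𝒪 τ) (↑S : Set ℕ) ℓ0 y =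
    (((ℓ0.1 : ℕ) : MonoidAlgebra 𝒪 Δ) + 1) • y → y = 0)
  {R : Type} [CommRing R] [IsLocalRing R] [Algebra 𝒪 R]
  (act : R →+* Module.End (MonoidAlgebra 𝒪 Δ) H)
  (hC : ∀ c x, act (algebraMap 𝒪 R c) x = algebraMap 𝒪 (MonoidAlgebra 𝒪 Δ) c • x)
  (ρ : GaloisRepAdic R)
  (hF : ∀ ℓ : PIdx (↑S : Set ℕ), ∀ A : ValuationSubring (AlgebraicClosure ℚ),
    A.LiesOverPrime ℓ.1 → ∀ σ : AlgebraicClosure ℚ ≃ₐ[ℚ] AlgebraicClosure ℚ,
    A.IsFrobeniusAt σ ℓ.1 → ∀ y : H,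
      ((act (ρ.trace σ) y : H) : HM M ((taut 𝒪 τ) ^ 2) (MonoidAlgebra 𝒪 Δ)) =
        nop (taut 𝒪 τ) (↑S : Set ℕ) ℓ (y : HM M ((taut 𝒪 τ) ^ 2) (MonoidAlgebra 𝒪 Δ)))

set_option maxHeartbeats 800000 in
omit [Algebra 𝒪 R] in
include hM hq hqm hS hΔ hℓ0 hloc hF in
/-- **The norm elements agree**, for an action of the deformation ring, through a finite
faithful quotient. -/
theorem norm_of_quot {R' : Type} [CommRing R'] [IsLocalRing R'] [Algebra 𝒪 R']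
    [Module.Finite 𝒪 R'] (mk : R →+* R') (hmk : IsLocalHom mk)
    (f : R' →+* Module.End (MonoidAlgebra 𝒪 Δ) H) (hfmk : ∀ r, f (mk r) = act r)
    (hfinj : Function.Injective f)
    (hfC : ∀ c x, f (algebraMap 𝒪 R' c) x = algebraMap 𝒪 (MonoidAlgebra 𝒪 Δ) c • x)
    (h36 : Stmt36) (hlow : UnipLow p S)
    (hp𝒪 : (p : 𝒪) ∈ IsLocalRing.maximalIdeal 𝒪)
    (hp2 : p ≠ 2) (hpS : p ∈ S) (hqp : q ≠ p)
    (hd : ρ.DetIsCyclotomic p)
    (habs : ρ.residual.IsAbsolutelyIrreducible) (hodd : ρ.residual.IsOdd)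
    (θ : R) (hθ : ∀ (O' : Type) [CommRing O'] [IsDomain O'] [IsDiscreteValuationRing O']
      [IsAdicComplete (IsLocalRing.maximalIdeal O') O'] [Finite (IsLocalRing.ResidueField O')]
      [CharZero O'] (y : R →+* O') (hy : IsLocalHom y),
      (ρ.baseChangeAlong y hy).IsUnipotentOnInertiaAt q ↔ y θ = 1)
    {δ : Δ} (hmM : m ∣ M) (hδ1 : ∀ u, ZMod.unitsMap hmM u = 1 → τ u ∈ Subgroup.zpowers δ)
    (hδ2 : ∃ u, ZMod.unitsMap hmM u = 1 ∧ τ u = δ)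
    {P : ℕ} (hP : Odd P) (hθP : θ ^ P = 1) (hδP : δ ^ P = 1) (x : H) :
    act (nOp P θ) x = nOp P (gr 𝒪 Δ δ) • x := by
  classical
  have hpR : (p : R') ∈ maximalIdeal R' := by
    have h1 := map_nonunit mk (p : R) hd.1
    rwa [map_natCast] at h1
  obtain ⟨κ₀, hκ₀⟩ := exists_half (B := R) Fact.out hp2 hd.1
  have hch : ∀ g, ((ρ.baseChangeAlong mk hmk).ρ g).charpoly = (ρ.ρ g).charpoly.map mk :=
    charpoly_baseChangeAlong_adic mk hmk ρ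
  obtain ⟨habs', hodd'⟩ := residual_absIrr_odd mk hκ₀ hch habs hodd
  have hd' : (ρ.baseChangeAlong mk hmk).DetIsCyclotomic p :=
    detIsCyclotomic_baseChangeAlong mk hmk hd
  have hnoethR : IsNoetherianRing R' := IsNoetherianRing.of_finite 𝒪 R'
  have hlh : IsLocalHom (algebraMap 𝒪 R') := isLocalHom_of_isIntegral _
    (algebraMap_isIntegral_iff.mpr inferInstance)
  -- the traces of Frobenius
  have hex : ∀ ℓ : PIdx (↑S : Set ℕ), ∃ t : R', ∀ A : ValuationSubring (AlgebraicClosure ℚ),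
      A.LiesOverPrime ℓ.1 → ∀ σ : AlgebraicClosure ℚ ≃ₐ[ℚ] AlgebraicClosure ℚ,
      A.IsFrobeniusAt σ ℓ.1 → mk (ρ.trace σ) = t := by
    intro ℓ
    obtain ⟨A₁, hA₁, σ₁, hσ₁⟩ := Frob.exists_frobenius ℓ.1 ℓ.1.2
    refine ⟨mk (ρ.trace σ₁), fun A hA σ hσ => hfinj ?_⟩
    rw [hfmk, hfmk]
    refine LinearMap.ext fun y => Subtype.ext ?_
    rw [hF ℓ A hA σ hσ, hF ℓ A₁ hA₁ σ₁ hσ₁]
  choose tR' htR' using hex
  let tR : ℕ → R' := fun n => if h : n.Prime ∧ n ∉ (↑S : Set ℕ) then tR' ⟨⟨n, h.1⟩, h.2⟩ else 0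
  have htR : ∀ ℓ : PIdx (↑S : Set ℕ), tR ℓ.1 = tR' ℓ := by
    intro ℓ
    have h : (ℓ.1 : ℕ).Prime ∧ (ℓ.1 : ℕ) ∉ (↑S : Set ℕ) := ⟨ℓ.1.2, ℓ.2⟩
    exact dif_pos h
  rw [← hfmk, map_nOp mk]
  refine norm_of_act_finite hM hq hqm hS hΔ hℓ0 hloc f hfC (ρ.baseChangeAlong mk hmk) tR ?_ ?_
    h36 hlow hp𝒪 hp2 hpS hqp hpR habs' hodd' (mk θ) ?_ hmM hδ1 hδ2 hP
    (by rw [← map_pow, hθP, map_one]) hδP x
  · intro ℓ hℓ hℓS A hA σ hσ
    have hℓp : ℓ ≠ p := fun h => hℓS (h ▸ hpS)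
    have h1 := charpoly_frob_of_det (𝒪 := 𝒪) hd' hℓ hℓp hp𝒪 hA hσ
    have h2 : (ρ.baseChangeAlong mk hmk).trace σ = tR ℓ :=
      (trace_baseChangeAlong_adic mk hmk ρ σ).trans
        ((htR' ⟨⟨ℓ, hℓ⟩, hℓS⟩ A hA σ hσ).trans (htR ⟨⟨ℓ, hℓ⟩, hℓS⟩).symm)
    rw [h2] at h1
    exact h1
  · intro ℓ y
    obtain ⟨A₁, hA₁, σ₁, hσ₁⟩ := Frob.exists_frobenius ℓ.1 ℓ.1.2
    rw [htR, ← htR' ℓ A₁ hA₁ σ₁ hσ₁, hfmk]
    exact hF ℓ A₁ hA₁ σ₁ hσ₁ y
  · intro O' _ _ _ _ _ _ y hy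
    have hym : IsLocalHom (y.comp mk) := RingHom.isLocalHom_comp y mk
    rw [isUnipotent_baseChange_comp mk hmk y hy hym]
    exact hθ O' (y.comp mk) hym

set_option maxHeartbeats 800000 in
include hM hq hqm hS hΔ hℓ0 hloc hC hF in
/-- **The norm elements agree**, for an action of the deformation ring. -/
theorem norm_of_act (h36 : Stmt36) (hlow : UnipLow p S)
    (hp𝒪 : (p : 𝒪) ∈ IsLocalRing.maximalIdeal 𝒪)
    (hp2 : p ≠ 2) (hpS : p ∈ S) (hqp : q ≠ p)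
    (hd : ρ.DetIsCyclotomic p)
    (habs : ρ.residual.IsAbsolutelyIrreducible) (hodd : ρ.residual.IsOdd)
    (θ : R) (hθ : ∀ (O' : Type) [CommRing O'] [IsDomain O'] [IsDiscreteValuationRing O']
      [IsAdicComplete (IsLocalRing.maximalIdeal O') O'] [Finite (IsLocalRing.ResidueField O')]
      [CharZero O'] (y : R →+* O') (hy : IsLocalHom y),
      (ρ.baseChangeAlong y hy).IsUnipotentOnInertiaAt q ↔ y θ = 1)
    {δ : Δ} (hmM : m ∣ M) (hδ1 : ∀ u, ZMod.unitsMap hmM u = 1 → τ u ∈ Subgroup.zpowers δ)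
    (hδ2 : ∃ u, ZMod.unitsMap hmM u = 1 ∧ τ u = δ)
    {P : ℕ} (hP : Odd P) (hθP : θ ^ P = 1) (hδP : δ ^ P = 1) (x : H) :
    act (nOp P θ) x = nOp P (gr 𝒪 Δ δ) • x := by
  rcases subsingleton_or_nontrivial H with hH | hH
  · exact Subsingleton.elim _ _
  -- the quotient acting faithfully
  have hnt : Nontrivial (R ⧸ RingHom.ker act) :=
    Ideal.Quotient.nontrivial_iff.mpr (RingHom.ker_ne_top act)
  have hlocR : IsLocalRing (R ⧸ RingHom.ker act) :=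
    IsLocalRing.of_surjective' (Ideal.Quotient.mk _) Ideal.Quotient.mk_surjective
  have hmk : IsLocalHom (Ideal.Quotient.mk (RingHom.ker act)) :=
    IsLocalHom.of_surjective _ Ideal.Quotient.mk_surjective
  have hfinR : Module.Finite 𝒪 (R ⧸ RingHom.ker act) := finite_quot_ker act hC
  exact norm_of_quot hM hq hqm hS hΔ hℓ0 hloc act ρ hF (Ideal.Quotient.mk (RingHom.ker act)) hmk
    (RingHom.kerLift act) (fun r => RingHom.kerLift_mk act r) (RingHom.kerLift_injective act)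
    (fun c y => by
      have h1 : algebraMap 𝒪 (R ⧸ RingHom.ker act) c =
        Ideal.Quotient.mk _ (algebraMap 𝒪 R c) := rfl
      rw [h1, RingHom.kerLift_mk, hC])
    h36 hlow hp𝒪 hp2 hpS hqp hd habs hodd θ hθ hmM hδ1 hδ2 hP hθP hδP x

end Main

end Fermat.Agent.RT
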