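import Fermat.Agent.RT.NormR
import Fermat.Agent.RTD.TWLocal
import Fermat.Agent.RTD.CondBasic
import Fermat.Agent.HSide.Base

/-!
# The norm elements of inertia and of the diamond operators agree: the Hecke side
-/

set_option autoImplicit false
set_option linter.style.haveILetI false

noncomputable section

open CongruenceSubgroup Polynomial CuspForm
open scoped MatrixGroups TensorProduct

namespace Fermat.Agent.RT

open IsLocalRing Fermat.Agent.TwHecke Fermat.Agent.TwExact Fermat.Agent.HeckeRep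
  Fermat.Agent.HSide Fermat.Agent.RTD

section Conj

variable {Λ : Type*} [CommRing Λ] {X H : Type*} [AddCommGroup X] [AddCommGroup H] [Module Λ X]
  [Module Λ H]

/-- transport of an action along an isomorphism -/
def conjAct (e : X ≃ₗ[Λ] H) {R : Type*} [CommRing R] (act : R →+* Module.End Λ X) :
    R →+* Module.End Λ H :=
  (e.conjRingEquiv : Module.End Λ X →+* Module.End Λ H).comp act

theorem conjAct_apply (e : X ≃ₗ[Λ] H) {R : Type*} [CommRing R] (act : R →+* Module.End Λ X)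
    (r : R) (x : X) : conjAct e act r (e x) = e (act r x) := by
  show e.conjRingEquiv (act r) (e x) = _
  rw [LinearEquiv.conjRingEquiv_apply_apply, LinearEquiv.symm_apply_apply]

end Conj

section TW

variable {R : Type} [CommRing R] [IsLocalRing R] [IsNoetherianRing R] {ρ : GaloisRepAdic R}
  {p q : ℕ} [hp : Fact p.Prime]

/-- At a Taylor-Wiles prime: unipotent on inertia iff `θ ↦ 1`. -/
theorem unipotent_iff_θ (W : TWLoc ρ p q) (hq : q.Prime) (hqp : q ≠ p)
    (hpR : (p : R) ∈ maximalIdeal R) {B : Type} [CommRing B] [IsLocalRing B] [IsReduced B]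
    (x : R →+* B) (hx : IsLocalHom x) :
    (ρ.baseChangeAlong x hx).IsUnipotentOnInertiaAt q ↔ x (W.θ : R) = 1 := by
  refine ⟨W.eq_one_of_isUnipotentOnInertiaAt x hx, fun h => ?_⟩
  have h1 := W.isUnramifiedAt_of_eq_one hq hqp hpR x hx h
  intro P hP σ hσ
  rw [h1 P hP σ hσ]
  exact charpoly_one_rank2 _
where
  charpoly_one_rank2 {B : Type} [CommRing B] [IsLocalRing B] (ρ : GaloisRepAdic B) :
      LinearMap.charpoly (1 : Module.End B ρ.V) = (Polynomial.X - 1) ^ 2 := by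
    obtain ⟨r, hr⟩ := S53norm.exists_hasMat_adic ρ
    have h2 := RTD.hasMat_charpoly hr 1
    rw [map_one] at h2
    rw [h2, hr.map_one, Matrix.charpoly_one]
    simp

end TW

section CoLev

variable {𝒪 : Type} [CommRing 𝒪] [IsLocalRing 𝒪] {p : ℕ} {ι : Type} {qT : ι → ℕ}
  {S : Finset ℕ} (B : Base 𝒪 p qT S) {m : ℕ} {qv : Fin m → ℕ} (A : Auxs B qv)

/-- the product of the other auxiliary primes and of the base level -/
def coLev (s : Finset ι) (i : Fin m) (qv : Fin m → ℕ) : ℕ :=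
  B.NS s * ∏ j ∈ Finset.univ.erase i, qv j

theorem lev_eq (s : Finset ι) (i : Fin m) : B.lev qv s = qv i * coLev B s i qv := by
  rw [Base.lev, coLev, ← Finset.mul_prod_erase Finset.univ qv (Finset.mem_univ i)]
  ring

include A in
theorem not_dvd_coLev (s : Finset ι) (i : Fin m) : ¬ qv i ∣ coLev B s i qv := by
  intro h
  rcases (A.prime i).dvd_mul.mp h with h | h
  · exact B.qv_not_dvd_NS A s i h
  · obtain ⟨j, hj, hij⟩ := (A.prime i).prime.exists_mem_finset_dvd h
    exact (Finset.mem_erase.mp hj).1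
      (A.inj ((Nat.prime_dvd_prime_iff_eq (A.prime i) (A.prime j)).mp hij)).symm

theorem dvd_coLev (s : Finset ι) (i j : Fin m) (hj : j ≠ i) : qv j ∣ coLev B s i qv :=
  (Finset.dvd_prod_of_mem qv (Finset.mem_erase.mpr ⟨hj, Finset.mem_univ j⟩)).trans
    (Dvd.intro_left _ rfl)

end CoLev

section Main

variable {𝒪 : Type} [CommRing 𝒪] [IsDomain 𝒪] [IsDiscreteValuationRing 𝒪]
  [IsAdicComplete (maximalIdeal 𝒪) 𝒪] [Finite (ResidueField 𝒪)]
  [CharZero 𝒪] {p : ℕ} [hp : Fact p.Prime] {ι : Type} {qT : ι → ℕ}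
  {S : Finset ℕ} (B : Base 𝒪 p qT S) {m : ℕ} {qv : Fin m → ℕ} (A : Auxs B qv)
  [IsLocalRing (Lam 𝒪 p qv)]

set_option maxHeartbeats 1000000 in
include A in
/-- **The field `norm`** of the Galois action, for any module `X` embedded in the module `MM` of
the Hecke side and any action of the deformation ring on `X`. -/
theorem norm_MM (h36 : Stmt36) (hlow : UnipLow p (B.Sn qv)) (s : Finset ι) (i : Fin m)
    {X : Type} [AddCommGroup X] [Module (Lam 𝒪 p qv) X]
    (j : X →ₗ[Lam 𝒪 p qv] B.MM qv s) (hj : Function.Injective j)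
    {R : Type} [CommRing R] [IsLocalRing R] [IsNoetherianRing R] [Algebra 𝒪 R]
    (act : R →+* Module.End (Lam 𝒪 p qv) X)
    (hC : ∀ (c : 𝒪) (x : X), act (algebraMap 𝒪 R c) x = algebraMap 𝒪 (Lam 𝒪 p qv) c • x)
    (ρ : GaloisRepAdic R)
    (hF : ∀ ℓ : PIdx (↑(B.Sn qv) : Set ℕ), ∀ A' : ValuationSubring (AlgebraicClosure ℚ),
      A'.LiesOverPrime ℓ.1 → ∀ σ : AlgebraicClosure ℚ ≃ₐ[ℚ] AlgebraicClosure ℚ,
      A'.IsFrobeniusAt σ ℓ.1 → ∀ x : X, j (act (ρ.trace σ) x) =
        hT (B.eta qv s) (B.eta qv s ^ 2) (↑(B.Sn qv) : Set ℕ) (B.th qv) ℓ (j x))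
    (hd : ρ.DetIsCyclotomic p) (habs : ρ.residual.IsAbsolutelyIrreducible)
    (hodd : ρ.residual.IsOdd) (W : TWLoc ρ p (qv i)) (x : X) :
    act (nOp (pPart p (qv i)) (W.θ : R)) x =
      nOp (pPart p (qv i)) (gr 𝒪 (Dia p qv) (gen p qv i)) • x := by
  have hpne : NeZero p := ⟨hp.out.ne_zero⟩
  have hlev : NeZero (B.lev qv s) := ⟨B.lev_ne A s⟩
  have hqp : qv i ≠ p := fun h => A.notMem i (h ▸ B.pS)
  have hG := B.good_lev A s
  have hfinH : Module.Finite 𝒪 (B.MM qv s) := finite_HmΔ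
  have hfreeH : Module.Free 𝒪 (B.MM qv s) := free_HmΔ hG
  -- the submodule
  let J : X →ₗ[Lam 𝒪 p qv] HM (B.lev qv s) (B.eta qv s ^ 2) (Lam 𝒪 p qv) :=
    (Submodule.subtype _).comp j
  have hJ : Function.Injective J := Subtype.val_injective.comp hj
  let H : Submodule (Lam 𝒪 p qv) (HM (B.lev qv s) (B.eta qv s ^ 2) (Lam 𝒪 p qv)) :=
    LinearMap.range J
  have hH : ∀ y ∈ H, y ∈ Hm (B.lev qv s) (B.eta qv s ^ 2) (Lam 𝒪 p qv)
      (↑(B.Sn qv) : Set ℕ) (B.th qv) := by
    rintro y ⟨x, rfl⟩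
    exact (j x).2
  let inc : H →ₗ[𝒪] B.MM qv s := (Submodule.inclusion hH).restrictScalars 𝒪
  have hinc : Function.Injective inc := Submodule.inclusion_injective hH
  have hfin : Module.Finite 𝒪 H := Module.Finite.of_injective inc hinc
  have htf : Module.IsTorsionFree 𝒪 H := hinc.moduleIsTorsionFree inc (fun c y => map_smul inc c y)
  have hfree : Module.Free 𝒪 H := Module.free_of_finite_type_torsion_free'
  let e : X ≃ₗ[Lam 𝒪 p qv] H := LinearEquiv.ofInjective J hJ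
  -- an auxiliary prime
  obtain ⟨ℓ0, h1, h2⟩ := (B.strong_th (qv := qv)).one (B.lev qv s)
    (Nat.pos_of_ne_zero (B.lev_ne A s))
  have hℓ0 : ((ℓ0.1 : ℕ) : ZMod (B.lev qv s)) = 1 := by
    have h3 := (ZMod.intCast_zmod_eq_zero_iff_dvd _ _).mpr h1
    push_cast at h3
    exact sub_eq_zero.mp h3
  have hloc : ∀ y ∈ H, nop (taut 𝒪 (tauM p qv (B.lev qv s) (B.qv_dvd s)))
      (↑(B.Sn qv) : Set ℕ) ℓ0 y = (((ℓ0.1 : ℕ) : MonoidAlgebra 𝒪 (Dia p qv)) + 1) • y → y = 0 := by
    intro y hy h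
    have := HSide.isAdicComplete_groupRing (𝒪 := 𝒪) (Δ := Dia p qv)
    have := HSide.isNoetherianRing_groupRing (𝒪 := 𝒪) (Δ := Dia p qv)
    exact eq_zero_of_nop (B.residue_eta s) h2 (hH y hy) h
  have hq' : ∀ k, k ≠ i → qv k ∣ coLev B s i qv := fun k hk => dvd_coLev B s i k hk
  have hmM : coLev B s i qv ∣ B.lev qv s := Dvd.intro_left _ (lev_eq B s i).symm
  have key := norm_of_act (H := H) (τ := tauM p qv (B.lev qv s) (B.qv_dvd s)) (lev_eq B s i)
    (A.prime i) (not_dvd_coLev B A s i) (B.lev_mem A s) (isPGroup_Dia' p qv) hℓ0 hloc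
    (conjAct e act)
    (fun c y => by
      obtain ⟨x, rfl⟩ := e.surjective y
      rw [conjAct_apply, hC, map_smul])
    ρ
    (fun ℓ A' hA' σ hσ y => by
      obtain ⟨x, rfl⟩ := e.surjective y
      rw [conjAct_apply]
      exact congrArg Subtype.val (hF ℓ A' hA' σ hσ x))
    h36 hlow B.p_mem B.p_ne_two (B.S_sub B.pS) hqp hd habs hodd (W.θ : R)
    (fun O' _ _ _ _ _ _ y hy => unipotent_iff_θ W (A.prime i) hqp hd.1 y hy)
    (δ := gen p qv i) hmM (fun u hu => tauM_mem_zpowers (B.qv_dvd s) hmM i hq' hu)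
    (exists_tauM_eq_gen (B.qv_dvd s) hmM i (A.prime i) (lev_eq B s i) (not_dvd_coLev B A s i) hq')
    (odd_pPart p B.p_ne_two (qv i))
    (by rw [← Units.val_pow_eq_pow_val, W.θ_pow, Units.val_one])
    (gen_pow p qv i) (e x)
  rw [conjAct_apply, ← map_smul] at key
  exact e.injective key

end Main

end Fermat.Agent.RT
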