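import Fermat.Agent.RT.EigenC
import Fermat.Agent.RT.NTheta
import Fermat.Agent.TwES.Neb
import Fermat.Agent.Cofaith.Weight

/-!
# The levels at which a parabolic eigenclass with nebentypus occurs

`M = q * m` with `q` a prime not dividing `m`, `η : (ZMod M)ˣ →* ℂˣ`,
`y ∈ H¹(Γ₀(M), ℂ(η²))` a parabolic eigenclass. If `η` is unramified at `q` then the
(normalised) eigenvalues occur at level `q * m ^ 2`; if `η²` is ramified at `q` then they occur on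
a newform whose level is exactly divisible by `q²`.
-/

set_option autoImplicit false
set_option linter.style.haveILetI false

noncomputable section

open CongruenceSubgroup Polynomial CuspForm
open scoped MatrixGroups TensorProduct

namespace Fermat.Agent.RT

open Fermat.Agent.TwHecke Fermat.Agent.TwExact Fermat.Agent.HeckeRep Fermat.Agent.TwES

section Cev

variable {ι : Type*} {H : Type*} [AddCommGroup H] [Module ℂ H]

/-- evaluation of integral polynomials on a joint eigenvector -/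
theorem cevZ_eigen {T : ι → Module.End ℂ H} (hT : ∀ i j, Commute (T i) (T j)) {y : H} {a : ι → ℂ}
    (h : ∀ i, T i y = a i • y) (t : MvPolynomial ι ℤ) :
    cev (R := ℤ) T hT t y = MvPolynomial.eval₂Hom (Int.castRingHom ℂ) a t • y := by
  induction t using MvPolynomial.induction_on with
  | C c =>
    rw [cev_C, algebraMap_int_eq, eq_intCast, Module.End.intCast_apply, MvPolynomial.eval₂Hom_C,
      eq_intCast, Int.cast_smul_eq_zsmul]
  | add p q hp hq => rw [map_add, LinearMap.add_apply, hp, hq, map_add, add_smul]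
  | mul_X p i hp =>
    rw [map_mul, Module.End.mul_apply, cev_X, h, map_smul, hp, smul_smul, map_mul,
      MvPolynomial.eval₂Hom_X', mul_comm]

end Cev

section Low

variable {m q : ℕ} [NeZero m] [NeZero q]

omit [NeZero m] in
/-- a character trivial on the units `≡ 1` modulo `m` factors through `(ZMod m)ˣ`. -/
theorem exists_factor {M : ℕ} (hmM : m ∣ M) [NeZero M] (η : (ZMod M)ˣ →* ℂˣ)
    (hη : ∀ u, ZMod.unitsMap hmM u = 1 → η u = 1) :
    ∃ ψ₀ : (ZMod m)ˣ →* ℂˣ, η = ψ₀.comp (ZMod.unitsMap hmM) := by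
  refine ⟨(ZMod.unitsMap hmM).liftOfSurjective (ZMod.unitsMap_surjective hmM)
    ⟨η, fun u hu => hη u hu⟩, ?_⟩
  ext u
  rw [MonoidHom.comp_apply, MonoidHom.liftOfRightInverse_comp_apply]

/-- **Unramified at `q`.** -/
theorem occursLow_of_eigen (hq : q.Prime) (hqm : ¬ q ∣ m) {S : Finset ℕ}
    (hS : ∀ ℓ : ℕ, ℓ.Prime → ℓ ∣ q * m → ℓ ∈ S) (η : (ZMod (q * m))ˣ →* ℂˣ)
    (hη : ∀ u, ZMod.unitsMap (Dvd.intro_left q rfl : m ∣ q * m) u = 1 → η u = 1)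
    {a : ℕ → ℂ} {y : HM (q * m) (η ^ 2) ℂ} (hy : y ∈ HM.par (q * m) (η ^ 2) ℂ) (hy0 : y ≠ 0)
    (h : ∀ ℓ : {ℓ : Nat.Primes // (ℓ : ℕ) ∉ (↑S : Set ℕ)}, nop η (↑S : Set ℕ) ℓ y = a ℓ.1 • y) :
    OccursLow S q a := by
  have hne : NeZero (q * m ^ 2) := ⟨mul_ne_zero (NeZero.ne q) (pow_ne_zero _ (NeZero.ne m))⟩
  have hdvd : ∀ r : ℕ, r.Prime → r ∣ q * m ^ 2 → r ∈ S := by
    intro r hr hrd
    refine hS r hr ?_
    rcases (Nat.Prime.dvd_mul hr).mp hrd with h1 | h1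
    · exact h1.mul_right m
    · exact (hr.dvd_of_dvd_pow h1).mul_left q
  set E : MvPolynomial {ℓ : Nat.Primes // (ℓ : ℕ) ∉ (↑S : Set ℕ)} ℤ →+*
      CuspForm.heckeAlgebra (q * m ^ 2) 2 (↑S : Set ℕ) :=
    (GalRep.evS (q * m ^ 2) (↑S : Set ℕ) : _ →ₐ[ℤ] _).toRingHom with hE
  have hEs : Function.Surjective E := Cofaith.evS_surjective _ _
  have hker : ∀ t ∈ RingHom.ker E,
      MvPolynomial.eval₂Hom (Int.castRingHom ℂ)
        (fun ℓ : {ℓ : Nat.Primes // (ℓ : ℕ) ∉ (↑S : Set ℕ)} => a ℓ.1) t = 0 := by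
    intro t ht
    have h1 := relation_nop q m (↑S : Set ℕ) (fun ℓ hℓ hd => hS ℓ hℓ hd) η
      (exists_factor _ η hη) t ht y hy
    rw [cevZ_eigen (nop_commute η) h] at h1
    exact (smul_eq_zero.mp h1).resolve_right hy0
  refine ⟨q * m ^ 2, hne, ?_, hdvd, RingHom.liftOfSurjective E hEs ⟨_, hker⟩, ?_⟩
  · intro hd
    rw [pow_two q, Nat.mul_dvd_mul_iff_left hq.pos] at hd
    exact hqm (hq.dvd_of_dvd_pow hd)
  · intro ℓ hℓ hℓN hℓS
    have h1 := GalRep.evS_X_of_not_dvd (q * m ^ 2) (↑S : Set ℕ) ⟨⟨ℓ, hℓ⟩, hℓS⟩ hℓN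
    rw [← h1]
    have h2 := RingHom.liftOfRightInverse_comp_apply E _ (Function.rightInverse_surjInv hEs)
      ⟨_, hker⟩ (MvPolynomial.X ⟨⟨ℓ, hℓ⟩, hℓS⟩)
    refine h2.trans ?_
    rw [MvPolynomial.eval₂Hom_X']

/-- **Ramified at `q`.** -/
theorem occursSq_of_eigen (hq : q.Prime) (hqm : ¬ q ∣ m) {S : Finset ℕ}
    (hS : ∀ ℓ : ℕ, ℓ.Prime → ℓ ∣ q * m → ℓ ∈ S) (η : (ZMod (q * m))ˣ →* ℂˣ)
    (hη : ∃ u, ZMod.unitsMap (Dvd.intro_left q rfl : m ∣ q * m) u = 1 ∧ η u ^ 2 ≠ 1)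
    {a : ℕ → ℂ} {y : HM (q * m) (η ^ 2) ℂ} (hy : y ∈ HM.par (q * m) (η ^ 2) ℂ) (hy0 : y ≠ 0)
    (h : ∀ ℓ : {ℓ : Nat.Primes // (ℓ : ℕ) ∉ (↑S : Set ℕ)}, nop η (↑S : Set ℕ) ℓ y = a ℓ.1 • y) :
    OccursSq S q a := by
  obtain ⟨f, lam', hf0, hf, hlam⟩ := exists_nebEig_nop η (fun ℓ hℓ hd => hS ℓ hℓ hd) hy hy0 h
  refine occursSq_of_neb hf hf0 hS hq ((Nat.Prime.coprime_iff_not_dvd hq).mpr hqm).symm rfl ?_ a
    (fun ℓ hℓ hℓS => hlam ℓ hℓ hℓS)
  obtain ⟨u, hu, hu2⟩ := hη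
  refine ⟨u, hu, fun h1 => hu2 ?_⟩
  rw [MulChar.ofUnitHom_coe] at h1
  apply Units.ext
  rw [Units.val_pow_eq_pow_val, h1, Units.val_one]

end Low

end Fermat.Agent.RT
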