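import Fermat.Agent.RT.Occurs

/-!
# The alternative at a prime `q ‖ M` for the eigenvalue systems of the `𝒪[Δ]`-cohomology
-/

set_option autoImplicit false
set_option linter.style.haveILetI false

noncomputable section

open CongruenceSubgroup Polynomial CuspForm
open scoped MatrixGroups TensorProduct

namespace Fermat.Agent.RT

open Fermat.Agent.TwHecke Fermat.Agent.TwExact Fermat.Agent.HeckeRep Fermat.Agent.TwES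

theorem odd_of_cast_eq_one {M ℓ : ℕ} (hM : 1 < M) (hℓ : ℓ.Prime) (h : ((ℓ : ℕ) : ZMod M) = 1) :
    Odd ℓ := by
  refine hℓ.odd_of_ne_two ?_
  rintro rfl
  have h1 : ((1 : ℕ) : ZMod M) = 0 := by
    have h2 : ((2 : ℕ) : ZMod M) - 1 = 0 := by rw [h, sub_self]
    rw [Nat.cast_one, ← h2]; push_cast; ring
  rw [ZMod.natCast_eq_zero_iff] at h1
  exact absurd (Nat.le_of_dvd one_pos h1) (not_le.mpr hM)

section Alt

variable {𝒪 : Type*} [CommRing 𝒪] [IsDomain 𝒪] [Algebra 𝒪 ℂ] [FaithfulSMul 𝒪 ℂ]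
  {m q : ℕ} [NeZero m] [NeZero q] (hq : q.Prime) (hqm : ¬ q ∣ m)
  {S : Finset ℕ} (hS : ∀ ℓ : ℕ, ℓ.Prime → ℓ ∣ q * m → ℓ ∈ S)
  {Δ : Type*} [CommGroup Δ] [Fintype Δ] (τ : (ZMod (q * m))ˣ →* Δ)
  {H : Submodule (MonoidAlgebra 𝒪 Δ) (HM (q * m) ((taut 𝒪 τ) ^ 2) (MonoidAlgebra 𝒪 Δ))}
  [Module.IsTorsionFree 𝒪 H]
  {T : Type*} [CommRing T] [Algebra 𝒪 T] (act : T →ₐ[𝒪] Module.End 𝒪 H) (δT : Δ → T)
  (hδ : ∀ δ (y : H), act (δT δ) y = (MonoidAlgebra.single δ (1 : 𝒪)) • y)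
  (tT : {ℓ : Nat.Primes // (ℓ : ℕ) ∉ (↑S : Set ℕ)} → T)
  (ht : ∀ ℓ (y : H), ((act (tT ℓ) y : H) : HM (q * m) ((taut 𝒪 τ) ^ 2) (MonoidAlgebra 𝒪 Δ)) =
      nop (taut 𝒪 τ) (↑S : Set ℕ) ℓ
        (y : HM (q * m) ((taut 𝒪 τ) ^ 2) (MonoidAlgebra 𝒪 Δ)))
  (ℓ0 : {ℓ : Nat.Primes // (ℓ : ℕ) ∉ (↑S : Set ℕ)})
  (hℓ0 : ((ℓ0.1 : ℕ) : ZMod (q * m)) = 1)
  (hunit : Function.Injective (act (tT ℓ0 - ((ℓ0.1 : ℕ) + 1))))
  {a : ℕ → ℂ} (x : T →ₐ[𝒪] ℂ) (ha : ∀ ℓ, a ℓ.1 = x (tT ℓ)) {v : ℂ ⊗[𝒪] H} (hv : v ≠ 0)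
  (hx : ∀ t, (act t).baseChange ℂ v = x t • v)

section Inj

variable {N : Type*} [AddCommGroup N] [Module 𝒪 N]

/-- injectivity after base change to `ℂ` -/
theorem baseChange_injective_C {φ : Module.End 𝒪 N} (h : Function.Injective φ) :
    Function.Injective (φ.baseChange ℂ) := by
  have hflat : Module.Flat 𝒪 ℂ := by
    let _ : Algebra (FractionRing 𝒪) ℂ :=
      (IsFractionRing.lift (FaithfulSMul.algebraMap_injective 𝒪 ℂ)).toAlgebra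
    have : IsScalarTower 𝒪 (FractionRing 𝒪) ℂ := IsScalarTower.of_algebraMap_eq fun a =>
      (IsFractionRing.lift_algebraMap (FaithfulSMul.algebraMap_injective 𝒪 ℂ) a).symm
    have h1 : Module.Flat 𝒪 (FractionRing 𝒪) := IsLocalization.flat _ (nonZeroDivisors 𝒪)
    exact Module.Flat.trans 𝒪 (FractionRing 𝒪) ℂ
  exact Module.Flat.lTensor_preserves_injective_linearMap (M := ℂ) φ h

/-- an element acting injectively does not vanish at a point of the spectrum -/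
theorem point_ne_zero (act : T →ₐ[𝒪] Module.End 𝒪 N) (x : T →ₐ[𝒪] ℂ) {v : ℂ ⊗[𝒪] N} (hv : v ≠ 0)
    (hx : ∀ t, (act t).baseChange ℂ v = x t • v) {t : T} (h : Function.Injective (act t)) :
    x t ≠ 0 := by
  intro hcon
  refine hv (baseChange_injective_C (𝒪 := 𝒪) h ?_)
  rw [hx, map_zero, hcon, zero_smul]

end Inj

include hq hδ ht hℓ0 hunit ha hv hx in
/-- the common part: the parabolic eigenclass -/
theorem exists_par_eigen : ∃ χ : Δ →* ℂˣ, (∀ δ, ((χ δ : ℂˣ) : ℂ) = x (δT δ)) ∧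
    ∃ y : HM (q * m) ((χ.comp τ) ^ 2) ℂ, y ∈ HM.par (q * m) ((χ.comp τ) ^ 2) ℂ ∧ y ≠ 0 ∧
      ∀ ℓ, nop (χ.comp τ) (↑S : Set ℕ) ℓ y = a ℓ.1 • y := by
  obtain ⟨χ, hχ, y, hy0, hy⟩ := exists_eigen τ H act δT hδ tT ht x hv hx
  have h1 : 1 < q * m := lt_of_lt_of_le hq.one_lt (Nat.le_mul_of_pos_right q (NeZero.pos m))
  refine ⟨χ, hχ, y, ?_, hy0, fun ℓ => by rw [hy, ha]⟩
  refine mem_par_of_eigen hy ℓ0 hℓ0 (odd_of_cast_eq_one h1 ℓ0.1.2 hℓ0) ?_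
  have h2 := point_ne_zero act x hv hx hunit
  rw [map_sub, map_add, map_natCast, map_one] at h2
  exact sub_ne_zero.mp h2

include hq hqm hS hδ ht hℓ0 hunit ha hv hx in
theorem occursLow_of_point {δ : Δ}
    (hδ1 : ∀ u, ZMod.unitsMap (Dvd.intro_left q rfl : m ∣ q * m) u = 1 →
      τ u ∈ Subgroup.zpowers δ) (hd : x (δT δ) = 1) : OccursLow S q a := by
  obtain ⟨χ, hχ, y, hpar, hy0, hy⟩ :=
    exists_par_eigen hq τ act δT hδ tT ht ℓ0 hℓ0 hunit x ha hv hx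
  refine occursLow_of_eigen hq hqm hS (χ.comp τ) (fun u hu => ?_) hpar hy0 hy
  obtain ⟨k, hk⟩ := Subgroup.mem_zpowers_iff.mp (hδ1 u hu)
  have h1 : χ δ = 1 := Units.ext (by rw [hχ, hd, Units.val_one])
  rw [MonoidHom.comp_apply, ← hk, map_zpow, h1, one_zpow]

include hq hqm hS hδ ht hℓ0 hunit ha hv hx in
theorem occursSq_of_point {δ : Δ}
    (hδ2 : ∃ u, ZMod.unitsMap (Dvd.intro_left q rfl : m ∣ q * m) u = 1 ∧ τ u = δ)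
    (hodd : Odd (orderOf δ)) (hd : x (δT δ) ≠ 1) : OccursSq S q a := by
  obtain ⟨χ, hχ, y, hpar, hy0, hy⟩ :=
    exists_par_eigen hq τ act δT hδ tT ht ℓ0 hℓ0 hunit x ha hv hx
  obtain ⟨u, hu, huδ⟩ := hδ2
  refine occursSq_of_eigen hq hqm hS (χ.comp τ) ⟨u, hu, fun h2 => hd ?_⟩ hpar hy0 hy
  have h3 : χ δ ^ 2 = 1 := by rw [← huδ]; exact h2
  obtain ⟨k, hk⟩ := hodd
  have h4 : χ δ ^ orderOf δ = 1 := by rw [← map_pow, pow_orderOf_eq_one, map_one]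
  have h5 : χ δ = 1 := by
    rw [hk, pow_succ, pow_mul, h3, one_pow, one_mul] at h4
    exact h4
  rw [← hχ, h5, Units.val_one]

end Alt

section Norm

variable {𝒪 : Type} [CommRing 𝒪] [IsDomain 𝒪] [IsDiscreteValuationRing 𝒪]
  [IsAdicComplete (IsLocalRing.maximalIdeal 𝒪) 𝒪] [Finite (IsLocalRing.ResidueField 𝒪)]
  [CharZero 𝒪] [Algebra 𝒪 ℂ] [FaithfulSMul 𝒪 ℂ] {p : ℕ} [Fact p.Prime]
  {M m q : ℕ} [NeZero M] (hM : M = q * m) (hq : q.Prime) (hqm : ¬ q ∣ m)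
  {S : Finset ℕ} (hS : ∀ ℓ : ℕ, ℓ.Prime → ℓ ∣ M → ℓ ∈ S)
  {Δ : Type*} [CommGroup Δ] [Fintype Δ] (τ : (ZMod M)ˣ →* Δ)
  {H : Submodule (MonoidAlgebra 𝒪 Δ) (HM M ((taut 𝒪 τ) ^ 2) (MonoidAlgebra 𝒪 Δ))}
  [Module.Finite 𝒪 H] [Module.Free 𝒪 H]
  {T : Type} [CommRing T] [IsLocalRing T] [Algebra 𝒪 T] [Module.Finite 𝒪 T]
  (act : T →ₐ[𝒪] Module.End 𝒪 H) (δT : Δ →* T)
  (hδ : ∀ δ (y : H), act (δT δ) y = (MonoidAlgebra.single δ (1 : 𝒪)) • y)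
  (tT : {ℓ : Nat.Primes // (ℓ : ℕ) ∉ (↑S : Set ℕ)} → T)
  (ht : ∀ ℓ (y : H), ((act (tT ℓ) y : H) : HM M ((taut 𝒪 τ) ^ 2) (MonoidAlgebra 𝒪 Δ)) =
      nop (taut 𝒪 τ) (↑S : Set ℕ) ℓ (y : HM M ((taut 𝒪 τ) ^ 2) (MonoidAlgebra 𝒪 Δ)))
  (ℓ0 : {ℓ : Nat.Primes // (ℓ : ℕ) ∉ (↑S : Set ℕ)}) (hℓ0 : ((ℓ0.1 : ℕ) : ZMod M) = 1)
  (hunit : Function.Injective (act (tT ℓ0 - ((ℓ0.1 : ℕ) + 1))))

set_option maxHeartbeats 1600000 in
include hM hq hqm hS hδ ht hℓ0 hunit in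
/-- **The norm elements agree.** `d = δT δ` where `δ` generates the image of the inertia group
at `q` in `Δ`. -/
theorem nOp_theta_eq_H (h36 : Stmt36) (hlow : UnipLow p S)
    (hp𝒪 : (p : 𝒪) ∈ IsLocalRing.maximalIdeal 𝒪)
    (hp2 : p ≠ 2) (hpS : p ∈ S) (hqp : q ≠ p)
    {R : Type} [CommRing R] [IsLocalRing R] (ρ : GaloisRepAdic R) {κ : R} (hκ : 2 * κ = 1)
    (habs : ρ.residual.IsAbsolutelyIrreducible) (hodd : ρ.residual.IsOdd) (tR : ℕ → R)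
    (htR : ∀ ℓ : ℕ, ℓ.Prime → ℓ ∉ (↑S : Set ℕ) → ∀ A : ValuationSubring (AlgebraicClosure ℚ),
      A.LiesOverPrime ℓ → ∀ σ : AlgebraicClosure ℚ ≃ₐ[ℚ] AlgebraicClosure ℚ,
      A.IsFrobeniusAt σ ℓ →
        LinearMap.charpoly (ρ.ρ σ) = X ^ 2 - C (tR ℓ) * X + C (ℓ : R))
    (θ : R) (hθ : ∀ (O' : Type) [CommRing O'] [IsDomain O'] [IsDiscreteValuationRing O']
      [IsAdicComplete (IsLocalRing.maximalIdeal O') O'] [Finite (IsLocalRing.ResidueField O')]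
      [CharZero O'] (y : R →+* O') (hy : IsLocalHom y),
      (ρ.baseChangeAlong y hy).IsUnipotentOnInertiaAt q ↔ y θ = 1)
    (φ : R →+* T) [IsLocalHom φ] (hφ : ∀ ℓ, φ (tR ℓ.1) = tT ℓ)
    {δ : Δ} (hmM : m ∣ M) (hδ1 : ∀ u, ZMod.unitsMap hmM u = 1 → τ u ∈ Subgroup.zpowers δ)
    (hδ2 : ∃ u, ZMod.unitsMap hmM u = 1 ∧ τ u = δ)
    {P : ℕ} (hP : Odd P) (hθP : act (φ θ) ^ P = 1) (hδP : δ ^ P = 1) :
    nOp P (act (φ θ)) = nOp P (act (δT δ)) := by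
  subst hM
  have hq0 : NeZero q := ⟨hq.ne_zero⟩
  have hm0 : NeZero m := ⟨right_ne_zero_of_mul (NeZero.ne (q * m))⟩
  have htf : Module.IsTorsionFree 𝒪 H := inferInstance
  refine nOp_theta_eq h36 hlow hp𝒪 hp2 hpS hq hqp ρ hκ habs hodd tR htR θ hθ φ (δT δ) act
    hP.pos hθP (by rw [← map_pow, ← map_pow, hδP, map_one, map_one]) ?_
  rintro x ⟨v, hv, hx⟩
  have ha : ∀ ℓ : {ℓ : Nat.Primes // (ℓ : ℕ) ∉ (↑S : Set ℕ)},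
      (fun n : ℕ => x (φ (tR n))) ℓ.1 = x (tT ℓ) := fun ℓ => by rw [← hφ]
  exact ⟨fun hd => occursLow_of_point hq hqm hS τ act δT hδ tT ht ℓ0 hℓ0 hunit x ha hv hx hδ1 hd,
    fun hd => occursSq_of_point hq hqm hS τ act δT hδ tT ht ℓ0 hℓ0 hunit x ha hv hx hδ2
      (hP.of_dvd_nat (orderOf_dvd_of_pow_eq_one hδP)) hd⟩

end Norm

end Fermat.Agent.RT
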