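import Fermat.Agent.RTD.TWLocal

/-!
# A tame generator with trace two forces unipotent inertia
-/

set_option autoImplicit false

namespace Fermat.Agent.RT

open Matrix IsLocalRing GaloisRep
open scoped Pointwise
open Fermat.Agent.S53norm (GQ M2 HasMat MemI exists_hasMat_adic exists_hasMat_res isEquiv_of_hasMat)
open Fermat.Agent.TW Fermat.Agent.RTD

/-- powers of a `2 × 2`-matrix with trace `2` and determinant `1`. -/
theorem trace_pow_of_trace_two {B : Type} [CommRing B] {X : M2 B} (ht : X.trace = 2)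
    (hd : X.det = 1) (i : ℕ) : (X ^ i).trace = 2 := by
  have h0 : (X - 1) * (X - 1) = 0 := by
    rw [trace_fin_two] at ht
    rw [det_fin_two] at hd
    ext a b
    fin_cases a <;> fin_cases b <;>
      simp [Matrix.mul_apply, Fin.sum_univ_two, Matrix.sub_apply]
    · linear_combination (X 0 0) * ht - hd
    · linear_combination (X 0 1) * ht
    · linear_combination (X 1 0) * ht
    · linear_combination (X 1 1) * ht - hd
  have h1 : ∀ i : ℕ, X ^ i = 1 + (i : ℕ) • (X - 1) := by
    intro i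
    induction i with
    | zero => simp
    | succ i ih =>
      have h2 : (X - 1) * X = X - 1 := by
        have h3 : (X - 1) * X = (X - 1) * (X - 1) + (X - 1) := by noncomm_ring
        rw [h3, h0, zero_add]
      rw [pow_succ, ih, add_mul, one_mul, smul_mul_assoc, h2, add_smul, one_smul]
      abel
  rw [h1, trace_add, trace_smul, trace_sub, ht, trace_one]
  simp

variable {B : Type} [CommRing B] [IsDomain B] [IsDiscreteValuationRing B]
  [IsAdicComplete (maximalIdeal B) B] {ρ : GaloisRepAdic B}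
  {A : ValuationSubring (AlgebraicClosure ℚ)} {p q : ℕ}

/-- **A tame generator with trace two forces unipotent inertia.** -/
theorem isUnipotentOnInertiaAt_of_trace_eq_two (hp : (p : B) ∈ maximalIdeal B) [hpf : Fact p.Prime]
    (hd : ρ.DetIsCyclotomic p) (hq : q.Prime) (hqp : q ≠ p) (hA : A.LiesOverPrime q)
    (hur : ∀ σ ∈ A.inertiaSubgroupIn ℚ, ρ.residual.ρ σ = 1)
    {σ₀ : GQ} (hσ₀ : IsTameGen A p q σ₀) (htr : ρ.trace σ₀ = 2) :
    ρ.IsUnipotentOnInertiaAt q := by
  obtain ⟨r, hr⟩ := exists_hom_hasMat ρ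
  obtain ⟨hd1, -⟩ := det_of_cyclotomic (𝒪 := B) hp hd hr hq hqp hA
  have hI : ∀ σ ∈ A.inertiaSubgroupIn ℚ, MemI (maximalIdeal B) (r σ - 1) := by
    intro σ hσ i j
    have h1 := (hasMat_eq_one_iff hr.residual σ).mp (hur σ hσ)
    rw [← residue_eq_zero_iff, Matrix.sub_apply, map_sub, sub_eq_zero]
    have h2 := congrFun (congrFun h1 i) j
    rw [Matrix.map_apply] at h2
    rw [h2]
    by_cases hij : i = j
    · subst hij; simp
    · simp [hij]
  have htr' : (r σ₀).trace = 2 := by
    obtain ⟨e, he⟩ := hr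
    rw [← htr, GaloisRepAdic.trace, ← LinearMap.trace_conj' (ρ.ρ σ₀) e, conj_eq_toLin' e he,
      Matrix.trace_toLin'_eq]
  have key : ∀ τ ∈ A.inertiaSubgroupIn ℚ, (r τ).trace = 2 := by
    intro τ hτ
    have hH : IsHausdorff (maximalIdeal B) B := inferInstance
    rw [← sub_eq_zero]
    refine hH.haus _ fun n => ?_
    rw [SModEq.zero, smul_eq_mul, Ideal.mul_top]
    obtain ⟨i, hi⟩ := adic_inertia_approx hq hA hqp hp hr.isCont hI hσ₀ hτ n
    rw [← trace_pow_of_trace_two htr' (hd1 σ₀ hσ₀.1) i, ← trace_sub, trace_fin_two]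
    exact Ideal.add_mem _ (hi 0 0) (hi 1 1)
  intro P hP σ hσ
  obtain ⟨g, rfl⟩ := Frob.exists_smul_eq hq hA hP
  have h1 := Fermat.Agent.CFT.SKummer.conj_mem_inertia hσ
  rw [hasMat_charpoly hr, RTD.charpoly_eq_iff]
  have hconj : r σ = r g * r (g⁻¹ * σ * g) * r g⁻¹ := by
    rw [← map_mul, ← map_mul]
    congr 1
    group
  have hg : r g⁻¹ * r g = 1 := by rw [← map_mul, inv_mul_cancel, map_one]
  constructor
  · rw [hconj, Matrix.trace_mul_comm, ← mul_assoc, hg, one_mul]
    exact key _ h1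
  · rw [hconj, Matrix.det_mul, mul_comm, ← Matrix.det_mul, ← mul_assoc, hg, one_mul]
    exact hd1 _ h1

end Fermat.Agent.RT
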