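import Fermat.Agent.RT.NTheta
import Fermat.Agent.RT.TraceTwo

/-!
# Specialisations of a Galois representation at points occurring on `q²`-new forms
-/

set_option autoImplicit false
set_option linter.style.haveILetI false

open Polynomial CuspForm CongruenceSubgroup ModularFormClass
open scoped TensorProduct

namespace Fermat.Agent.RT

open Fermat.Agent.HeckeRep Fermat.Agent.S30aux ModularCurve

/-- the absolute Galois group -/
local notation "GQ'" => (AlgebraicClosure ℚ ≃ₐ[ℚ] AlgebraicClosure ℚ)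

variable {𝒪 : Type} [CommRing 𝒪] [IsDomain 𝒪] [IsDiscreteValuationRing 𝒪]
  [IsAdicComplete (IsLocalRing.maximalIdeal 𝒪) 𝒪] [Finite (IsLocalRing.ResidueField 𝒪)]
  [CharZero 𝒪] [Algebra 𝒪 ℂ] [FaithfulSMul 𝒪 ℂ] {p : ℕ} [Fact p.Prime] {S : Finset ℕ}

/-- At a point `x` of `T` whose eigenvalues occur on a newform with `q²` exactly dividing its
level, the specialisation of the Galois representation is not unipotent on inertia at `q`. -/
theorem exists_spec_not_unipotent (h36 : Stmt36)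
    (hp𝒪 : (p : 𝒪) ∈ IsLocalRing.maximalIdeal 𝒪)
    (hp2 : p ≠ 2) (hpS : p ∈ S) {q : ℕ} (hq : q.Prime) (hqp : q ≠ p)
    {T : Type} [CommRing T] [IsLocalRing T] [Algebra 𝒪 T] [Module.Finite 𝒪 T]
    (ρ : GaloisRepAdic T) {κ : T} (hκ : 2 * κ = 1)
    (habs : ρ.residual.IsAbsolutelyIrreducible) (hodd : ρ.residual.IsOdd) (τ : ℕ → T)
    (hτ : ∀ ℓ : ℕ, ℓ.Prime → ℓ ∉ (↑S : Set ℕ) → ∀ A : ValuationSubring (AlgebraicClosure ℚ),
      A.LiesOverPrime ℓ → ∀ σ : GQ', A.IsFrobeniusAt σ ℓ →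
        LinearMap.charpoly (ρ.ρ σ) = X ^ 2 - C (τ ℓ) * X + C (ℓ : T))
    (x : T →ₐ[𝒪] ℂ) (H2 : OccursSq S q (fun ℓ => x (τ ℓ))) :
    ∃ (O' : Type) (_ : CommRing O') (_ : IsDomain O') (_ : IsDiscreteValuationRing O')
      (_ : IsAdicComplete (IsLocalRing.maximalIdeal O') O')
      (_ : Finite (IsLocalRing.ResidueField O')) (_ : CharZero O')
      (y : T →+* O') (hy : IsLocalHom y) (i : O' →+* ℂ), Function.Injective i ∧
      (∀ t, i (y t) = x t) ∧ (p : O') ∈ IsLocalRing.maximalIdeal O' ∧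
      ¬ (ρ.baseChangeAlong y hy).IsUnipotentOnInertiaAt q := by
  obtain ⟨O', _, _, _, _, _, _, _, _, _, y, i, hinj, hi, hiy⟩ := exists_dvr_ext x
  have hiy' : ∀ t, i (y t) = x t := fun t => by rw [← hiy]; rfl
  have hloc : IsLocalHom (y : T →+* O') := by
    refine isLocalHom_of_isIntegral _ ?_
    have h1 : (algebraMap 𝒪 O').IsIntegral := algebraMap_isIntegral_iff.mpr inferInstance
    rw [← AlgHom.comp_algebraMap y] at h1
    exact RingHom.IsIntegral.tower_top _ _ h1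
  set ρx : GaloisRepAdic O' := ρ.baseChangeAlong (y : T →+* O') hloc with hρx
  have hpO' : (p : O') ∈ IsLocalRing.maximalIdeal O' := by
    have h := map_nonunit (algebraMap 𝒪 O') (p : 𝒪) hp𝒪
    rwa [map_natCast] at h
  have hch : ∀ g : GQ', (ρx.ρ g).charpoly = (ρ.ρ g).charpoly.map (y : T →+* O') :=
    charpoly_baseChangeAlong_adic _ hloc ρ
  have hfrob : ∀ ℓ : ℕ, ℓ.Prime → ℓ ∉ (↑S : Set ℕ) → ∀ A : ValuationSubring (AlgebraicClosure ℚ),
      A.LiesOverPrime ℓ → ∀ σ : GQ', A.IsFrobeniusAt σ ℓ →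
        LinearMap.charpoly (ρx.ρ σ) = X ^ 2 - C (y (τ ℓ)) * X + C (ℓ : O') := by
    intro ℓ hℓ hℓS A hA σ hσ
    rw [hch, hτ ℓ hℓ hℓS A hA σ hσ]
    simp
  obtain ⟨habs', hodd'⟩ := residual_absIrr_odd (y : T →+* O') hκ hch habs hodd
  refine ⟨O', inferInstance, inferInstance, inferInstance, inferInstance, inferInstance,
    inferInstance, (y : T →+* O'), hloc, (i : O' →+* ℂ), hi, hiy', hpO', ?_⟩
  obtain ⟨M₁, _, g, hg, hM₁, hM₁S, hga⟩ := H2
  set chig := S29aux.eigenChar hg.isNormalizedEigenform (↑S : Set ℕ) with hchigdef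
  have hchig : ∀ (ℓ : ℕ) (hℓ : ℓ.Prime) (hℓM : ¬ ℓ ∣ M₁) (hℓS : ℓ ∉ (↑S : Set ℕ)),
      chig (CuspForm.heckeAlgebra.T hℓ hℓM hℓS) = qCoeff g ℓ := fun ℓ hℓ hℓM hℓS =>
    S29aux.eigenChar_T hg.isNormalizedEigenform (↑S : Set ℕ) hℓ hℓM hℓS
  have hrange : ∀ a ∈ chig.range, a ∈ (i : O' →+* ℂ).range := by
    rintro _ ⟨t, rfl⟩
    refine heckeAlgebra_mem_range hM₁S chig _ (fun ℓ hℓ hℓN hℓS => ?_) t
    exact ⟨y (τ ℓ), by
      rw [hchig ℓ hℓ hℓN hℓS, hga ℓ hℓ hℓS]; exact hiy' _⟩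
  obtain ⟨iota, hiota⟩ := exists_section (i : O' →+* ℂ) hi chig.range hrange
  refine not_unipotent_of_factorization_eq_two h36 hg hpO' hp2 chig
    hchig iota hpS hM₁S ρx ?_ habs' hodd' hq hqp hM₁
  intro ℓ hℓ hℓM hℓS A hA σ hσ
  rw [hfrob ℓ hℓ hℓS A hA σ hσ]
  congr 4
  apply hi
  rw [hiy']
  have h2 := hiota (chig.rangeRestrict (CuspForm.heckeAlgebra.T hℓ hℓM hℓS))
  refine Eq.trans ?_ h2.symm
  rw [RingHom.coe_rangeRestrict, hchig ℓ hℓ hℓM hℓS, hga ℓ hℓ hℓS]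

theorem trace_baseChangeAlong_adic {A B : Type} [CommRing A] [IsLocalRing A] [CommRing B]
    [IsLocalRing B] (φ : A →+* B) (hφ : IsLocalHom φ) (ρ : GaloisRepAdic A) (g : GQ') :
    (ρ.baseChangeAlong φ hφ).trace g = φ (ρ.trace g) := by
  letI : Algebra A B := φ.toAlgebra
  exact LinearMap.trace_baseChange (ρ.ρ g) B

theorem detIsCyclotomic_baseChangeAlong {A B : Type} [CommRing A] [IsLocalRing A] [CommRing B]
    [IsLocalRing B] (φ : A →+* B) (hφ : IsLocalHom φ) {ρ : GaloisRepAdic A} {p : ℕ}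
    (h : ρ.DetIsCyclotomic p) : (ρ.baseChangeAlong φ hφ).DetIsCyclotomic p := by
  refine ⟨?_, fun n σ a ha => ?_⟩
  · have h1 := map_nonunit φ (p : A) h.1
    rwa [map_natCast] at h1
  · have h1 := h.2 n σ a ha
    have h2 : LinearMap.det ((ρ.baseChangeAlong φ hφ).ρ σ) = φ (LinearMap.det (ρ.ρ σ)) := by
      letI : Algebra A B := φ.toAlgebra
      exact LinearMap.det_baseChange (ρ.ρ σ)
    rw [h2]
    rw [Ideal.mem_span_singleton'] at h1 ⊢
    obtain ⟨c, hc⟩ := h1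
    refine ⟨φ c, ?_⟩
    have h3 := congrArg φ hc
    rw [map_mul, map_natCast, map_sub, map_natCast] at h3
    exact h3

/-- the base change of a residually trivial element is residually trivial. -/
theorem residual_baseChangeAlong_eq_one {A B : Type} [CommRing A] [IsLocalRing A] [CommRing B]
    [IsLocalRing B] (φ : A →+* B) (hφ : IsLocalHom φ) {ρ : GaloisRepAdic A} {g : GQ'}
    (h : ρ.residual.ρ g = 1) : (ρ.baseChangeAlong φ hφ).residual.ρ g = 1 := by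
  obtain ⟨r, hr⟩ := RTD.exists_hom_hasMat ρ
  have h1 := (RTD.hasMat_eq_one_iff hr.residual g).mp h
  have h2 := (hr.baseChangeAlong φ hφ).residual
  rw [RTD.hasMat_eq_one_iff h2]
  ext i j
  have h3 := congrFun (congrFun h1 i) j
  have h4 : IsLocalRing.residue B (φ (r g i j)) =
      IsLocalRing.ResidueField.map φ (IsLocalRing.residue A (r g i j)) := rfl
  rw [Matrix.map_apply] at h3
  show IsLocalRing.residue B (φ (r g i j)) = _
  rw [h4, h3]
  by_cases hij : i = j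
  · subst hij; simp
  · simp [hij]

/-- **The trace of a tame generator at a point occurring on a `q²`-new form is not two.** -/
theorem trace_ne_two (h36 : Stmt36)
    (hp𝒪 : (p : 𝒪) ∈ IsLocalRing.maximalIdeal 𝒪)
    (hp2 : p ≠ 2) (hpS : p ∈ S) {q : ℕ} (hq : q.Prime) (hqp : q ≠ p)
    {T : Type} [CommRing T] [IsLocalRing T] [Algebra 𝒪 T] [Module.Finite 𝒪 T]
    (ρ : GaloisRepAdic T) {κ : T} (hκ : 2 * κ = 1) (hd : ρ.DetIsCyclotomic p)
    (habs : ρ.residual.IsAbsolutelyIrreducible) (hodd : ρ.residual.IsOdd) (τ : ℕ → T)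
    (hτ : ∀ ℓ : ℕ, ℓ.Prime → ℓ ∉ (↑S : Set ℕ) → ∀ A : ValuationSubring (AlgebraicClosure ℚ),
      A.LiesOverPrime ℓ → ∀ σ : GQ', A.IsFrobeniusAt σ ℓ →
        LinearMap.charpoly (ρ.ρ σ) = X ^ 2 - C (τ ℓ) * X + C (ℓ : T))
    {A : ValuationSubring (AlgebraicClosure ℚ)} (hA : A.LiesOverPrime q)
    (hur : ∀ σ ∈ A.inertiaSubgroupIn ℚ, ρ.residual.ρ σ = 1)
    {σ₀ : GQ'} (hσ₀ : RTD.IsTameGen A p q σ₀)
    (x : T →ₐ[𝒪] ℂ) (H2 : OccursSq S q (fun ℓ => x (τ ℓ))) :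
    x (ρ.trace σ₀ - 2) ≠ 0 := by
  intro hcon
  obtain ⟨O', _, _, _, _, _, _, y, hy, i, hi, hiy, hpO', hnot⟩ :=
    exists_spec_not_unipotent h36 hp𝒪 hp2 hpS hq hqp ρ hκ habs hodd τ hτ x H2
  refine hnot (isUnipotentOnInertiaAt_of_trace_eq_two hpO'
    (detIsCyclotomic_baseChangeAlong y hy hd) hq hqp hA
    (fun σ hσ => residual_baseChangeAlong_eq_one y hy (hur σ hσ)) hσ₀ ?_)
  rw [trace_baseChangeAlong_adic]
  have h1 : y (ρ.trace σ₀ - 2) = 0 := hi (by rw [hiy, hcon, map_zero])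
  rw [map_sub, map_ofNat, sub_eq_zero] at h1
  exact h1

end Fermat.Agent.RT
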