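import Fermat.Agent.RT.OccursH
import Fermat.Agent.RT.RamSpec
import Fermat.Agent.RT.KerChi

/-!
# The trace of a tame generator on the family of ramified nebentypus
-/

set_option autoImplicit false
set_option linter.style.haveILetI false

noncomputable section

open CongruenceSubgroup Polynomial CuspForm
open scoped MatrixGroups TensorProduct

namespace Fermat.Agent.RT

open Fermat.Agent.TwHecke Fermat.Agent.TwExact Fermat.Agent.HeckeRep Fermat.Agent.TwES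

section Eigen

variable {M : ℕ} [NeZero M] {𝒪 : Type*} [CommRing 𝒪] [IsDomain 𝒪] [Algebra 𝒪 ℂ]
  [FaithfulSMul 𝒪 ℂ] {Δ : Type*} [CommGroup Δ] [Fintype Δ] (τ : (ZMod M)ˣ →* Δ)
  (H : Submodule (MonoidAlgebra 𝒪 Δ) (HM M ((taut 𝒪 τ) ^ 2) (MonoidAlgebra 𝒪 Δ)))

/-- Eigenvectors over `ℂ`, in terms of families of operators. -/
theorem exists_eigen' [Module.IsTorsionFree 𝒪 H] {S : Set ℕ}
    (dE : Δ → Module.End 𝒪 H)
    (hδ : ∀ δ (y : H), dE δ y = (MonoidAlgebra.single δ (1 : 𝒪)) • y)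
    (tE : {ℓ : Nat.Primes // (ℓ : ℕ) ∉ S} → Module.End 𝒪 H)
    (ht : ∀ ℓ (y : H), ((tE ℓ y : H) : HM M ((taut 𝒪 τ) ^ 2) (MonoidAlgebra 𝒪 Δ)) =
      nop (taut 𝒪 τ) S ℓ (y : HM M ((taut 𝒪 τ) ^ 2) (MonoidAlgebra 𝒪 Δ)))
    {g : Δ → ℂ} {a : {ℓ : Nat.Primes // (ℓ : ℕ) ∉ S} → ℂ} {v : ℂ ⊗[𝒪] H} (hv : v ≠ 0)
    (hg : ∀ δ, (dE δ).baseChange ℂ v = g δ • v)
    (ha : ∀ ℓ, (tE ℓ).baseChange ℂ v = a ℓ • v) :
    ∃ χ : Δ →* ℂˣ, (∀ δ, ((χ δ : ℂˣ) : ℂ) = g δ) ∧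
      ∃ y : HM M ((χ.comp τ) ^ 2) ℂ, y ≠ 0 ∧ ∀ ℓ, nop (χ.comp τ) S ℓ y = a ℓ • y := by
  obtain ⟨χ, hχ⟩ := exists_pushC_ne_zero τ H hv
  refine ⟨χ, fun δ => ?_, (pushJ τ H χ).liftBaseChange ℂ v, hχ, fun ℓ => ?_⟩
  · exact smul_left_injective ℂ hχ (smul_eigen_of_liftBaseChange (pushJ τ H χ) (dE δ)
      (fun y => (congrArg (pushJ τ H χ) (hδ δ y)).trans (pushJ_single τ H χ δ y)) (hg δ))
  · refine eigen_of_liftBaseChange (pushJ τ H χ) (tE ℓ) _ (fun y => ?_) (ha ℓ)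
    rw [pushJ_apply, pushJ_apply, ht, pushL_nop]

end Eigen

section Joint

variable {𝒪 : Type*} [CommRing 𝒪] [IsDomain 𝒪] [IsPrincipalIdealRing 𝒪] [Algebra 𝒪 ℂ]
  [FaithfulSMul 𝒪 ℂ] {H : Type*} [AddCommGroup H] [Module 𝒪 H] [Module.Finite 𝒪 H]
  [Module.IsTorsionFree 𝒪 H] {I : Type*} (F : I → Module.End 𝒪 H)

/-- a joint eigenvector in the complexification of a stable submodule -/
theorem exists_joint_eigen (hF : ∀ i j, Commute (F i) (F j)) (W : Submodule 𝒪 H) (hW : W ≠ ⊥)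
    (hstab : ∀ i, ∀ w ∈ W, F i w ∈ W) :
    ∃ (χ : I → ℂ) (v : ℂ ⊗[𝒪] H), v ≠ 0 ∧ (∀ i, (F i).baseChange ℂ v = χ i • v) ∧
      ∃ w : ℂ ⊗[𝒪] W, W.subtype.baseChange ℂ w = v := by
  have hfin : Module.Finite 𝒪 W := inferInstance
  have hfree : Module.Free 𝒪 W := inferInstance
  have hnt : Nontrivial W := Submodule.nontrivial_iff_ne_bot.mpr hW
  have hpos : 0 < Module.finrank ℂ (ℂ ⊗[𝒪] W) := by
    rw [Module.finrank_baseChange]
    exact Module.finrank_pos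
  have : Nontrivial (ℂ ⊗[𝒪] W) := Module.nontrivial_of_finrank_pos hpos
  obtain ⟨χ, w, hw, hχ⟩ := FermatAgent.HeckeEigen.exists_joint_eigenvector (K := ℂ)
    (V := ℂ ⊗[𝒪] W) (fun i => ((F i).restrict (hstab i)).baseChange ℂ) (fun i j => by
      rw [commute_iff_eq, ← LinearMap.baseChange_mul, ← LinearMap.baseChange_mul]
      congr 1
      refine LinearMap.ext fun y => Subtype.ext ?_
      exact congrArg (fun A : Module.End 𝒪 H => A y) (hF i j).eq)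
  have hflat : Module.Flat 𝒪 ℂ := by
    let _ : Algebra (FractionRing 𝒪) ℂ :=
      (IsFractionRing.lift (FaithfulSMul.algebraMap_injective 𝒪 ℂ)).toAlgebra
    have : IsScalarTower 𝒪 (FractionRing 𝒪) ℂ := IsScalarTower.of_algebraMap_eq fun a =>
      (IsFractionRing.lift_algebraMap (FaithfulSMul.algebraMap_injective 𝒪 ℂ) a).symm
    have h1 : Module.Flat 𝒪 (FractionRing 𝒪) := IsLocalization.flat _ (nonZeroDivisors 𝒪)
    exact Module.Flat.trans 𝒪 (FractionRing 𝒪) ℂ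
  have hinj : Function.Injective (W.subtype.baseChange ℂ) :=
    Module.Flat.lTensor_preserves_injective_linearMap (M := ℂ) W.subtype W.injective_subtype
  refine ⟨χ, W.subtype.baseChange ℂ w, ?_, fun i => ?_, w, rfl⟩
  · intro h0
    exact hw (hinj (by rw [h0, map_zero]))
  · rw [← map_smul, ← hχ i]
    show ((F i).baseChange ℂ ∘ₗ W.subtype.baseChange ℂ) w = (W.subtype.baseChange ℂ ∘ₗ
      ((F i).restrict (hstab i)).baseChange ℂ) w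
    rw [← LinearMap.baseChange_comp, ← LinearMap.baseChange_comp]
    rfl

omit [IsDomain 𝒪] [IsPrincipalIdealRing 𝒪] [FaithfulSMul 𝒪 ℂ] [Module.Finite 𝒪 H]
  [Module.IsTorsionFree 𝒪 H] in
/-- an endomorphism vanishing on the stable submodule kills the eigenvector -/
theorem baseChange_eq_zero_of_le (W : Submodule 𝒪 H) (G : Module.End 𝒪 H)
    (hG : ∀ w ∈ W, G w = 0) {v : ℂ ⊗[𝒪] H} (hv : ∃ w : ℂ ⊗[𝒪] W, W.subtype.baseChange ℂ w = v) :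
    G.baseChange ℂ v = 0 := by
  obtain ⟨w, rfl⟩ := hv
  show (G.baseChange ℂ ∘ₗ W.subtype.baseChange ℂ) w = 0
  rw [← LinearMap.baseChange_comp]
  have h1 : G ∘ₗ W.subtype = 0 := LinearMap.ext fun y => hG y y.2
  rw [h1, LinearMap.baseChange_zero, LinearMap.zero_apply]

end Joint

section Comm

variable {𝒪 : Type*} [CommRing 𝒪] {Δ : Type*} [CommGroup Δ] {H : Type*} [AddCommGroup H]
  [Module (MonoidAlgebra 𝒪 Δ) H] [Module 𝒪 H] [IsScalarTower 𝒪 (MonoidAlgebra 𝒪 Δ) H]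

/-- an endomorphism commuting with the group elements is linear over the group ring -/
theorem comm_of_single (G : Module.End 𝒪 H)
    (h : ∀ (δ : Δ) (y : H), G ((MonoidAlgebra.single δ (1 : 𝒪) : MonoidAlgebra 𝒪 Δ) • y) =
      (MonoidAlgebra.single δ (1 : 𝒪) : MonoidAlgebra 𝒪 Δ) • G y) (a : MonoidAlgebra 𝒪 Δ) (y : H) :
    G (a • y) = a • G y := by
  induction a using MonoidAlgebra.induction_linear with
  | zero => rw [zero_smul, zero_smul, map_zero]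
  | add a b ha hb => rw [add_smul, add_smul, map_add, ha, hb]
  | single δ c =>
    have h1 : MonoidAlgebra.single δ c = c • MonoidAlgebra.single δ (1 : 𝒪) := by
      rw [MonoidAlgebra.smul_single, smul_eq_mul, mul_one]
    rw [h1, smul_assoc, smul_assoc, map_smul, h]

/-- the action of a group element as an endomorphism -/
def dEnd (𝒪 : Type*) [CommRing 𝒪] {Δ : Type*} [CommGroup Δ] (H : Type*) [AddCommGroup H]
    [Module (MonoidAlgebra 𝒪 Δ) H] [Module 𝒪 H] [IsScalarTower 𝒪 (MonoidAlgebra 𝒪 Δ) H]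
    (a : MonoidAlgebra 𝒪 Δ) : Module.End 𝒪 H where
  toFun y := a • y
  map_add' := smul_add a
  map_smul' c y := by
    rw [RingHom.id_apply, ← algebraMap_smul (MonoidAlgebra 𝒪 Δ) c y,
      ← algebraMap_smul (MonoidAlgebra 𝒪 Δ) c (a • y), smul_smul, smul_smul, mul_comm]

@[simp] theorem dEnd_apply (a : MonoidAlgebra 𝒪 Δ) (y : H) : dEnd 𝒪 H a y = a • y := rfl

end Comm

section Point

variable {𝒪 : Type*} [CommRing 𝒪] [IsDomain 𝒪] [IsPrincipalIdealRing 𝒪] [Algebra 𝒪 ℂ]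
  [FaithfulSMul 𝒪 ℂ] {Δ : Type*} [CommGroup Δ] [Fintype Δ] {H : Type*} [AddCommGroup H]
  [Module (MonoidAlgebra 𝒪 Δ) H] [Module 𝒪 H] [IsScalarTower 𝒪 (MonoidAlgebra 𝒪 Δ) H]
  [Module.Finite 𝒪 H] [Module.IsTorsionFree 𝒪 H]
  {T : Type*} [CommRing T] [Algebra 𝒪 T] (act : T →ₐ[𝒪] Module.End 𝒪 H)
  (hcomm : ∀ t (δ : Δ) (y : H), act t ((MonoidAlgebra.single δ (1 : 𝒪) : MonoidAlgebra 𝒪 Δ) • y) =
    (MonoidAlgebra.single δ (1 : 𝒪) : MonoidAlgebra 𝒪 Δ) • act t y)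

include hcomm in
/-- a joint eigenvector killed by `s` and by the sum over the group -/
theorem exists_point_killed (s : T) {y : H} (hy0 : y ≠ 0) (hs : act s y = 0)
    (hN : sumΔ 𝒪 Δ • y = 0) :
    ∃ (x : T →ₐ[𝒪] ℂ) (g : Δ → ℂ) (v : ℂ ⊗[𝒪] H), v ≠ 0 ∧
      (∀ t, (act t).baseChange ℂ v = x t • v) ∧
      (∀ δ, (dEnd 𝒪 H (MonoidAlgebra.single δ (1 : 𝒪))).baseChange ℂ v = g δ • v) ∧
      x s = 0 ∧ ∑ δ, g δ = 0 := by
  have hc := fun t => comm_of_single (act t) (hcomm t)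
  let W : Submodule 𝒪 H := LinearMap.ker (act s) ⊓ LinearMap.ker (dEnd 𝒪 H (sumΔ 𝒪 Δ))
  have hmem : ∀ w, w ∈ W ↔ act s w = 0 ∧ sumΔ 𝒪 Δ • w = 0 := fun w => Iff.rfl
  have hW : W ≠ ⊥ := fun h => hy0 (by
    have : y ∈ W := (hmem y).mpr ⟨hs, hN⟩
    rw [h] at this
    exact (Submodule.mem_bot 𝒪).mp this)
  let F : T ⊕ Δ → Module.End 𝒪 H :=
    Sum.elim (fun t => act t) (fun δ => dEnd 𝒪 H (MonoidAlgebra.single δ (1 : 𝒪)))
  have hF : ∀ i j, Commute (F i) (F j) := by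
    rintro (t | δ) (t' | δ')
    · exact (Commute.all t t').map act
    · exact LinearMap.ext fun y => hc t _ y
    · exact LinearMap.ext fun y => (hc t' _ y).symm
    · exact LinearMap.ext fun y => by
        show MonoidAlgebra.single δ (1 : 𝒪) • MonoidAlgebra.single δ' (1 : 𝒪) • y =
          MonoidAlgebra.single δ' (1 : 𝒪) • MonoidAlgebra.single δ (1 : 𝒪) • y
        rw [smul_smul, smul_smul, mul_comm]
  have hstab : ∀ i, ∀ w ∈ W, F i w ∈ W := by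
    rintro (t | δ) w hw
    · rw [hmem] at hw ⊢
      constructor
      · show act s (act t w) = 0
        rw [← Module.End.mul_apply, ← map_mul, mul_comm, map_mul, Module.End.mul_apply, hw.1,
          map_zero]
      · show sumΔ 𝒪 Δ • act t w = 0
        rw [← hc, hw.2, map_zero]
    · rw [hmem] at hw ⊢
      constructor
      · show act s (MonoidAlgebra.single δ (1 : 𝒪) • w) = 0
        rw [hc, hw.1, smul_zero]
      · show sumΔ 𝒪 Δ • MonoidAlgebra.single δ (1 : 𝒪) • w = 0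
        rw [smul_smul, mul_comm, ← smul_smul, hw.2, smul_zero]
  obtain ⟨χ, v, hv, hχ, hvW⟩ := exists_joint_eigen F hF W hW hstab
  obtain ⟨x, hx, -⟩ := exists_point_of_eigen act hv (fun t : T => t) (fun t => χ (Sum.inl t))
    (fun t => hχ (Sum.inl t))
  refine ⟨x, fun δ => χ (Sum.inr δ), v, hv, fun t => by rw [hx]; exact hχ (Sum.inl t),
    fun δ => hχ (Sum.inr δ), ?_, ?_⟩
  · have h1 : (act s).baseChange ℂ v = 0 :=
      baseChange_eq_zero_of_le W _ (fun w hw => ((hmem w).mp hw).1) hvW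
    have h2 := hχ (Sum.inl s)
    have h3 : (F (Sum.inl s)).baseChange ℂ v = 0 := h1
    rw [h3] at h2
    rw [hx]
    exact (smul_eq_zero.mp h2.symm).resolve_right hv
  · have h1 : (∑ δ : Δ, dEnd 𝒪 H (MonoidAlgebra.single δ (1 : 𝒪))).baseChange ℂ v = 0 := by
      refine baseChange_eq_zero_of_le W _ (fun w hw => ?_) hvW
      rw [LinearMap.sum_apply, ← ((hmem w).mp hw).2, sumΔ, Finset.sum_smul]
      rfl
    have h2 : (∑ δ : Δ, dEnd 𝒪 H (MonoidAlgebra.single δ (1 : 𝒪))).baseChange ℂ v =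
        (∑ δ : Δ, χ (Sum.inr δ)) • v := by
      rw [← LinearMap.baseChangeHom_apply, map_sum, LinearMap.sum_apply, Finset.sum_smul]
      exact Finset.sum_congr rfl fun δ _ => hχ (Sum.inr δ)
    rw [h1] at h2
    exact (smul_eq_zero.mp h2.symm).resolve_right hv

end Point

section Main

variable {𝒪 : Type} [CommRing 𝒪] [IsDomain 𝒪] [IsDiscreteValuationRing 𝒪]
  [IsAdicComplete (IsLocalRing.maximalIdeal 𝒪) 𝒪] [Finite (IsLocalRing.ResidueField 𝒪)]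
  [CharZero 𝒪] [Algebra 𝒪 ℂ] [FaithfulSMul 𝒪 ℂ] {p : ℕ} [Fact p.Prime]
  {M m q : ℕ} [NeZero M] (hM : M = q * m) (hq : q.Prime) (hqm : ¬ q ∣ m)
  {S : Finset ℕ} (hS : ∀ ℓ : ℕ, ℓ.Prime → ℓ ∣ M → ℓ ∈ S)
  {Δ : Type*} [CommGroup Δ] [Fintype Δ] (τ : (ZMod M)ˣ →* Δ)
  {H : Submodule (MonoidAlgebra 𝒪 Δ) (HM M ((taut 𝒪 τ) ^ 2) (MonoidAlgebra 𝒪 Δ))}
  [Module.Finite 𝒪 H] [Module.IsTorsionFree 𝒪 H] [Module.Free (MonoidAlgebra 𝒪 Δ) H]
  {T : Type} [CommRing T] [IsLocalRing T] [Algebra 𝒪 T] [Module.Finite 𝒪 T]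
  (act : T →ₐ[𝒪] Module.End 𝒪 H)
  (hcomm : ∀ t (δ : Δ) (y : H), act t ((MonoidAlgebra.single δ (1 : 𝒪) : MonoidAlgebra 𝒪 Δ) • y) =
    (MonoidAlgebra.single δ (1 : 𝒪) : MonoidAlgebra 𝒪 Δ) • act t y)
  (tT : {ℓ : Nat.Primes // (ℓ : ℕ) ∉ (↑S : Set ℕ)} → T)
  (ht : ∀ ℓ (y : H), ((act (tT ℓ) y : H) : HM M ((taut 𝒪 τ) ^ 2) (MonoidAlgebra 𝒪 Δ)) =
      nop (taut 𝒪 τ) (↑S : Set ℕ) ℓ (y : HM M ((taut 𝒪 τ) ^ 2) (MonoidAlgebra 𝒪 Δ)))
  (ℓ0 : {ℓ : Nat.Primes // (ℓ : ℕ) ∉ (↑S : Set ℕ)}) (hℓ0 : ((ℓ0.1 : ℕ) : ZMod M) = 1)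
  (hunit : Function.Injective (act (tT ℓ0 - ((ℓ0.1 : ℕ) + 1))))

omit [IsAdicComplete (IsLocalRing.maximalIdeal 𝒪) 𝒪] [Finite (IsLocalRing.ResidueField 𝒪)]
  [CharZero 𝒪] [IsLocalRing T] [Module.Finite 𝒪 T] in
include hM hq hqm hS hcomm ht hℓ0 hunit in
/-- a point of `T` killing `s` and occurring on a `q²`-new form -/
theorem exists_point_occursSq (hmM : m ∣ M)
    (hτ : ∀ δ : Δ, ∃ u, ZMod.unitsMap hmM u = 1 ∧ τ u = δ) (hΔ : Odd (Nat.card Δ))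
    (s : T) {y : H} (hy0 : y ≠ 0) (hs : act s y = 0) (hN : sumΔ 𝒪 Δ • y = 0)
    {a : (T →ₐ[𝒪] ℂ) → ℕ → ℂ} (ha : ∀ x ℓ, a x ℓ.1 = x (tT ℓ)) :
    ∃ x : T →ₐ[𝒪] ℂ, x s = 0 ∧ OccursSq S q (a x) := by
  subst hM
  have hq0 : NeZero q := ⟨hq.ne_zero⟩
  have hm0 : NeZero m := ⟨right_ne_zero_of_mul (NeZero.ne (q * m))⟩
  obtain ⟨x, g, v, hv, hx, hg, hxs, hsum⟩ := exists_point_killed act hcomm s hy0 hs hN
  obtain ⟨χ, hχ, z, hz0, hz⟩ := exists_eigen' τ H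
    (fun δ => dEnd 𝒪 H (MonoidAlgebra.single δ (1 : 𝒪))) (fun δ y => rfl)
    (fun ℓ => act (tT ℓ)) ht hv hg (fun ℓ => hx (tT ℓ))
  refine ⟨x, hxs, ?_⟩
  have h1 : 1 < q * m := lt_of_lt_of_le hq.one_lt (Nat.le_mul_of_pos_right q (NeZero.pos m))
  have hpar : z ∈ HM.par (q * m) ((χ.comp τ) ^ 2) ℂ := by
    refine mem_par_of_eigen hz ℓ0 hℓ0 (odd_of_cast_eq_one h1 ℓ0.1.2 hℓ0) ?_
    have h2 := point_ne_zero act x hv hx hunit
    rw [map_sub, map_add, map_natCast, map_one] at h2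
    exact sub_ne_zero.mp h2
  obtain ⟨δ, hδ⟩ : ∃ δ, χ δ ≠ 1 := by
    by_contra h
    push Not at h
    have h2 : ∑ δ, g δ = (Fintype.card Δ : ℂ) := by
      rw [Finset.sum_congr rfl fun δ _ => by rw [← hχ, h δ, Units.val_one]]
      rw [Finset.sum_const, Finset.card_univ, nsmul_eq_mul, mul_one]
    rw [h2] at hsum
    exact (Nat.cast_ne_zero.mpr Fintype.card_ne_zero) hsum
  obtain ⟨u, hu, huδ⟩ := hτ δ
  refine occursSq_of_eigen hq hqm hS (χ.comp τ) ⟨u, hu, fun h2 => hδ ?_⟩ hpar hz0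
    (fun ℓ => by rw [hz, ha])
  have h3 : χ δ ^ 2 = 1 := by rw [← huδ]; exact h2
  obtain ⟨k, hk⟩ := hΔ
  have h4 : χ δ ^ Nat.card Δ = 1 := by rw [← map_pow, pow_card_eq_one', map_one]
  rw [hk, pow_succ, pow_mul, h3, one_pow, one_mul] at h4
  exact h4

include hM hq hqm hS hcomm ht hℓ0 hunit in
/-- **The trace of a tame generator is not two on the family specialised at a non-trivial
character.** -/
theorem mem_ker_smul_top_of_trace (h36 : Stmt36) (hp𝒪 : (p : 𝒪) ∈ IsLocalRing.maximalIdeal 𝒪)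
    (hp2 : p ≠ 2) (hpS : p ∈ S) (hqp : q ≠ p) (hmM : m ∣ M)
    (hτ : ∀ δ : Δ, ∃ u, ZMod.unitsMap hmM u = 1 ∧ τ u = δ) (hΔ : Odd (Nat.card Δ))
    (ρ : GaloisRepAdic T) {κ : T} (hκ : 2 * κ = 1) (hd : ρ.DetIsCyclotomic p)
    (habs : ρ.residual.IsAbsolutelyIrreducible) (hodd : ρ.residual.IsOdd)
    (hfrob : ∀ ℓ : {ℓ : Nat.Primes // (ℓ : ℕ) ∉ (↑S : Set ℕ)},
      ∀ A : ValuationSubring (AlgebraicClosure ℚ), A.LiesOverPrime ℓ.1 →
      ∀ σ : AlgebraicClosure ℚ ≃ₐ[ℚ] AlgebraicClosure ℚ, A.IsFrobeniusAt σ ℓ.1 →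
        LinearMap.charpoly (ρ.ρ σ) = X ^ 2 - C (tT ℓ) * X + C (((ℓ.1 : ℕ) : ℕ) : T))
    {A : ValuationSubring (AlgebraicClosure ℚ)} (hA : A.LiesOverPrime q)
    (hur : ∀ σ ∈ A.inertiaSubgroupIn ℚ, ρ.residual.ρ σ = 1)
    {σ₀ : AlgebraicClosure ℚ ≃ₐ[ℚ] AlgebraicClosure ℚ} (hσ₀ : RTD.IsTameGen A p q σ₀)
    {ψ : Δ →* ℂˣ} (hψ : ψ ≠ 1) (y : H)
    (hy : act (ρ.trace σ₀ - 2) y ∈ RingHom.ker (chiO (algebraMap 𝒪 ℂ) ψ) •
      (⊤ : Submodule (MonoidAlgebra 𝒪 Δ) H)) :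
    y ∈ RingHom.ker (chiO (algebraMap 𝒪 ℂ) ψ) • (⊤ : Submodule (MonoidAlgebra 𝒪 Δ) H) := by
  classical
  have hι : Function.Injective (algebraMap 𝒪 ℂ) := FaithfulSMul.algebraMap_injective 𝒪 ℂ
  obtain ⟨e, he, hei⟩ := exists_killer hι ψ
  refine mem_ker_smul_top he ?_
  by_contra hne
  have hc := fun t => comm_of_single (act t) (hcomm t)
  have hkill : ∀ z ∈ RingHom.ker (chiO (algebraMap 𝒪 ℂ) ψ) •
      (⊤ : Submodule (MonoidAlgebra 𝒪 Δ) H), e • z = 0 := by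
    intro z hz
    refine Submodule.smul_induction_on hz (fun i hi w _ => ?_) (fun z w hz hw => ?_)
    · rw [smul_smul, hei i (RingHom.mem_ker.mp hi), zero_smul]
    · rw [smul_add, hz, hw, add_zero]
  let tR : ℕ → T := fun n =>
    if h : n.Prime ∧ n ∉ (↑S : Set ℕ) then tT ⟨⟨n, h.1⟩, h.2⟩ else 0
  have htR : ∀ ℓ : {ℓ : Nat.Primes // (ℓ : ℕ) ∉ (↑S : Set ℕ)}, tR ℓ.1 = tT ℓ := by
    intro ℓ
    have h : (ℓ.1 : ℕ).Prime ∧ (ℓ.1 : ℕ) ∉ (↑S : Set ℕ) := ⟨ℓ.1.2, ℓ.2⟩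
    exact dif_pos h
  obtain ⟨x, hx, hocc⟩ := exists_point_occursSq hM hq hqm hS τ act hcomm tT ht ℓ0 hℓ0 hunit hmM hτ
    hΔ (ρ.trace σ₀ - 2) hne (by rw [hc, hkill _ hy]) (by
      rw [smul_smul, mul_comm, hei _ (chiO_sumΔ_of_ne_one hψ), zero_smul])
    (a := fun x ℓ => x (tR ℓ)) (fun x ℓ => by rw [htR])
  refine trace_ne_two h36 hp𝒪 hp2 hpS hq hqp ρ hκ hd habs hodd tR ?_ hA hur hσ₀ x hocc hx
  intro ℓ hℓ hℓS A hA σ hσ
  have h1 := hfrob ⟨⟨ℓ, hℓ⟩, hℓS⟩ A hA σ hσ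
  rw [← htR] at h1
  exact h1

end Main

end Fermat.Agent.RT
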