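import Fermat.Agent.RT.NThetaUnip
import Fermat.Agent.S34
import Fermat.Agent.S36
import Fermat.Agent.S37

/-!
# The inputs of the comparison of the norm elements
-/

set_option autoImplicit false

noncomputable section

namespace Fermat.Agent.RT

open Fermat.Agent.HeckeRep Fermat.Agent.S30aux ModularCurve Fermat.Agent.Cofaith

theorem stmt36 : Stmt36 := by
  intro M _ g hg lam _ S O' _ _ _ _ _ _ h1 h2 chig hchig iota h3 h4 hres
  exact Fermat.Agent.S36.result hg lam S O' h1 h2 chig hchig iota h3 h4 hres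

theorem stmt34 : Stmt34 := by
  intro 𝒪 _ _ _ _ _ _ p hp hp𝒪 N _ S hpS hNS θ T _ _ _ _ _ _ _ _ H q hq hqp hqN hq2
  exact Fermat.Agent.S34.result hp hp𝒪 hpS hNS H q hq hqp hqN hq2

theorem unipLow {p : ℕ} [Fact p.Prime] {S : Finset ℕ} (hp2 : p ≠ 2) (hpS : p ∈ S) :
    UnipLow p S :=
  unipLow_of stmt34
    (fun N _ => Fermat.Agent.S37.result N p (Fermat.Agent.HeckeComm.heckeOperatorsCommuteBar N)
      (smulCommClass_JZero N)) hp2 hpS

end Fermat.Agent.RT
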