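import Mathlib

/-!
# Freeness over the group ring through the Galois side

`B` is a local ring (a group ring `𝒪[Δ_Q]`), `M` a finite free `B`-module (diamond operators) and
`Θ : B → End_B M` a second action (inertia characters on the Galois side).  If `Θ (N_q) = N_q` for the
norm elements of the cyclic factors then `M` is also free through `Θ`, and the augmentation ideals
have the same action.
-/

set_option autoImplicit false
set_option linter.unusedSectionVars false
set_option linter.style.haveILetI false

open IsLocalRing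

namespace Fermat.Agent.RT

section Core

variable {B : Type*} [CommRing B] [IsLocalRing B] {M : Type*} [AddCommGroup M] [Module B M]
  [Module.Finite B M] [Module.Free B M]

/-- if `y ^ k ∉ J`, `M` free and `y ^ k • m ∈ J M` then `m ∈ 𝔪 M`. -/
theorem mem_smul_top_of_pow_smul_mem {J : Ideal B} {z : B} (hz : z ∉ J) {m : M}
    (hm : z • m ∈ J • (⊤ : Submodule B M)) : m ∈ maximalIdeal B • (⊤ : Submodule B M) := by
  classical
  set b := Module.Free.chooseBasis B M
  have h1 : ∀ (I : Ideal B) (x : M), x ∈ I • (⊤ : Submodule B M) ↔ ∀ i, b.repr x i ∈ I := by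
    intro I x
    constructor
    · intro hx i
      refine Submodule.smul_induction_on hx ?_ ?_
      · intro r hr n _
        simpa using I.mul_mem_right _ hr
      · intro x y hx hy
        simpa using I.add_mem hx hy
    · intro hx
      rw [← b.sum_repr x]
      exact Submodule.sum_mem _ fun i _ => Submodule.smul_mem_smul (hx i) trivial
  rw [h1] at hm ⊢
  intro i
  by_contra hu
  have hu' : IsUnit (b.repr m i) := by
    simpa [mem_maximalIdeal, mem_nonunits_iff] using hu
  have := hm i
  rw [map_smul, Finsupp.smul_apply, smul_eq_mul] at this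
  obtain ⟨u, hu⟩ := hu'
  rw [← hu] at this
  exact hz ((Ideal.unit_mul_mem_iff_mem J u.isUnit).1 (by rwa [mul_comm] at this))

/-- an endomorphism with values in `y M` is `y` times an endomorphism. -/
theorem exists_eq_smul {y : B} {e : Module.End B M} (h : ∀ m, ∃ m', e m = y • m') :
    ∃ φ : Module.End B M, e = y • φ := by
  classical
  set b := Module.Free.chooseBasis B M
  choose f hf using h
  refine ⟨b.constr B fun i => f (b i), b.ext fun i => ?_⟩
  simp [hf]

theorem surjective_of_pow_sub_mem {φ : Module.End B M} {k : ℕ} (hk : 0 < k)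
    (h : ∀ m, (φ ^ k) m - m ∈ maximalIdeal B • (⊤ : Submodule B M)) : Function.Surjective φ := by
  rw [← LinearMap.range_eq_top]
  refine top_unique ?_
  refine Submodule.le_of_le_smul_of_le_jacobson_bot (I := maximalIdeal B) Module.Finite.fg_top
    (IsLocalRing.maximalIdeal_le_jacobson _) ?_
  intro m _
  rw [Submodule.mem_sup]
  obtain ⟨k, rfl⟩ : ∃ j, k = j + 1 := ⟨k - 1, by omega⟩
  refine ⟨(φ ^ (k + 1)) m, ⟨(φ ^ k) m, by rw [pow_succ']; rfl⟩, -((φ ^ (k + 1)) m - m),
    Submodule.neg_mem _ (h m), by abel⟩

/-- the key lemma: `e = y φ` with `φ` bijective. -/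
theorem exists_equiv_eq_smul {J : Ideal B} {y : B} {e : Module.End B M} {k : ℕ} (hk : 0 < k)
    (hy : y ^ k ∉ J) (hle : ∀ m, ∃ m', e m = y • m')
    (hpow : ∀ m, (e ^ k) m - y ^ k • m ∈ J • (⊤ : Submodule B M)) :
    ∃ φ : M ≃ₗ[B] M, ∀ m, e m = y • φ m := by
  obtain ⟨φ, rfl⟩ := exists_eq_smul hle
  have hsurj : Function.Surjective φ := by
    refine surjective_of_pow_sub_mem hk fun m => ?_
    refine mem_smul_top_of_pow_smul_mem hy ?_
    have := hpow m
    rwa [smul_pow, LinearMap.smul_apply, ← smul_sub] at this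
  have hinj : Function.Injective φ := OrzechProperty.injective_of_surjective_endomorphism φ hsurj
  exact ⟨LinearEquiv.ofBijective φ ⟨hinj, hsurj⟩, fun m => rfl⟩

end Core


section Theta

variable {𝒪 : Type*} [CommRing 𝒪] {B : Type*} [CommRing B] [IsLocalRing B] [Algebra 𝒪 B]
  {M : Type*} [AddCommGroup M] [Module B M] [Module 𝒪 M] [IsScalarTower 𝒪 B M]

/-- `M` with the action of `B` through `Θ`. -/
def TM (_Θ : B →ₐ[𝒪] Module.End 𝒪 M) : Type _ := M

variable (Θ : B →ₐ[𝒪] Module.End 𝒪 M)

instance : AddCommGroup (TM Θ) := inferInstanceAs (AddCommGroup M)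
instance : Module 𝒪 (TM Θ) := inferInstanceAs (Module 𝒪 M)
noncomputable instance : Module B (TM Θ) := Module.compHom M Θ.toRingHom

/-- the identity map -/
def toTM : M ≃ₗ[𝒪] TM Θ := LinearEquiv.refl 𝒪 M

theorem smul_toTM (b : B) (m : M) : b • toTM Θ m = toTM Θ (Θ b m) := rfl

instance : IsScalarTower 𝒪 B (TM Θ) where
  smul_assoc a b m := by
    change Θ (a • b) m = a • Θ b m
    rw [map_smul]; rfl

variable {ι : Type*} (y : ι → B) (I₀ : Ideal 𝒪)

include y I₀ in
theorem exists_basis_TM {κ : Type*} [Fintype κ] (b : Module.Basis κ B M) [Module.Finite 𝒪 B]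
    (hmax : maximalIdeal B ≤ I₀.map (algebraMap 𝒪 B) ⊔ Ideal.span (Set.range y))
    (hI₀ : I₀.map (algebraMap 𝒪 B) ≤ maximalIdeal B) (hy : ∀ i, y i ∈ maximalIdeal B)
    (hres : ∀ c : B, ∃ a : 𝒪, c - algebraMap 𝒪 B a ∈ maximalIdeal B)
    (h : ∀ i, ∀ m : M, ∃ m', y i • m = Θ (y i) m') :
    ∃ b' : Module.Basis κ B (TM Θ), ∀ j, b' j = toTM Θ (b j) := by
  classical
  haveI : Module.Finite B M := Module.Finite.of_basis b
  haveI : Module.Finite 𝒪 M := Module.Finite.trans B M
  haveI : Module.Finite 𝒪 (TM Θ) := inferInstanceAs (Module.Finite 𝒪 M)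
  haveI : Module.Finite B (TM Θ) := Module.Finite.of_restrictScalars_finite 𝒪 B (TM Θ)
  set F : (κ → B) →ₗ[B] TM Θ := Fintype.linearCombination B (fun j => toTM Θ (b j)) with hF
  have hsurj : Function.Surjective F := by
    rw [← LinearMap.range_eq_top]
    refine top_unique ?_
    refine Submodule.le_of_le_smul_of_le_jacobson_bot (I := maximalIdeal B) Module.Finite.fg_top
      (IsLocalRing.maximalIdeal_le_jacobson _) ?_
    -- first: `𝔪 M` is contained in `𝔪 (TM)`
    have key : ∀ c ∈ maximalIdeal B, ∀ m : M,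
        toTM Θ (c • m) ∈ maximalIdeal B • (⊤ : Submodule B (TM Θ)) := by
      intro c hc m
      obtain ⟨c₁, hc₁, c₂, hc₂, rfl⟩ := Submodule.mem_sup.1 (hmax hc)
      rw [add_smul, map_add]
      refine Submodule.add_mem _ ?_ ?_
      · revert m
        refine Submodule.span_induction (p := fun c _ => ∀ m : M, toTM Θ (c • m) ∈
          maximalIdeal B • (⊤ : Submodule B (TM Θ))) ?_ ?_ ?_ ?_ hc₁
        · rintro _ ⟨a, ha, rfl⟩ m
          rw [algebraMap_smul, map_smul, ← algebraMap_smul B a (toTM Θ m)]
          exact Submodule.smul_mem_smul (hI₀ (Ideal.mem_map_of_mem _ ha)) trivial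
        · intro m; simp
        · intro u v _ _ hu hv m
          rw [add_smul, map_add]
          exact Submodule.add_mem _ (hu m) (hv m)
        · intro u v _ hv m
          rw [smul_eq_mul, mul_comm, mul_smul]
          exact hv _
      · revert m
        refine Submodule.span_induction (p := fun c _ => ∀ m : M, toTM Θ (c • m) ∈
          maximalIdeal B • (⊤ : Submodule B (TM Θ))) ?_ ?_ ?_ ?_ hc₂
        · rintro _ ⟨i, rfl⟩ m
          obtain ⟨m', hm'⟩ := h i m
          rw [hm', ← smul_toTM]
          exact Submodule.smul_mem_smul (hy i) trivial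
        · intro m; simp
        · intro u v _ _ hu hv m
          rw [add_smul, map_add]
          exact Submodule.add_mem _ (hu m) (hv m)
        · intro u v _ hv m
          rw [smul_eq_mul, mul_comm, mul_smul]
          exact hv _
    intro x _
    obtain ⟨m, rfl⟩ : ∃ m, toTM Θ m = x := ⟨x, rfl⟩
    choose a ha using hres
    have hm : m = ∑ j, (a (b.repr m j)) • b j +
        ∑ j, (b.repr m j - algebraMap 𝒪 B (a (b.repr m j))) • b j := by
      rw [← Finset.sum_add_distrib]
      conv_lhs => rw [← b.sum_repr m]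
      refine Finset.sum_congr rfl fun j _ => ?_
      rw [sub_smul, algebraMap_smul]; abel
    rw [hm, map_add]
    refine Submodule.add_mem_sup ?_ ?_
    · rw [map_sum]
      refine Submodule.sum_mem _ fun j _ => ?_
      refine ⟨Pi.single j (algebraMap 𝒪 B (a (b.repr m j))), ?_⟩
      rw [hF, Fintype.linearCombination_apply_single, algebraMap_smul, map_smul]
    · rw [map_sum]
      exact Submodule.sum_mem _ fun j _ => key _ (ha _) _
  have hinj : Function.Injective F := by
    let e : (κ → B) ≃ₗ[𝒪] TM Θ := (b.equivFun.symm.restrictScalars 𝒪).trans (toTM Θ)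
    let G : Module.End 𝒪 (TM Θ) := (F.restrictScalars 𝒪).comp e.symm.toLinearMap
    have hG : Function.Surjective G := by
      intro x
      obtain ⟨c, hc⟩ := hsurj x
      exact ⟨e c, by simp [G, hc]⟩
    have hGi : Function.Injective G := OrzechProperty.injective_of_surjective_endomorphism G hG
    intro c c' hcc
    have : G (e c) = G (e c') := by simpa [G] using hcc
    exact e.injective (hGi this)
  refine ⟨Module.Basis.ofEquivFun (LinearEquiv.ofBijective F ⟨hinj, hsurj⟩).symm, fun j => ?_⟩
  rw [Module.Basis.coe_ofEquivFun]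
  simp only [LinearEquiv.symm_symm, LinearEquiv.ofBijective_apply, hF]
  rw [Fintype.linearCombination_apply_single, one_smul]

end Theta

end Fermat.Agent.RT
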