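import Fermat.Agent.RT.TypesExp

/-!
# Disjointness of types at a prime: with characters and depletion away from `q`
-/

set_option autoImplicit false
set_option linter.unusedSectionVars false

open UpperHalfPlane CongruenceSubgroup ModularForm
open scoped MatrixGroups

namespace Fermat.Agent.RT

variable {k : ℤ} {m q : ℕ} [hq : Fact q.Prime] {ψ χ : MulChar (ZMod q) ℂ} {f g : ℍ → ℂ}
  {a b : ℕ → ℂ}

/-- the Fourier transform on `ZMod r` -/
noncomputable def ft (r : ℕ) [NeZero r] (φ : ZMod r → ℂ) (t : ZMod r) : ℂ :=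
  (r : ℂ)⁻¹ * ∑ x : ZMod r, φ x * ZMod.stdAddChar (N := r) (-(x * t))

theorem sum_ft (r : ℕ) [NeZero r] (φ : ZMod r → ℂ) (n : ZMod r) :
    ∑ t : ZMod r, ft r φ t * ZMod.stdAddChar (N := r) (n * t) = φ n := by
  have hr : (r : ℂ) ≠ 0 := by exact_mod_cast NeZero.ne r
  have h : ∀ t : ZMod r, ft r φ t * ZMod.stdAddChar (N := r) (n * t) =
      (r : ℂ)⁻¹ * ∑ x : ZMod r, φ x * ZMod.stdAddChar (N := r) (t * (n - x)) := by
    intro t
    rw [ft, mul_assoc, Finset.sum_mul]
    congr 1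
    refine Finset.sum_congr rfl fun x _ => ?_
    rw [mul_assoc, ← AddChar.map_add_eq_mul]
    congr 2
    ring
  rw [Finset.sum_congr rfl fun t _ => h t, ← Finset.mul_sum, Finset.sum_comm]
  have h2 : ∀ x : ZMod r, ∑ t : ZMod r, φ x * ZMod.stdAddChar (N := r) (t * (n - x)) =
      if x = n then φ n * r else 0 := by
    intro x
    rw [← Finset.mul_sum, AddChar.sum_mulShift _ (ZMod.isPrimitive_stdAddChar r), ZMod.card]
    by_cases hx : x = n
    · rw [if_pos hx, if_pos (by rw [hx, sub_self]), hx]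
    · rw [if_neg hx, if_neg (by rw [sub_eq_zero]; exact fun h => hx h.symm)]
      simp
  rw [Finset.sum_congr rfl fun x _ => h2 x, Finset.sum_ite_eq' Finset.univ n, if_pos (Finset.mem_univ _)]
  field_simp

theorem hasSum_of_eq {F F' : ℕ → ℂ} {x x' : ℂ} (h : HasSum F x) (h1 : ∀ n, F' n = F n)
    (h2 : x' = x) : HasSum F' x' := by
  rw [h2, funext h1]; exact h

/-- the operator `∑ a_n q^n ↦ ∑ φ(n) a_n q^n`. -/
noncomputable def rop (r : ℕ) [NeZero r] (φ : ZMod r → ℂ) (f : ℍ → ℂ) : ℍ → ℂ :=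
  ∑ t : ZMod r, ft r φ t • fun z => f (shf ((t.val : ℝ) / r) 1 z)

theorem HasExp.rop (hf : HasExp f a) (r : ℕ) [NeZero r] (φ : ZMod r → ℂ) :
    HasExp (rop r φ f) (fun n => φ n * a n) := by
  intro z
  have h1 : ∀ t : ZMod r, HasSum (fun n : ℕ => ft r φ t *
      (a n * ZMod.stdAddChar (N := r) (n * t) * ee (n * z)))
      ((ft r φ t • fun z => f (RT.shf ((t.val : ℝ) / r) 1 z)) z) := by
    intro t
    have h2 := (hf.shf ((t.val : ℝ) / r) 1 z).mul_left (ft r φ t)
    refine hasSum_of_eq h2 (fun n => ?_) rfl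
    have h3 := ee_eq_stdAddChar r n t.val
    rw [ZMod.natCast_zmod_val] at h3
    rw [← h3]
    simp only [Nat.cast_one, div_one]
    push_cast
    ring_nf
  have h3 := hasSum_sum (s := Finset.univ) fun t _ => h1 t
  rw [RT.rop, Finset.sum_apply]
  refine hasSum_of_eq h3 (fun n => ?_) rfl
  change φ n * a n * ee (n * z) = _
  rw [← sum_ft r φ n, Finset.sum_mul, Finset.sum_mul]
  exact Finset.sum_congr rfl fun t _ => by ring

theorem IsUp.rop (hf : IsUp k m q ψ f) (r : ℕ) [NeZero r] (hr : r.Coprime q) (φ : ZMod r → ℂ) :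
    IsUp k (m * r ^ 2) q ψ (rop r φ f) :=
  IsUp.sum fun t _ => isUp_shift hf r hr t.val

/-- **Disjointness of types**, version with arbitrary functions modulo `r` prime to `q`. -/
theorem coeff_eq_zero {r : ℕ} [NeZero r] (hm : m.Coprime q) (hr : r.Coprime q) (hψ : ψ ≠ 1)
    (hχ : χ ≠ 1) (hf : IsUp k m q ψ f) (hg : IsUp k m q 1 g) (ha : HasExp f a) (hb : HasExp g b)
    (φ₁ φ₂ : ZMod r → ℂ) (hrel : ∀ n : ℕ, ¬ q ∣ n → φ₁ n * a n = χ n * (φ₂ n * b n)) (n : ℕ) :
    φ₁ n * a n = 0 := by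
  have hmr : (m * r ^ 2).Coprime q := Nat.Coprime.mul_left hm (Nat.Coprime.pow_left 2 hr)
  exact (ha.rop r φ₁).eq_zero (eq_zero_of_coeff hmr hψ hχ (hf.rop r hr φ₁) (hg.rop r hr φ₂)
    (ha.rop r φ₁) (hb.rop r φ₂) hrel) n

section Char

/-- the CRT decomposition of the units -/
noncomputable def crtU (q m : ℕ) (hm : m.Coprime q) : (ZMod (q * m))ˣ ≃* (ZMod q)ˣ × (ZMod m)ˣ :=
  (Units.mapEquiv (ZMod.chineseRemainder hm.symm).toMulEquiv).trans
    (MulEquiv.prodUnits (M := ZMod q) (N := ZMod m))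

omit hq in
theorem crtU_fst (hm : m.Coprime q) (u : (ZMod (q * m))ˣ) : 
    (crtU q m hm u).1 = ZMod.unitsMap (Dvd.intro m rfl) u := by
  ext
  change (ZMod.castHom (show (Nat.lcm q m) ∣ q * m by simp [Nat.lcm_dvd_iff]) (ZMod q × ZMod m) u).1 = _
  simp [ZMod.unitsMap]

omit hq in
theorem crtU_snd (hm : m.Coprime q) (u : (ZMod (q * m))ˣ) : 
    (crtU q m hm u).2 = ZMod.unitsMap (Dvd.intro_left q rfl) u := by
  ext
  change (ZMod.castHom (show (Nat.lcm q m) ∣ q * m by simp [Nat.lcm_dvd_iff]) (ZMod q × ZMod m) u).2 = _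
  simp [ZMod.unitsMap]

/-- the `q`-component of a character modulo `q * m`. -/
noncomputable def compQ (hm : m.Coprime q) (ε : DirichletCharacter ℂ (q * m)) :
    MulChar (ZMod q) ℂ :=
  MulChar.ofUnitHom ((ε.toUnitHom.comp (crtU q m hm).symm.toMonoidHom).comp (MonoidHom.inl _ _))

/-- the prime to `q` component of a character modulo `q * m`. -/
noncomputable def compM (hm : m.Coprime q) (ε : DirichletCharacter ℂ (q * m)) :
    DirichletCharacter ℂ m :=
  MulChar.ofUnitHom ((ε.toUnitHom.comp (crtU q m hm).symm.toMonoidHom).comp (MonoidHom.inr _ _))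

theorem comp_mul (hm : m.Coprime q) (ε : DirichletCharacter ℂ (q * m)) (u : (ZMod (q * m))ˣ) :
    compQ hm ε (ZMod.unitsMap (Dvd.intro m rfl) u : (ZMod q)ˣ) *
      compM hm ε (ZMod.unitsMap (Dvd.intro_left q rfl) u : (ZMod m)ˣ) = ε u := by
  rw [← crtU_fst hm, ← crtU_snd hm, compQ, compM, MulChar.ofUnitHom_coe, MulChar.ofUnitHom_coe,
    ← Units.val_mul]
  rw [← MulChar.coe_toUnitHom]
  congr 1
  simp only [MonoidHom.comp_apply, MonoidHom.inl_apply, MonoidHom.inr_apply, ← map_mul]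
  rw [Prod.mk_mul_mk, mul_one, one_mul]
  exact congrArg _ ((crtU q m hm).symm_apply_apply u)

theorem comp_mul_int (hm : m.Coprime q) (ε : DirichletCharacter ℂ (q * m)) (n : ℤ) :
    ε (n : ZMod (q * m)) = compQ hm ε (n : ZMod q) * compM hm ε (n : ZMod m) := by
  by_cases h : IsUnit (n : ZMod (q * m))
  · obtain ⟨u, hu⟩ := h
    rw [← hu, ← comp_mul hm ε u]
    congr 2
    · simp [ZMod.unitsMap, hu]
    · simp [ZMod.unitsMap, hu]
  · rw [MulChar.map_nonunit _ h, eq_comm, mul_eq_zero]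
    by_contra hcon
    push Not at hcon
    apply h
    have h1 : IsUnit (n : ZMod q) := by
      by_contra h1
      exact hcon.1 (MulChar.map_nonunit _ h1)
    have h2 : IsUnit (n : ZMod m) := by
      by_contra h2
      exact hcon.2 (MulChar.map_nonunit _ h2)
    rw [ZMod.coe_int_isUnit_iff_isCoprime] at h1 h2 ⊢
    push_cast
    exact h1.mul_left h2

end Char

end Fermat.Agent.RT
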