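import Mathlib

/-!
# Disjointness of types at a prime (core computation)

A function of type `ψ ≠ 1` on the lower triangular Borel cannot be related to a twist of a function
of trivial type.
-/

set_option autoImplicit false
set_option linter.unusedSectionVars false

open UpperHalfPlane CongruenceSubgroup ModularForm
open scoped MatrixGroups

namespace Fermat.Agent.RT

/-- the slash operator as a linear map -/
noncomputable def sl (k : ℤ) (γ : SL(2, ℤ)) : (ℍ → ℂ) →ₗ[ℂ] (ℍ → ℂ) where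
  toFun f := f ∣[k] γ
  map_add' f g := SlashAction.add_slash k γ f g
  map_smul' c f := by
    rw [RingHom.id_apply]; exact SL_smul_slash k γ f c

theorem sl_apply (k : ℤ) (γ : SL(2, ℤ)) (f : ℍ → ℂ) : sl k γ f = f ∣[k] γ := rfl

theorem sl_mul (k : ℤ) (γ γ' : SL(2, ℤ)) (f : ℍ → ℂ) : sl k (γ * γ') f = sl k γ' (sl k γ f) :=
  SlashAction.slash_mul k γ γ' f

variable {k : ℤ} {m q : ℕ} [hq : Fact q.Prime]

/-- `γ` modulo `q`, entries -/
def en (q : ℕ) (γ : SL(2, ℤ)) (i j : Fin 2) : ZMod q := ((γ i j : ℤ) : ZMod q)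

theorem en_mul (γ γ' : SL(2, ℤ)) (i j : Fin 2) :
    en q (γ * γ') i j = en q γ i 0 * en q γ' 0 j + en q γ i 1 * en q γ' 1 j := by
  simp only [en, Matrix.SpecialLinearGroup.coe_mul, Matrix.mul_apply, Fin.sum_univ_two]
  push_cast; rfl

theorem en_det (γ : SL(2, ℤ)) : en q γ 0 0 * en q γ 1 1 - en q γ 0 1 * en q γ 1 0 = 1 := by
  have := γ.det_coe
  rw [Matrix.det_fin_two] at this
  simp only [en]
  exact_mod_cast congrArg (Int.cast : ℤ → ZMod q) this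

theorem en_inv (γ : SL(2, ℤ)) : en q γ⁻¹ 0 0 = en q γ 1 1 ∧ en q γ⁻¹ 0 1 = - en q γ 0 1 ∧
    en q γ⁻¹ 1 0 = - en q γ 1 0 ∧ en q γ⁻¹ 1 1 = en q γ 0 0 := by
  simp [en, Matrix.SpecialLinearGroup.coe_inv, Matrix.adjugate_fin_two]

/-- type `ψ` for the lower triangular Borel subgroup (upper right entry divisible by `q`). -/
def IsLow (k : ℤ) (m q : ℕ) (ψ : MulChar (ZMod q) ℂ) (A : ℍ → ℂ) : Prop :=
  ∀ γ ∈ Gamma1 m, en q γ 0 1 = 0 → sl k γ A = ψ (en q γ 1 1) • A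

/-- type `ψ` for the upper triangular Borel subgroup (lower left entry divisible by `q`). -/
def IsUp (k : ℤ) (m q : ℕ) (ψ : MulChar (ZMod q) ℂ) (B : ℍ → ℂ) : Prop :=
  ∀ γ ∈ Gamma1 m, en q γ 1 0 = 0 → sl k γ B = ψ (en q γ 1 1) • B

theorem IsLow.eq_smul {ψ : MulChar (ZMod q) ℂ} {A : ℍ → ℂ} (hA : IsLow k m q ψ A)
    {γ γ' : SL(2, ℤ)} (hγ : γ ∈ Gamma1 m) (hγ' : γ' ∈ Gamma1 m) (μ : ZMod q)
    (h0 : μ * en q γ 0 0 = en q γ' 0 0) (h1 : μ * en q γ 0 1 = en q γ' 0 1) :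
    sl k γ A = ψ μ • sl k γ' A := by
  obtain ⟨i1, i2, i3, i4⟩ := en_inv (q := q) γ'
  have e1 : en q (γ * γ'⁻¹) 0 1 = 0 := by
    rw [en_mul, i2, i4, ← h0, ← h1]; ring
  have e2 : en q (γ * γ'⁻¹) 1 1 = μ := by
    rw [en_mul, i2, i4, ← h0, ← h1]
    have := en_det (q := q) γ
    linear_combination μ * this
  have h2 := hA (γ * γ'⁻¹) (mul_mem hγ (inv_mem hγ')) e1
  rw [e2] at h2
  have h3 : γ = γ * γ'⁻¹ * γ' := by simp
  conv_lhs => rw [h3, sl_mul, h2, map_smul]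

theorem IsUp.eq_smul {ψ : MulChar (ZMod q) ℂ} {B : ℍ → ℂ} (hB : IsUp k m q ψ B)
    {γ γ' : SL(2, ℤ)} (hγ : γ ∈ Gamma1 m) (hγ' : γ' ∈ Gamma1 m) (l : ZMod q)
    (h0 : en q γ 1 0 = l * en q γ' 1 0) (h1 : en q γ 1 1 = l * en q γ' 1 1) :
    sl k γ B = ψ l • sl k γ' B := by
  obtain ⟨i1, i2, i3, i4⟩ := en_inv (q := q) γ'
  have e1 : en q (γ * γ'⁻¹) 1 0 = 0 := by
    rw [en_mul, i1, i3, h0, h1]; ring
  have e2 : en q (γ * γ'⁻¹) 1 1 = l := by
    rw [en_mul, i2, i4, h0, h1]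
    have := en_det (q := q) γ'
    linear_combination l * this
  have h2 := hB (γ * γ'⁻¹) (mul_mem hγ (inv_mem hγ')) e1
  rw [e2] at h2
  have h3 : γ = γ * γ'⁻¹ * γ' := by simp
  conv_lhs => rw [h3, sl_mul, h2, map_smul]

/-- `[1 t; 0 1]` -/
def tt (t : ZMod q) : SL(2, ℤ) := ⟨!![1, (t.val : ℤ); 0, 1], by simp [Matrix.det_fin_two]⟩

/-- `[1 0; c 1]` modulo `q`, in `Γ₁(m)` -/
def nn (m : ℕ) (c : ZMod q) : SL(2, ℤ) :=
  ⟨!![1, 0; (m : ℤ) * (((m : ZMod q)⁻¹ * c).val : ℤ), 1], by simp [Matrix.det_fin_two]⟩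

theorem tt_mem (t : ZMod q) : tt t ∈ Gamma1 m := by
  rw [Gamma1_mem]; simp [tt]

theorem nn_mem (c : ZMod q) : nn m c ∈ Gamma1 m := by
  rw [Gamma1_mem]; simp [nn]

theorem en_tt (t : ZMod q) : en q (tt t) 0 0 = 1 ∧ en q (tt t) 0 1 = t ∧ en q (tt t) 1 0 = 0 ∧
    en q (tt t) 1 1 = 1 := by
  simp [en, tt]

theorem en_nn (hm : m.Coprime q) (c : ZMod q) : en q (nn m c) 0 0 = 1 ∧ en q (nn m c) 0 1 = 0 ∧
    en q (nn m c) 1 0 = c ∧ en q (nn m c) 1 1 = 1 := by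
  have h : (m : ZMod q) ≠ 0 := by
    rw [Ne, ZMod.natCast_eq_zero_iff]
    intro h
    exact hq.out.one_lt.ne' (Nat.dvd_one.1 (hm ▸ Nat.dvd_gcd h dvd_rfl) ▸ rfl)
  simp [en, nn, mul_inv_cancel_left₀ h]

theorem nn_zero : nn (q := q) m 0 = 1 := by
  ext i j; fin_cases i <;> fin_cases j <;> simp [nn]

variable {ψ ξ : MulChar (ZMod q) ℂ} {A G : ℍ → ℂ}

/-- the average of the translates of `A` -/
noncomputable def avg (k : ℤ) (q : ℕ) [Fact q.Prime] (A : ℍ → ℂ) : ℍ → ℂ :=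
  (q : ℂ)⁻¹ • ∑ t : ZMod q, sl k (tt t) A

theorem isUp_avg (hA : IsLow k m q ψ A) : IsUp k m q ψ (avg k q A) := by
  intro γ hγ h10
  have hdet := en_det (q := q) γ
  rw [h10, mul_zero, sub_zero] at hdet
  have hd : en q γ 1 1 ≠ 0 := by
    intro h; rw [h, mul_zero] at hdet; exact zero_ne_one hdet
  suffices key : ∑ t : ZMod q, sl k γ (sl k (tt t) A) =
      ∑ t : ZMod q, ψ (en q γ 1 1) • sl k (tt t) A by
    rw [avg, map_smul, map_sum, key, ← Finset.smul_sum, smul_comm]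
  let e : ZMod q ≃ ZMod q := (Equiv.mulLeft₀ _ hd).trans
    ((Equiv.addLeft (en q γ 0 1)).trans (Equiv.mulLeft₀ _ hd))
  refine Fintype.sum_equiv e _ _ fun t => ?_
  obtain ⟨a1, a2, a3, a4⟩ := en_tt (q := q) t
  obtain ⟨b1, b2, b3, b4⟩ := en_tt (q := q) (e t)
  rw [← sl_mul]
  refine hA.eq_smul (mul_mem (tt_mem t) hγ) (tt_mem _) _ ?_ ?_
  · rw [en_mul, a1, a2, b1, h10]
    linear_combination hdet
  · rw [en_mul, a1, a2, b2]
    simp only [e, Equiv.trans_apply, Equiv.mulLeft₀_apply, Equiv.coe_addLeft]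
    ring

/-- the twist of `G` -/
noncomputable def twist (k : ℤ) (ξ : MulChar (ZMod q) ℂ) (G : ℍ → ℂ) : ℍ → ℂ :=
  ∑ j : ZMod q, ξ j • sl k (tt j) G

theorem sum_twist_eq_zero (hm : m.Coprime q) (hξ : ξ ≠ 1) (hG : IsLow k m q 1 G) :
    ∑ c : ZMod q, sl k (nn m c) (twist k ξ G) = 0 := by
  simp only [twist, map_sum, map_smul, ← sl_mul]
  rw [Finset.sum_comm]
  have h : ∀ j : ZMod q, ∑ c : ZMod q, ξ j • sl k (tt j * nn m c) G =
      ξ j • ∑ c : ZMod q, sl k (tt (1 : ZMod q) * nn m c) G := by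
    intro j
    by_cases hj : j = 0
    · subst hj
      have : ξ 0 = 0 := ξ.map_nonunit (by simp)
      simp [this]
    rw [← Finset.smul_sum]
    congr 1
    refine Fintype.sum_equiv (Equiv.addRight (j⁻¹ - 1)) _ _ fun c => ?_
    obtain ⟨a1, a2, a3, a4⟩ := en_tt (q := q) j
    obtain ⟨b1, b2, b3, b4⟩ := en_tt (q := q) 1
    obtain ⟨c1, c2, c3, c4⟩ := en_nn hm c
    obtain ⟨d1, d2, d3, d4⟩ := en_nn hm (c + (j⁻¹ - 1))
    have := hG.eq_smul (mul_mem (tt_mem j) (nn_mem c))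
      (mul_mem (tt_mem 1) (nn_mem (c + (j⁻¹ - 1)))) j⁻¹ (by
        rw [en_mul, en_mul, a1, a2, b1, b2, c1, c3, d1, d3]
        field_simp
        ring) (by
        rw [en_mul, en_mul, a1, a2, b1, b2, c2, c4, d2, d4]
        field_simp
        ring)
    rw [Equiv.coe_addRight, this, MulChar.one_apply (by simpa using hj), one_smul]
  rw [Finset.sum_congr rfl fun j _ => h j, ← Finset.sum_smul, MulChar.sum_eq_zero_of_ne_one hξ,
    zero_smul]

theorem sum_sum_eq (hm : m.Coprime q) (hψ : ψ ≠ 1) {B : ℍ → ℂ} (hB : IsUp k m q ψ B) :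
    ∑ t : ZMod q, sl k (tt t) (∑ c : ZMod q, sl k (nn m c) B) = (q : ℂ) • B := by
  simp only [map_sum, ← sl_mul]
  rw [Finset.sum_comm]
  have h : ∀ c : ZMod q, c ≠ 0 → ∑ t : ZMod q, sl k (nn m c * tt t) B =
      ψ c • ∑ t : ZMod q, sl k (nn m (1 : ZMod q) * tt t) B := by
    intro c hc
    rw [Finset.smul_sum]
    refine Fintype.sum_equiv (Equiv.addRight (c⁻¹ - 1)) _ _ fun t => ?_
    obtain ⟨a1, a2, a3, a4⟩ := en_tt (q := q) t
    obtain ⟨b1, b2, b3, b4⟩ := en_tt (q := q) (t + (c⁻¹ - 1))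
    obtain ⟨c1, c2, c3, c4⟩ := en_nn hm c
    obtain ⟨d1, d2, d3, d4⟩ := en_nn (q := q) hm 1
    rw [Equiv.coe_addRight]
    refine hB.eq_smul (mul_mem (nn_mem c) (tt_mem t)) (mul_mem (nn_mem 1) (tt_mem _)) c ?_ ?_
    · rw [en_mul, en_mul, a1, a3, b1, b3, c3, c4, d3, d4]; ring
    · rw [en_mul, en_mul, a2, a4, b2, b4, c3, c4, d3, d4]
      field_simp
      ring
  have h0 : ∑ t : ZMod q, sl k (nn m (0 : ZMod q) * tt t) B = (q : ℂ) • B := by
    have : ∀ t : ZMod q, sl k (nn m (0 : ZMod q) * tt t) B = B := by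
      intro t
      rw [nn_zero, one_mul, hB (tt t) (tt_mem t) (en_tt t).2.2.1, (en_tt t).2.2.2, map_one,
        one_smul]
    rw [Finset.sum_congr rfl fun t _ => this t, Finset.sum_const, Finset.card_univ, ZMod.card,
      Nat.cast_smul_eq_nsmul]
  have hψ0 : ψ 0 = 0 := ψ.map_nonunit (by simp)
  rw [← Finset.add_sum_erase _ _ (Finset.mem_univ (0 : ZMod q)), h0]
  have h1 : ∑ c ∈ Finset.univ.erase (0 : ZMod q), ∑ t : ZMod q, sl k (nn m c * tt t) B =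
      ∑ c ∈ Finset.univ.erase (0 : ZMod q), ψ c • ∑ t : ZMod q, sl k (nn m (1 : ZMod q) * tt t) B :=
    Finset.sum_congr rfl fun c hc => h c (Finset.ne_of_mem_erase hc)
  rw [h1, ← Finset.sum_smul]
  have h2 : ∑ c ∈ Finset.univ.erase (0 : ZMod q), ψ c = 0 := by
    have := MulChar.sum_eq_zero_of_ne_one hψ
    rw [← Finset.add_sum_erase _ _ (Finset.mem_univ (0 : ZMod q)), hψ0, zero_add] at this
    exact this
  rw [h2, zero_smul, add_zero]

/-- **Core lemma.** -/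
theorem eq_zero_of_rel (hm : m.Coprime q) (hψ : ψ ≠ 1) (hξ : ξ ≠ 1) (hA : IsLow k m q ψ A)
    (hG : IsLow k m q 1 G) (C : ℂ) (hrel : A - avg k q A = C • twist k ξ G) : A = 0 := by
  have hq0 : (q : ℂ) ≠ 0 := by exact_mod_cast hq.out.ne_zero
  have hAn : ∀ c : ZMod q, sl k (nn m c) A = A := by
    intro c
    obtain ⟨c1, c2, c3, c4⟩ := en_nn hm c
    rw [hA _ (nn_mem c) c2, c4, map_one, one_smul]
  have h1 : (q : ℂ) • A = ∑ c : ZMod q, sl k (nn m c) (avg k q A) := by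
    have h2 := congrArg (fun F => ∑ c : ZMod q, sl k (nn m c) F) hrel
    simp only [map_sub, map_smul, ← Finset.smul_sum, sum_twist_eq_zero hm hξ hG, smul_zero,
      Finset.sum_sub_distrib, hAn, Finset.sum_const, Finset.card_univ, ZMod.card] at h2
    rw [sub_eq_zero] at h2
    rw [← h2, Nat.cast_smul_eq_nsmul]
  have h3 : (q : ℂ) • avg k q A = ∑ t : ZMod q, sl k (tt t) A := by
    rw [avg, smul_smul, mul_inv_cancel₀ hq0, one_smul]
  have h4 : (q : ℂ) • ((q : ℂ) • avg k q A) = (q : ℂ) • avg k q A := by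
    have h5 := sum_sum_eq hm hψ (isUp_avg hA)
    rw [← h1] at h5
    refine Eq.trans ?_ h5
    rw [h3]
    simp only [map_smul, ← Finset.smul_sum]
  have h5 : avg k q A = 0 := by
    have h6 : ((q : ℂ) * ((q : ℂ) - 1)) • avg k q A = 0 := by
      rw [mul_sub, mul_one, sub_smul, mul_smul, h4, sub_self]
    rcases smul_eq_zero.1 h6 with h7 | h7
    · exfalso
      rcases mul_eq_zero.1 h7 with h8 | h8
      · exact hq0 h8
      · rw [sub_eq_zero] at h8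
        exact hq.out.one_lt.ne' (by exact_mod_cast h8)
    · exact h7
  rw [h5] at h1
  simp only [map_zero, Finset.sum_const_zero] at h1
  exact (smul_eq_zero.1 h1).resolve_left hq0

end Fermat.Agent.RT
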