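import Fermat.Agent.RT.TypesCore

/-!
# Disjointness of types at a prime: the version with `q`-expansions
-/

set_option autoImplicit false
set_option linter.unusedSectionVars false

open UpperHalfPlane CongruenceSubgroup ModularForm
open scoped MatrixGroups

namespace Fermat.Agent.RT

/-- `exp (2 π i w)` -/
noncomputable def ee (w : ℂ) : ℂ := Complex.exp (2 * Real.pi * Complex.I * w)

theorem ee_add (w w' : ℂ) : ee (w + w') = ee w * ee w' := by
  rw [ee, ee, ee, ← Complex.exp_add]; ring_nf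

/-- an expansion `f(z) = ∑ a_n e(nz)` -/
def HasExp (f : ℍ → ℂ) (a : ℕ → ℂ) : Prop := ∀ z : ℍ, HasSum (fun n : ℕ => a n * ee (n * (z : ℂ))) (f z)

/-- `z ↦ (z + x) / d` on the upper half plane -/
noncomputable def shf (x : ℝ) (d : ℕ) [NeZero d] (z : ℍ) : ℍ :=
  ⟨((z : ℂ) + x) / d, by
    have h : ((z : ℂ) + x) / (d : ℂ) = ((z : ℂ) + x) * (((d : ℝ)⁻¹ : ℝ) : ℂ) := by
      push_cast; rw [div_eq_mul_inv]
    have hd : (0 : ℝ) < d := by exact_mod_cast Nat.pos_of_ne_zero (NeZero.ne d)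
    rw [h, Complex.mul_im]
    simp only [Complex.ofReal_re, Complex.ofReal_im, mul_zero, zero_add, Complex.add_im, add_zero]
    exact mul_pos z.im_pos (inv_pos.2 hd)⟩

theorem coe_shf (x : ℝ) (d : ℕ) [NeZero d] (z : ℍ) : (shf x d z : ℂ) = ((z : ℂ) + x) / d := rfl

theorem sl_app (k : ℤ) (γ : SL(2, ℤ)) (f : ℍ → ℂ) (z : ℍ) :
    sl k γ f z = f (γ • z) * denom γ z ^ (-k) := SL_slash_apply f γ z

theorem denom_sl (γ : SL(2, ℤ)) (z : ℍ) :
    denom γ z = ((γ 1 0 : ℤ) : ℂ) * z + ((γ 1 1 : ℤ) : ℂ) := by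
  simp [denom]

theorem coe_smul_sl (γ : SL(2, ℤ)) (z : ℍ) :
    ((γ • z : ℍ) : ℂ) = (((γ 0 0 : ℤ) : ℂ) * z + ((γ 0 1 : ℤ) : ℂ)) /
      (((γ 1 0 : ℤ) : ℂ) * z + ((γ 1 1 : ℤ) : ℂ)) := by
  rw [specialLinearGroup_apply]
  simp

theorem denom_ne (γ : SL(2, ℤ)) (z : ℍ) :
    ((γ 1 0 : ℤ) : ℂ) * z + ((γ 1 1 : ℤ) : ℂ) ≠ 0 := by
  rw [← denom_sl]; exact denom_ne_zero _ _

/-- conjugation principle: if `(shf x d)` intertwines `γ` and `γ'` then slashes correspond. -/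
theorem sl_comp_shf (k : ℤ) (γ γ' : SL(2, ℤ)) (x : ℝ) (d : ℕ) [NeZero d] (f : ℍ → ℂ)
    (h00 : ((γ 0 0 : ℤ) : ℂ) + x * ((γ 1 0 : ℤ) : ℂ) = ((γ' 0 0 : ℤ) : ℂ))
    (h01 : ((γ 0 1 : ℤ) : ℂ) + x * ((γ 1 1 : ℤ) : ℂ) = x * ((γ' 0 0 : ℤ) : ℂ) + d * ((γ' 0 1 : ℤ) : ℂ))
    (h10 : d * ((γ 1 0 : ℤ) : ℂ) = ((γ' 1 0 : ℤ) : ℂ))
    (h11 : ((γ 1 1 : ℤ) : ℂ) * d = x * ((γ' 1 0 : ℤ) : ℂ) + d * ((γ' 1 1 : ℤ) : ℂ)) :
    sl k γ (fun z => f (shf x d z)) = fun z => sl k γ' f (shf x d z) := by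
  funext z
  have hd : (d : ℂ) ≠ 0 := by exact_mod_cast NeZero.ne d
  have hden : ((γ' 1 0 : ℤ) : ℂ) * (shf x d z : ℂ) + ((γ' 1 1 : ℤ) : ℂ) =
      ((γ 1 0 : ℤ) : ℂ) * z + ((γ 1 1 : ℤ) : ℂ) := by
    rw [coe_shf]
    field_simp
    rw [← h10] at h11 ⊢
    linear_combination -h11
  have hpt : shf x d (γ • z) = γ' • (shf x d z) := by
    apply UpperHalfPlane.ext
    rw [coe_smul_sl, hden, coe_shf, coe_shf, coe_smul_sl]
    have h1 := denom_ne γ z
    generalize hD : ((γ 1 0 : ℤ) : ℂ) * z + ((γ 1 1 : ℤ) : ℂ) = D at h1 ⊢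
    field_simp
    linear_combination (z : ℂ) * h00 + h01 - x * hD
  rw [sl_app, sl_app, hpt, denom_sl, denom_sl, hden]

section Scale

variable {k : ℤ} {m q : ℕ} [hq : Fact q.Prime] {ψ ξ : MulChar (ZMod q) ℂ} {f g : ℍ → ℂ}
  {a b : ℕ → ℂ}

/-- `f(z/q)` is of lower type if `f` is of upper type. -/
theorem isLow_scale (hf : IsUp k m q ψ f) : IsLow k m q ψ (fun z => f (shf 0 q z)) := by
  intro γ hγ h01
  obtain ⟨b', hb'⟩ : (q : ℤ) ∣ γ 0 1 := (ZMod.intCast_zmod_eq_zero_iff_dvd _ _).1 h01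
  have hdet : γ 0 0 * γ 1 1 - γ 0 1 * γ 1 0 = 1 := by
    have := γ.det_coe
    rwa [Matrix.det_fin_two] at this
  let γ' : SL(2, ℤ) := ⟨!![γ 0 0, b'; q * γ 1 0, γ 1 1], by
    rw [Matrix.det_fin_two_of]; rw [hb'] at hdet; linarith⟩
  have e00 : γ' 0 0 = γ 0 0 := rfl
  have e01 : γ' 0 1 = b' := rfl
  have e10 : γ' 1 0 = q * γ 1 0 := rfl
  have e11 : γ' 1 1 = γ 1 1 := rfl
  have hγ' : γ' ∈ Gamma1 m := by
    rw [Gamma1_mem] at hγ ⊢
    rw [e00, e10, e11]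
    refine ⟨hγ.1, hγ.2.1, ?_⟩
    rw [Int.cast_mul, hγ.2.2, mul_zero]
  have key := sl_comp_shf k γ γ' 0 q f (by rw [e00]; simp) (by rw [e01, hb']; push_cast; ring)
    (by rw [e10]; push_cast; ring) (by rw [e11]; push_cast; ring)
  rw [key, hf γ' hγ' (by simp [en, e10])]
  funext z
  simp [en, e11]

/-- translates `f(z + t/r)` -/
theorem isUp_shift (hf : IsUp k m q ψ f) (r : ℕ) [NeZero r] (hr : r.Coprime q) (t : ℕ) :
    IsUp k (m * r ^ 2) q ψ (fun z => f (shf ((t : ℝ) / r) 1 z)) := by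
  intro γ hγ h10
  rw [Gamma1_mem] at hγ
  obtain ⟨h1, h2, h3⟩ := hγ
  have hrZ : (r : ℤ) ≠ 0 := by exact_mod_cast NeZero.ne r
  obtain ⟨c', hc'⟩ : ((m * r ^ 2 : ℕ) : ℤ) ∣ γ 1 0 := (ZMod.intCast_zmod_eq_zero_iff_dvd _ _).1 h3
  obtain ⟨a', ha'⟩ : ((m * r ^ 2 : ℕ) : ℤ) ∣ γ 0 0 - 1 := by
    rw [← ZMod.intCast_zmod_eq_zero_iff_dvd, Int.cast_sub, h1]; simp
  obtain ⟨d', hd'⟩ : ((m * r ^ 2 : ℕ) : ℤ) ∣ γ 1 1 - 1 := by
    rw [← ZMod.intCast_zmod_eq_zero_iff_dvd, Int.cast_sub, h2]; simp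
  have hdet : γ 0 0 * γ 1 1 - γ 0 1 * γ 1 0 = 1 := by
    have := γ.det_coe
    rwa [Matrix.det_fin_two] at this
  have ha : γ 0 0 = 1 + m * r ^ 2 * a' := by push_cast at ha'; linarith
  have hd : γ 1 1 = 1 + m * r ^ 2 * d' := by push_cast at hd'; linarith
  have hc : γ 1 0 = m * r ^ 2 * c' := by push_cast at hc'; exact hc'
  let γ' : SL(2, ℤ) := ⟨!![γ 0 0 + t * m * r * c', γ 0 1 + t * m * r * (d' - a') - t ^ 2 * m * c';
    γ 1 0, γ 1 1 - t * m * r * c'], by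
      rw [Matrix.det_fin_two_of]
      rw [ha, hd, hc] at hdet ⊢
      linear_combination hdet⟩
  have e00 : γ' 0 0 = γ 0 0 + t * m * r * c' := rfl
  have e01 : γ' 0 1 = γ 0 1 + t * m * r * (d' - a') - t ^ 2 * m * c' := rfl
  have e10 : γ' 1 0 = γ 1 0 := rfl
  have e11 : γ' 1 1 = γ 1 1 - t * m * r * c' := rfl
  have hγ' : γ' ∈ Gamma1 m := by
    rw [Gamma1_mem, e00, e10, e11, ha, hd, hc]
    push_cast
    simp
  have hrC : (r : ℂ) ≠ 0 := by exact_mod_cast NeZero.ne r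
  have key := sl_comp_shf k γ γ' ((t : ℝ) / r) 1 f (by
      rw [e00, ha, hc]; push_cast; field_simp) (by
      rw [e00, e01, ha, hd]; push_cast; field_simp; ring) (by
      rw [e10]; push_cast; ring) (by
      rw [e11, e10, hc]; push_cast; field_simp; ring)
  have h10' : en q γ' 1 0 = 0 := by rw [en, e10]; exact h10
  have h11' : en q γ' 1 1 = en q γ 1 1 := by
    have hrq : (r : ZMod q) ≠ 0 := by
      rw [Ne, ZMod.natCast_eq_zero_iff]
      intro h
      exact hq.out.one_lt.ne' (Nat.dvd_one.1 (hr ▸ Nat.dvd_gcd h dvd_rfl) ▸ rfl)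
    have h5 : ((m : ZMod q) * c') = 0 := by
      have : (r : ZMod q) ^ 2 * ((m : ZMod q) * c') = 0 := by
        have := h10
        rw [en, hc] at this
        push_cast at this
        linear_combination this
      exact (mul_eq_zero.1 this).resolve_left (pow_ne_zero 2 hrq)
    rw [en, en, e11]
    push_cast
    linear_combination - (t : ZMod q) * r * h5
  rw [key, hf γ' hγ' h10', h11']
  rfl

theorem IsUp.of_dvd {m' : ℕ} (hf : IsUp k m q ψ f) (h : m ∣ m') : IsUp k m' q ψ f := by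
  intro γ hγ h10
  refine hf γ ?_ h10
  rw [Gamma1_mem] at hγ ⊢
  have hc : ∀ x y : ℤ, (x : ZMod m') = y → (x : ZMod m) = y := by
    intro x y hxy
    rw [ZMod.intCast_eq_intCast_iff] at hxy ⊢
    exact hxy.of_dvd (by exact_mod_cast h)
  refine ⟨by simpa using hc (γ 0 0) 1 (by simpa using hγ.1),
    by simpa using hc (γ 1 1) 1 (by simpa using hγ.2.1),
    by simpa using hc (γ 1 0) 0 (by simpa using hγ.2.2)⟩

theorem IsUp.sum {ι : Type*} {s : Finset ι} {F : ι → ℍ → ℂ} {c : ι → ℂ}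
    (h : ∀ i ∈ s, IsUp k m q ψ (F i)) : IsUp k m q ψ (∑ i ∈ s, c i • F i) := by
  intro γ hγ h10
  rw [map_sum, Finset.smul_sum]
  refine Finset.sum_congr rfl fun i hi => ?_
  rw [map_smul, h i hi γ hγ h10, smul_comm]

end Scale

section Exp

variable {k : ℤ} {m q : ℕ} [hq : Fact q.Prime] {ψ χ : MulChar (ZMod q) ℂ} {f g : ℍ → ℂ}
  {a b : ℕ → ℂ}

theorem HasExp.shf (hf : HasExp f a) (x : ℝ) (d : ℕ) [NeZero d] (z : ℍ) :
    HasSum (fun n : ℕ => a n * ee (n * x / d) * ee (n * z / d)) (f (RT.shf x d z)) := by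
  have h := hf (RT.shf x d z)
  convert h using 2 with n
  rw [mul_assoc, ← ee_add, coe_shf]
  congr 2
  ring

theorem ee_eq_stdAddChar (r : ℕ) [NeZero r] (n t : ℕ) :
    ee ((n : ℂ) * (t / r)) = ZMod.stdAddChar (N := r) ((n : ZMod r) * t) := by
  have : ((n : ZMod r) * t) = (((n * t : ℕ) : ℤ) : ZMod r) := by push_cast; ring
  rw [this, ZMod.stdAddChar_coe, ee]
  congr 1
  push_cast
  ring

theorem sl_tt_scale (t : ZMod q) (z : ℍ) :
    sl k (tt t) (fun z => f (shf 0 q z)) z = f (shf (t.val : ℝ) q z) := by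
  rw [sl_app, denom_sl]
  have h10 : (tt t) 1 0 = 0 := rfl
  have h11 : (tt t) 1 1 = 1 := rfl
  have h00 : (tt t) 0 0 = 1 := rfl
  have h01 : (tt t) 0 1 = (t.val : ℤ) := rfl
  rw [h10, h11]
  simp only [Int.cast_zero, zero_mul, Int.cast_one, zero_add, one_zpow, mul_one]
  congr 1
  apply UpperHalfPlane.ext
  rw [coe_shf, coe_shf, coe_smul_sl, h10, h11, h00, h01]
  simp only [Int.cast_one, one_mul, Int.cast_natCast, Int.cast_zero, zero_mul, zero_add, div_one,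
    Complex.ofReal_zero, add_zero, Complex.ofReal_natCast]

theorem hasSum_sl_tt (hf : HasExp f a) (t : ZMod q) (z : ℍ) :
    HasSum (fun n : ℕ => a n * ZMod.stdAddChar (N := q) (n * t) * ee (n * z / q))
      (sl k (tt t) (fun z => f (shf 0 q z)) z) := by
  rw [sl_tt_scale]
  have h := hf.shf (t.val : ℝ) q z
  convert h using 3 with n
  have h2 := ee_eq_stdAddChar q n t.val
  rw [ZMod.natCast_zmod_val] at h2
  rw [← h2]
  congr 2
  push_cast
  ring

theorem gaussSum_shift (hχ : χ ≠ 1) (n : ℕ) :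
    ∑ j : ZMod q, χ⁻¹ j * ZMod.stdAddChar (N := q) (n * j) =
      χ n * gaussSum χ⁻¹ (ZMod.stdAddChar (N := q)) := by
  by_cases hn : (n : ZMod q) = 0
  · have h1 : χ (n : ZMod q) = 0 := by rw [hn]; exact χ.map_nonunit (by simp)
    rw [h1, zero_mul, hn]
    simp only [zero_mul, AddChar.map_zero_eq_one, mul_one]
    exact MulChar.sum_eq_zero_of_ne_one (inv_ne_one.2 hχ)
  · obtain ⟨u, hu⟩ : IsUnit (n : ZMod q) := (Ne.isUnit hn)
    have h := gaussSum_mulShift χ⁻¹ (ZMod.stdAddChar (N := q)) u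
    rw [gaussSum] at h
    simp only [AddChar.mulShift_apply, hu] at h
    rw [← h, ← mul_assoc, MulChar.inv_apply_eq_inv', mul_inv_cancel₀, one_mul]
    rw [← hu]
    exact (u.isUnit.map χ).ne_zero

/-- uniqueness of expansions -/
theorem HasExp.eq_zero (hf : HasExp f a) (h0 : f = 0) : ∀ n, a n = 0 := by
  intro n
  have hq : ∀ (τ : ℍ) (m : ℕ), Function.Periodic.qParam 1 (τ : ℂ) ^ m = ee (m * (τ : ℂ)) := by
    intro τ m
    unfold Function.Periodic.qParam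
    rw [← Complex.exp_nat_mul, ee]
    congr 1
    push_cast
    ring
  have h1 := ModularFormClass.qExpansion_coeff_unique (c := a) (k := 2) (Γ := 𝒮ℒ)
    (f := (0 : ModularForm 𝒮ℒ 2)) one_pos one_mem_strictPeriods_SL (by
      intro τ
      have := hf τ
      rw [h0] at this
      simpa [hq] using this) n
  have h2 := ModularFormClass.qExpansion_coeff_unique (c := fun _ => 0) (k := 2) (Γ := 𝒮ℒ)
    (f := (0 : ModularForm 𝒮ℒ 2)) one_pos one_mem_strictPeriods_SL (by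
      intro τ
      simp) n
  rw [h1, ← h2]

/-- **Disjointness of types**, first version. -/
theorem eq_zero_of_coeff (hm : m.Coprime q) (hψ : ψ ≠ 1) (hχ : χ ≠ 1) (hf : IsUp k m q ψ f)
    (hg : IsUp k m q 1 g) (ha : HasExp f a) (hb : HasExp g b)
    (hrel : ∀ n : ℕ, ¬ q ∣ n → a n = χ n * b n) : f = 0 := by
  have hG0 : gaussSum χ⁻¹ (ZMod.stdAddChar (N := q)) ≠ 0 := by
    refine gaussSum_ne_zero_of_nontrivial ?_ (inv_ne_one.2 hχ) (ZMod.isPrimitive_stdAddChar q)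
    rw [ZMod.card]; exact_mod_cast hq.out.ne_zero
  have hq0 : (q : ℂ) ≠ 0 := by exact_mod_cast hq.out.ne_zero
  have key : (fun z => f (shf 0 q z)) = 0 := by
    refine eq_zero_of_rel hm hψ (inv_ne_one.2 hχ) (isLow_scale hf) (isLow_scale hg)
      (gaussSum χ⁻¹ (ZMod.stdAddChar (N := q)))⁻¹ ?_
    funext z
    have h1 : HasSum (fun n : ℕ => a n * ee (n * z / q)) (f (shf 0 q z)) := by
      have := ha.shf 0 q z
      simpa [ee] using this
    have h2 : HasSum (fun n : ℕ => (q : ℂ)⁻¹ * ∑ t : ZMod q,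
        a n * ZMod.stdAddChar (N := q) (n * t) * ee (n * z / q))
        (avg k q (fun z => f (shf 0 q z)) z) := by
      rw [avg, Pi.smul_apply, Finset.sum_apply, smul_eq_mul]
      exact (hasSum_sum fun t _ => hasSum_sl_tt ha t z).mul_left _
    have h3 : HasSum (fun n : ℕ => ∑ j : ZMod q,
        χ⁻¹ j * (b n * ZMod.stdAddChar (N := q) (n * j) * ee (n * z / q)))
        (twist k χ⁻¹ (fun z => g (shf 0 q z)) z) := by
      rw [twist, Finset.sum_apply]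
      exact hasSum_sum fun t _ => (hasSum_sl_tt hb t z).mul_left _
    have h4 := h3.mul_left (gaussSum χ⁻¹ (ZMod.stdAddChar (N := q)))⁻¹
    have h5 := h1.sub h2
    change f (shf 0 q z) - _ = _ * _
    refine h5.unique (Eq.mp (congrArg (fun F : ℕ → ℂ => HasSum F _) (funext fun n => ?_)) h4)
    have h6 : ∑ j : ZMod q, χ⁻¹ j * (b n * ZMod.stdAddChar (N := q) (n * j) * ee (n * z / q)) =
        (χ n * gaussSum χ⁻¹ (ZMod.stdAddChar (N := q))) * (b n * ee (n * z / q)) := by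
      rw [← gaussSum_shift hχ, Finset.sum_mul]
      exact Finset.sum_congr rfl fun j _ => by ring
    have h7 : ∑ t : ZMod q, a n * ZMod.stdAddChar (N := q) (n * t) * ee (n * z / q) =
        (∑ t : ZMod q, ZMod.stdAddChar (N := q) (t * n)) * (a n * ee (n * z / q)) := by
      rw [Finset.sum_mul]
      exact Finset.sum_congr rfl fun j _ => by rw [mul_comm j]; ring
    rw [h6, h7, AddChar.sum_mulShift _ (ZMod.isPrimitive_stdAddChar q), ZMod.card]
    by_cases hn : (n : ZMod q) = 0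
    · have : χ (n : ZMod q) = 0 := by rw [hn]; exact χ.map_nonunit (by simp)
      rw [if_pos hn, this]
      field_simp
      ring
    · rw [if_neg hn, hrel n (fun h => hn ((ZMod.natCast_eq_zero_iff _ _).2 h))]
      field_simp
      ring
  funext z
  have hqpos : (0 : ℝ) < q := by exact_mod_cast hq.out.pos
  let w : ℍ := ⟨q * z, by
    have : ((q : ℂ) * (z : ℂ)).im = q * z.im := by simp
    rw [this]; exact mul_pos hqpos z.im_pos⟩
  have h := congrFun key w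
  have hw : shf 0 q w = z := by
    apply UpperHalfPlane.ext
    rw [coe_shf]
    change ((q : ℂ) * z + ((0 : ℝ) : ℂ)) / q = z
    field_simp
    simp
  simpa [hw] using h

end Exp

end Fermat.Agent.RT
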