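import Fermat.Agent.HeckeRep.Datum

/-!
# Adic Galois representations are determined by Frobenius elements: characteristic polynomials
-/

set_option autoImplicit false
set_option linter.style.haveILetI false

open Polynomial
open scoped TensorProduct

namespace Fermat.Agent.RT

open Fermat.Agent.HeckeRep Fermat.Agent.S30aux

/-- the absolute Galois group -/
local notation "GQ'" => (AlgebraicClosure ℚ ≃ₐ[ℚ] AlgebraicClosure ℚ)

lemma repr_mem_of_mem_smul_top {R V ι : Type*} [CommRing R] [AddCommGroup V] [Module R V]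
    (b : Module.Basis ι R V) (I : Ideal R) {x : V} (hx : x ∈ I • (⊤ : Submodule R V)) (i : ι) :
    b.repr x i ∈ I := by
  refine Submodule.smul_induction_on hx ?_ ?_
  · intro r hr n _
    rw [map_smul, Finsupp.smul_apply, smul_eq_mul]
    exact I.mul_mem_right _ hr
  · intro x y hx hy
    rw [map_add, Finsupp.add_apply]
    exact I.add_mem hx hy

lemma trace_mem_of_forall_mem {R V : Type*} [CommRing R] [AddCommGroup V] [Module R V]
    [Module.Free R V] [Module.Finite R V] (I : Ideal R) (f : Module.End R V)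
    (hf : ∀ x, f x ∈ I • (⊤ : Submodule R V)) : LinearMap.trace R V f ∈ I := by
  classical
  let b := Module.Free.chooseBasis R V
  rw [LinearMap.trace_eq_matrix_trace R b, Matrix.trace]
  refine Ideal.sum_mem _ fun i _ => ?_
  rw [Matrix.diag_apply, LinearMap.toMatrix_apply]
  exact repr_mem_of_mem_smul_top b I (hf _) i

variable {T : Type} [CommRing T] [IsLocalRing T]

lemma trace_level (ρ : GaloisRepAdic T) (n : ℕ) :
    ∃ L : IntermediateField ℚ (AlgebraicClosure ℚ), FiniteDimensional ℚ L ∧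
      ∀ σ : GQ', (∀ x ∈ L, σ x = x) → ∀ y,
        ρ.trace (y * σ) - ρ.trace y ∈ IsLocalRing.maximalIdeal T ^ n := by
  obtain ⟨L, hL, h1⟩ := ρ.isAdicContinuous n
  refine ⟨L, hL, fun σ hσ y => ?_⟩
  rw [GaloisRepAdic.trace, GaloisRepAdic.trace, ← map_sub]
  refine trace_mem_of_forall_mem _ _ fun x => ?_
  rw [LinearMap.sub_apply, map_mul, Module.End.mul_apply, ← map_sub]
  have h2 := h1 σ hσ x
  have h3 : Submodule.map (ρ.ρ y) ((IsLocalRing.maximalIdeal T ^ n) • (⊤ : Submodule T ρ.V)) ≤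
      (IsLocalRing.maximalIdeal T ^ n) • (⊤ : Submodule T ρ.V) := by
    rw [Submodule.map_smul'']
    exact Submodule.smul_mono le_rfl le_top
  exact h3 (Submodule.mem_map_of_mem h2)

lemma isPseudo_adic (ρ : GaloisRepAdic T) : IsPseudo ρ.trace ρ.det :=
  isPseudo_trace ρ.finrank_eq ρ.ρ _ (fun _ => rfl)

variable [IsHausdorff (IsLocalRing.maximalIdeal T) T]

lemma eq_of_sub_mem {a b : T} (h : ∀ n, a - b ∈ IsLocalRing.maximalIdeal T ^ n) : a = b := by
  rw [← sub_eq_zero]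
  refine IsHausdorff.haus ‹_› _ fun n => ?_
  rw [SModEq.zero, smul_eq_mul, Ideal.mul_top]
  exact h n

/-- the trace is determined by the values at Frobenius elements -/
theorem trace_eq_of_frobenius {ρ ρ' : GaloisRepAdic T} (S : Set ℕ) (hS : S.Finite)
    (hF : ∀ ℓ : ℕ, ℓ.Prime → ℓ ∉ S → ∀ A : ValuationSubring (AlgebraicClosure ℚ),
      A.LiesOverPrime ℓ → ∀ φ : GQ', A.IsFrobeniusAt φ ℓ →
        (ρ.ρ φ).charpoly = (ρ'.ρ φ).charpoly) (g : GQ') : ρ.trace g = ρ'.trace g := by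
  refine eq_of_sub_mem fun n => ?_
  refine sub_mem_of_frobenius (isPseudo_adic ρ) (isPseudo_adic ρ') _ (trace_level ρ n)
    (trace_level ρ' n) S hS ?_ g
  intro ℓ hℓ hℓS A hA φ hφ
  have h2 := hF ℓ hℓ hℓS A hA φ hφ
  rw [charpoly_eq_trace_det ρ'.finrank_eq] at h2
  obtain ⟨h3, h4⟩ := charpoly_coeff_zero ρ.finrank_eq _ h2
  refine ⟨?_, ?_⟩
  · rw [GaloisRepAdic.trace, GaloisRepAdic.trace, h3, sub_self]; exact Ideal.zero_mem _
  · change LinearMap.det (ρ.ρ φ) - LinearMap.det (ρ'.ρ φ) ∈ _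
    rw [h4, sub_self]; exact Ideal.zero_mem _

/-- the characteristic polynomials are determined by those at Frobenius elements -/
theorem charpoly_eq_of_frobenius {κ : T} (hκ : 2 * κ = 1) {ρ ρ' : GaloisRepAdic T} (S : Set ℕ)
    (hS : S.Finite)
    (hF : ∀ ℓ : ℕ, ℓ.Prime → ℓ ∉ S → ∀ A : ValuationSubring (AlgebraicClosure ℚ),
      A.LiesOverPrime ℓ → ∀ φ : GQ', A.IsFrobeniusAt φ ℓ →
        (ρ.ρ φ).charpoly = (ρ'.ρ φ).charpoly) (g : GQ') :
    (ρ.ρ g).charpoly = (ρ'.ρ g).charpoly := by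
  have h1 := trace_eq_of_frobenius S hS hF
  have h2 := det_sub_mem (isPseudo_adic ρ) (isPseudo_adic ρ') hκ ⊥ (fun g => by
    rw [h1, sub_self]; exact Ideal.zero_mem _) g
  rw [Submodule.mem_bot, sub_eq_zero] at h2
  rw [charpoly_eq_trace_det ρ.finrank_eq, charpoly_eq_trace_det ρ'.finrank_eq]
  have h3 : LinearMap.trace T ρ.V (ρ.ρ g) = LinearMap.trace T ρ'.V (ρ'.ρ g) := h1 g
  have h4 : LinearMap.det (ρ.ρ g) = LinearMap.det (ρ'.ρ g) := h2
  rw [h3, h4]

omit [IsHausdorff (IsLocalRing.maximalIdeal T) T] in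
lemma charpoly_baseChangeAlong_adic {B : Type} [CommRing B] [IsLocalRing B] (φ : T →+* B)
    (hφ : IsLocalHom φ) (ρ : GaloisRepAdic T) (g : GQ') :
    ((ρ.baseChangeAlong φ hφ).ρ g).charpoly = (ρ.ρ g).charpoly.map φ := by
  letI : Algebra T B := φ.toAlgebra
  exact LinearMap.charpoly_baseChange (A := B) (ρ.ρ g)

omit [IsHausdorff (IsLocalRing.maximalIdeal T) T] in
/-- representations over different rings -/
theorem charpoly_eq_map_of_frobenius {B : Type} [CommRing B] [IsLocalRing B]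
    [IsHausdorff (IsLocalRing.maximalIdeal B) B] (φ : T →+* B) (hφ : IsLocalHom φ)
    {κ : B} (hκ : 2 * κ = 1) {ρ : GaloisRepAdic T} {ρ' : GaloisRepAdic B} (S : Set ℕ)
    (hS : S.Finite)
    (hF : ∀ ℓ : ℕ, ℓ.Prime → ℓ ∉ S → ∀ A : ValuationSubring (AlgebraicClosure ℚ),
      A.LiesOverPrime ℓ → ∀ σ : GQ', A.IsFrobeniusAt σ ℓ →
        (ρ'.ρ σ).charpoly = (ρ.ρ σ).charpoly.map φ) (g : GQ') :
    (ρ'.ρ g).charpoly = (ρ.ρ g).charpoly.map φ := by
  rw [← charpoly_baseChangeAlong_adic φ hφ]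
  refine charpoly_eq_of_frobenius hκ S hS (fun ℓ hℓ hℓS A hA σ hσ => ?_) g
  rw [hF ℓ hℓ hℓS A hA σ hσ, charpoly_baseChangeAlong_adic]

omit [IsHausdorff (IsLocalRing.maximalIdeal T) T] in
/-- unipotence on inertia can be checked after an injective base change, and only depends on the
characteristic polynomials at Frobenius elements -/
theorem isUnipotentOnInertiaAt_iff {B : Type} [CommRing B] [IsLocalRing B]
    [IsHausdorff (IsLocalRing.maximalIdeal B) B] (φ : T →+* B) (hφ : IsLocalHom φ)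
    (hinj : Function.Injective φ)
    {κ : B} (hκ : 2 * κ = 1) {ρ : GaloisRepAdic T} {ρ' : GaloisRepAdic B} (S : Set ℕ)
    (hS : S.Finite)
    (hF : ∀ ℓ : ℕ, ℓ.Prime → ℓ ∉ S → ∀ A : ValuationSubring (AlgebraicClosure ℚ),
      A.LiesOverPrime ℓ → ∀ σ : GQ', A.IsFrobeniusAt σ ℓ →
        (ρ'.ρ σ).charpoly = (ρ.ρ σ).charpoly.map φ) (q : ℕ) :
    ρ'.IsUnipotentOnInertiaAt q ↔ ρ.IsUnipotentOnInertiaAt q := by
  have key := charpoly_eq_map_of_frobenius φ hφ hκ S hS hF
  have h1 : ((X - 1) ^ 2 : T[X]).map φ = (X - 1) ^ 2 := by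
    simp
  refine forall_congr' fun P => forall_congr' fun _ => forall_congr' fun σ => forall_congr' fun _ => ?_
  rw [key, ← h1]
  exact (Polynomial.map_injective φ hinj).eq_iff

end Fermat.Agent.RT
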